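/-
S59lib / HS / Proj (helper2): **the local factor of a finite algebra over a complete local ring**.

`A` a finite commutative algebra over a complete noetherian local ring `𝒪`, `P` a maximal ideal of `A`:
`A → A_P` is surjective and there is `e ∈ A` with `e ↦ 1` and `e · ker (A → A_P) = 0`
(the idempotent of the factor `A_P` of `A = ∏ A_𝔪`; Prelude
`Algebra.finite_maximalSpectrum_and_bijective_localization_of_module_finite`).
-/
import Mathlib
import Fermat.Prelude.Thm_Algebra_finite_maximalSpectrum_and_bijective_localization_of_module_finite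

set_option autoImplicit false

namespace Fermat.Agent.S59lib.HS

open IsLocalRing

section Proj

variable {𝒪 : Type} [CommRing 𝒪] [IsLocalRing 𝒪] [IsNoetherianRing 𝒪]
  [IsAdicComplete (maximalIdeal 𝒪) 𝒪]
variable (A : Type) [CommRing A] [Algebra 𝒪 A] [Module.Finite 𝒪 A] (P : Ideal A) [hP : P.IsMaximal]

include 𝒪 in
/-- `A → A_P` is surjective -/
theorem algebraMap_atPrime_surjective :
    Function.Surjective (algebraMap A (Localization.AtPrime P)) := by
  classical
  obtain ⟨-, hbij, -, -⟩ :=
    Algebra.finite_maximalSpectrum_and_bijective_localization_of_module_finite (𝒪 := 𝒪) A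
  let I₀ : MaximalSpectrum A := ⟨P, hP⟩
  intro z
  obtain ⟨b, hb⟩ := hbij.2 (Function.update 0 I₀ z)
  refine ⟨b, ?_⟩
  have h := congrFun hb I₀
  simp only [Function.update_self] at h
  exact h

include 𝒪 in
/-- the idempotent of the factor `A_P` -/
theorem exists_idem_atPrime :
    ∃ e : A, algebraMap A (Localization.AtPrime P) e = 1 ∧
      ∀ k : A, algebraMap A (Localization.AtPrime P) k = 0 → e * k = 0 := by
  classical
  obtain ⟨-, hbij, -, -⟩ :=
    Algebra.finite_maximalSpectrum_and_bijective_localization_of_module_finite (𝒪 := 𝒪) A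
  let I₀ : MaximalSpectrum A := ⟨P, hP⟩
  obtain ⟨e, he⟩ := hbij.2 (Function.update 0 I₀ 1)
  have he0 : algebraMap A (Localization.AtPrime P) e = 1 := by
    have h := congrFun he I₀
    simp only [Function.update_self] at h
    exact h
  refine ⟨e, he0, fun k hk => ?_⟩
  apply hbij.1
  rw [map_mul, map_zero, he]
  funext I
  by_cases hI : I = I₀
  · subst hI
    show Function.update (0 : ∀ I : MaximalSpectrum A, Localization.AtPrime I.asIdeal) I₀ 1 I₀ *
      algebraMap A (Localization.AtPrime P) k = 0
    rw [hk, mul_zero]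
  · show Function.update (0 : ∀ I : MaximalSpectrum A, Localization.AtPrime I.asIdeal) I₀ 1 I * _ = 0
    rw [Function.update_of_ne hI, Pi.zero_apply, zero_mul]

variable {A P}

/-- `e` is idempotent -/
theorem idem_mul_self {e : A} (he1 : algebraMap A (Localization.AtPrime P) e = 1)
    (he : ∀ k : A, algebraMap A (Localization.AtPrime P) k = 0 → e * k = 0) : e * e = e := by
  have h := he (e - 1) (by rw [map_sub, he1, map_one, sub_self])
  linear_combination h

include 𝒪 in
/-- every `s ∉ P` divides `e` -/
theorem exists_mul_eq_idem {e : A}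
    (he : ∀ k : A, algebraMap A (Localization.AtPrime P) k = 0 → e * k = 0) {s : A} (hs : s ∉ P) :
    ∃ b : A, b * s = e := by
  have hu : IsUnit (algebraMap A (Localization.AtPrime P) s) :=
    IsLocalization.map_units (Localization.AtPrime P) (⟨s, hs⟩ : P.primeCompl)
  obtain ⟨u, hu⟩ := hu
  obtain ⟨b', hb'⟩ := algebraMap_atPrime_surjective (𝒪 := 𝒪) A P (↑u⁻¹ : Localization.AtPrime P)
  have h := he (b' * s - 1) (by
    rw [map_sub, map_mul, hb', ← hu, Units.inv_mul, map_one, sub_self])
  exact ⟨e * b', by linear_combination h⟩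

include 𝒪 in
/-- lifting with support in the factor -/
theorem exists_lift_idem {e : A} (he1 : algebraMap A (Localization.AtPrime P) e = 1)
    (z : Localization.AtPrime P) :
    ∃ a : A, algebraMap A (Localization.AtPrime P) a = z ∧ ∃ a' : A, a = e * a' := by
  obtain ⟨a', ha'⟩ := algebraMap_atPrime_surjective (𝒪 := 𝒪) A P z
  exact ⟨e * a', by rw [map_mul, he1, one_mul, ha'], a', rfl⟩

end Proj

end Fermat.Agent.S59lib.HS
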