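/-
S59lib / HS / Abs (helper2): **the abstract top bound** for the congruence module.

`L` a finite free module over the complete DVR `𝒪` with a perfect pairing, `A` a finite commutative
`𝒪`-algebra acting self-adjointly on `L`, `πA : A → 𝒪` an augmentation, `𝔫 = πA⁻¹(𝔪_𝒪)`.  If an
augmented `𝒪`-algebra `(T₀, π)` surjects onto the local factor `A_𝔫` compatibly with the augmentations,
then every `s₀ ∈ Ann_{T₀}(ker π)` bounds the congruence module of `L[ker πA]`: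
`length (L ⧸ (L[𝔭] + L[𝔭]^⊥)) ≤ rank L[𝔭] · length (𝒪 ⧸ π s₀)`.
-/
import Mathlib
import Fermat.Agent.S59lib.HS.Proj
import Fermat.Agent.S59lib.N3.Bound

set_option autoImplicit false

noncomputable section

namespace Fermat.Agent.S59lib.HS

open IsLocalRing Fermat.Agent.S59lib.N3

section Aug

variable {𝒪 : Type} [CommRing 𝒪] [IsLocalRing 𝒪]
variable {A : Type} [CommRing A] [Algebra 𝒪 A]

/-- the maximal ideal of an augmentation: `πA⁻¹(𝔪_𝒪)` -/
def augIdeal (πA : A →ₐ[𝒪] 𝒪) : Ideal A := (maximalIdeal 𝒪).comap πA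

theorem mem_augIdeal {πA : A →ₐ[𝒪] 𝒪} {a : A} : a ∈ augIdeal πA ↔ πA a ∈ maximalIdeal 𝒪 :=
  Iff.rfl

instance augIdeal_isMaximal (πA : A →ₐ[𝒪] 𝒪) : (augIdeal πA).IsMaximal := by
  have hsurj : Function.Surjective (πA : A →+* 𝒪) := fun c =>
    ⟨algebraMap 𝒪 A c, by simp⟩
  exact Ideal.comap_isMaximal_of_surjective (πA : A →+* 𝒪) hsurj

/-- the augmentation of the local factor -/
theorem exists_locAug (πA : A →ₐ[𝒪] 𝒪) :
    ∃ πloc : Localization.AtPrime (augIdeal πA) →ₐ[𝒪] 𝒪,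
      ∀ a : A, πloc (algebraMap A (Localization.AtPrime (augIdeal πA)) a) = πA a := by
  have hg : ∀ y : (augIdeal πA).primeCompl, IsUnit ((πA : A →+* 𝒪) y) := by
    intro y
    have hy : (y : A) ∉ augIdeal πA := y.2
    rw [mem_augIdeal, mem_maximalIdeal, mem_nonunits_iff, not_not] at hy
    exact hy
  let f : Localization.AtPrime (augIdeal πA) →+* 𝒪 := IsLocalization.lift hg
  have hf : ∀ a : A, f (algebraMap A (Localization.AtPrime (augIdeal πA)) a) = πA a :=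
    fun a => IsLocalization.lift_eq hg a
  refine ⟨{ f with commutes' := ?_ }, hf⟩
  intro c
  show f (algebraMap 𝒪 (Localization.AtPrime (augIdeal πA)) c) = algebraMap 𝒪 𝒪 c
  rw [IsScalarTower.algebraMap_apply 𝒪 A (Localization.AtPrime (augIdeal πA)), hf, AlgHom.commutes]

end Aug

section Top

variable {𝒪 : Type} [CommRing 𝒪] [IsDomain 𝒪] [IsDiscreteValuationRing 𝒪]
  [IsAdicComplete (maximalIdeal 𝒪) 𝒪]
variable {L : Type*} [AddCommGroup L] [Module 𝒪 L] [Module.Finite 𝒪 L] [Module.Free 𝒪 L]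
variable {A : Type} [CommRing A] [Algebra 𝒪 A] [Module.Finite 𝒪 A] [Module A L]
  [IsScalarTower 𝒪 A L]
variable {T₀ : Type*} [CommRing T₀] [Algebra 𝒪 T₀]

/-- **The abstract top bound.** -/
theorem length_cong_tors_le_of_local {B : L →ₗ[𝒪] L →ₗ[𝒪] 𝒪}
    (hperf : ∀ f : L →ₗ[𝒪] 𝒪, ∃ m, ∀ x, B x m = f x)
    (hadj : ∀ (t : A) (x y : L), B (t • x) y = B x (t • y))
    (πA : A →ₐ[𝒪] 𝒪) (π : T₀ →ₐ[𝒪] 𝒪)
    (β : T₀ →ₐ[𝒪] Localization.AtPrime (augIdeal πA)) (hβ : Function.Surjective β)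
    (πloc : Localization.AtPrime (augIdeal πA) →ₐ[𝒪] 𝒪)
    (hloc : ∀ a : A, πloc (algebraMap A (Localization.AtPrime (augIdeal πA)) a) = πA a)
    (hπ : ∀ t : T₀, πloc (β t) = π t)
    (s₀ : T₀) (hs₀ : ∀ t : T₀, π t = 0 → s₀ * t = 0) :
    Module.length 𝒪 (L ⧸ ((tors (RingHom.ker πA) : Submodule 𝒪 L) ⊔
        rorth B (tors (RingHom.ker πA) : Submodule 𝒪 L))) ≤
      Module.finrank 𝒪 (tors (RingHom.ker πA) : Submodule 𝒪 L) *
        Module.length 𝒪 (𝒪 ⧸ (Ideal.span {π s₀} : Ideal 𝒪)) := by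
  obtain ⟨e, he1, he⟩ := exists_idem_atPrime (𝒪 := 𝒪) A (augIdeal πA)
  -- `z = β s₀` kills `ker πloc`
  have hz : ∀ t' : Localization.AtPrime (augIdeal πA), πloc t' = 0 → β s₀ * t' = 0 := by
    intro t' ht'
    obtain ⟨t, rfl⟩ := hβ t'
    rw [hπ] at ht'
    rw [← map_mul, hs₀ t ht', map_zero]
  obtain ⟨a, ha, a', rfl⟩ := exists_lift_idem (𝒪 := 𝒪) he1 (β s₀)
  have hak : ∀ k ∈ RingHom.ker πA, e * a' * k = 0 := by
    intro k hk
    have h1 : algebraMap A (Localization.AtPrime (augIdeal πA)) (a' * k) = 0 := by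
      have h2 : algebraMap A (Localization.AtPrime (augIdeal πA)) a' = β s₀ := by
        rw [map_mul, he1, one_mul] at ha
        exact ha
      rw [map_mul, h2]
      apply hz
      rw [hloc]
      exact hk
    rw [mul_assoc]
    exact he _ h1
  have hπa : πA (e * a') = π s₀ := by rw [← hloc, ha, hπ]
  have := length_cong_tors_le hperf hadj πA (e * a') hak
  rwa [hπa] at this

/-- **The abstract top bound**, for a submodule `Λ` identified with `L[ker πA]`. -/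
theorem length_cong_le_of_local {B : L →ₗ[𝒪] L →ₗ[𝒪] 𝒪}
    (hperf : ∀ f : L →ₗ[𝒪] 𝒪, ∃ m, ∀ x, B x m = f x)
    (hadj : ∀ (t : A) (x y : L), B (t • x) y = B x (t • y))
    (πA : A →ₐ[𝒪] 𝒪) (π : T₀ →ₐ[𝒪] 𝒪)
    (β : T₀ →ₐ[𝒪] Localization.AtPrime (augIdeal πA)) (hβ : Function.Surjective β)
    (πloc : Localization.AtPrime (augIdeal πA) →ₐ[𝒪] 𝒪)
    (hloc : ∀ a : A, πloc (algebraMap A (Localization.AtPrime (augIdeal πA)) a) = πA a)
    (hπ : ∀ t : T₀, πloc (β t) = π t)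
    (Λ : Submodule 𝒪 L) (hΛ : ∀ x : L, x ∈ Λ ↔ ∀ k : A, πA k = 0 → k • x = 0)
    (s₀ : T₀) (hs₀ : ∀ t : T₀, π t = 0 → s₀ * t = 0) :
    Module.length 𝒪 (L ⧸ (Λ ⊔ rorth B Λ)) ≤
      Module.finrank 𝒪 Λ * Module.length 𝒪 (𝒪 ⧸ (Ideal.span {π s₀} : Ideal 𝒪)) := by
  have h : (tors (RingHom.ker πA) : Submodule 𝒪 L) = Λ := by
    ext x
    rw [mem_tors, hΛ]
    exact ⟨fun h k hk => h k hk, fun h k hk => h k hk⟩
  rw [← h]
  exact length_cong_tors_le_of_local hperf hadj πA π β hβ πloc hloc hπ s₀ hs₀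

end Top

end Fermat.Agent.S59lib.HS
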