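/-
S59lib / HS / Gen (helper2): **the Betti Hecke algebra** `hecA 𝒪 M P ⊆ End_𝒪 (𝒪 ⊗ L_M)`, generated by the
`T_ℓ` (`ℓ ∤ M`) and the `U_r` (`r ∣ M`), the primes in `P` being dropped: commutative, self-adjoint for
the twisted form, acting on the eigenspace `eigO 𝒪 M P ev` through a character `πA` with
`(𝒪 ⊗ L_M)[ker πA] = eigO 𝒪 M P ev`.
-/
import Mathlib
import Fermat.Agent.S59lib.N3.Step

set_option autoImplicit false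
set_option linter.unusedSectionVars false
set_option linter.unusedVariables false

noncomputable section

namespace Fermat.Agent.S59lib.HS

open Module IsLocalRing TensorProduct CongruenceSubgroup
open Fermat.Agent.S41lib.HC Fermat.Agent.S41lib.BR Fermat.Agent.S16lib.LG Fermat.Agent.S43lib.B1
open Fermat.Agent.S59lib.N3
open scoped MatrixGroups IsMulCommutative

/-! ### `U_q U_r = U_r U_q` -/

section CommUU

variable {M q r : ℕ} [NeZero M] [Fact q.Prime] [Fact r.Prime] (hqM : q ∣ M) (hrM : r ∣ M)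

theorem heckeU_heckeU_comm {A : Type*} [AddCommGroup A] (φ : H (Gamma0 M) A) :
    heckeU hqM A (heckeU hrM A φ) = heckeU hrM A (heckeU hqM A φ) := by
  have h := commStmt M (Sum.inl (Sum.inr ⟨r, (Fact.out : r.Prime), hrM⟩))
    (Sum.inl (Sum.inr ⟨q, (Fact.out : q.Prime), hqM⟩))
  have h2 := op_comm_of_conjRel (unitHom M) (uData hrM) (uData hqM) h A
  exact congrArg (fun f => f φ) h2

theorem uL_uL_comm (x : ↥(VZ (Gamma0 M))) : uL hqM (uL hrM x) = uL hrM (uL hqM x) :=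
  Subtype.ext (heckeU_heckeU_comm hqM hrM x.1)

end CommUU

section CommO

variable {𝒪 : Type*} [CommRing 𝒪] {M : ℕ} [NeZero M]

theorem tO_tO_comm {ℓ ℓ' : ℕ} (hℓ : ℓ.Prime) (hℓM : ¬ ℓ ∣ M) (hℓ' : ℓ'.Prime) (hℓ'M : ¬ ℓ' ∣ M) :
    tO 𝒪 hℓ hℓM * tO 𝒪 hℓ' hℓ'M = tO 𝒪 hℓ' hℓ'M * tO 𝒪 hℓ hℓM := by
  apply lin_ext_one_tmul
  intro x
  show (1 : 𝒪) ⊗ₜ[ℤ] tL hℓ hℓM (tL hℓ' hℓ'M x) = (1 : 𝒪) ⊗ₜ[ℤ] tL hℓ' hℓ'M (tL hℓ hℓM x)
  have h := LinearMap.congr_fun (tL_comm hℓ hℓM hℓ' hℓ'M).eq x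
  rw [Module.End.mul_apply, Module.End.mul_apply] at h
  rw [h]

theorem uO_tO_mul_comm {ℓ r : ℕ} [Fact r.Prime] (hℓ : ℓ.Prime) (hℓM : ¬ ℓ ∣ M) (hrM : r ∣ M) :
    uO 𝒪 hrM * tO 𝒪 hℓ hℓM = tO 𝒪 hℓ hℓM * uO 𝒪 hrM :=
  LinearMap.ext fun x => uO_tO_comm hℓ hℓM hrM x

theorem uO_uO_comm {q r : ℕ} [Fact q.Prime] [Fact r.Prime] (hqM : q ∣ M) (hrM : r ∣ M) :
    uO 𝒪 hqM * uO 𝒪 hrM = uO 𝒪 hrM * uO 𝒪 hqM := by
  apply lin_ext_one_tmul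
  intro x
  show (1 : 𝒪) ⊗ₜ[ℤ] uL hqM (uL hrM x) = (1 : 𝒪) ⊗ₜ[ℤ] uL hrM (uL hqM x)
  rw [uL_uL_comm]

end CommO

/-! ### The algebra -/

section Alg

variable (𝒪 : Type*) [CommRing 𝒪] (M : ℕ) [NeZero M] (P : ℕ → Prop)

/-- the generators: `T_ℓ` (`ℓ ∤ M`) and `U_r` (`r ∣ M`), primes in `P` dropped -/
def genSet : Set (Module.End 𝒪 (MO 𝒪 M)) :=
  {f | (∃ (ℓ : ℕ) (hℓ : ℓ.Prime) (hℓM : ¬ ℓ ∣ M), ¬ P ℓ ∧ f = tO 𝒪 hℓ hℓM) ∨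
    (∃ (r : ℕ) (hr : r.Prime) (hrM : r ∣ M), ¬ P r ∧ f = @uO 𝒪 _ M r _ ⟨hr⟩ hrM)}

theorem genSet_comm : ∀ a ∈ genSet 𝒪 M P, ∀ b ∈ genSet 𝒪 M P, a * b = b * a := by
  rintro a (⟨ℓ, hℓ, hℓM, -, rfl⟩ | ⟨r, hr, hrM, -, rfl⟩) b
    (⟨ℓ', hℓ', hℓ'M, -, rfl⟩ | ⟨r', hr', hr'M, -, rfl⟩)
  · exact tO_tO_comm hℓ hℓM hℓ' hℓ'M
  · have : Fact r'.Prime := ⟨hr'⟩
    exact (uO_tO_mul_comm hℓ hℓM hr'M).symm
  · have : Fact r.Prime := ⟨hr⟩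
    exact uO_tO_mul_comm hℓ' hℓ'M hrM
  · have : Fact r.Prime := ⟨hr⟩
    have : Fact r'.Prime := ⟨hr'⟩
    exact uO_uO_comm hrM hr'M

/-- **the Betti Hecke algebra** -/
def hecA : Subalgebra 𝒪 (Module.End 𝒪 (MO 𝒪 M)) := Algebra.adjoin 𝒪 (genSet 𝒪 M P)

instance hecA_isMulCommutative : IsMulCommutative ↥(hecA 𝒪 M P) :=
  Algebra.isMulCommutative_adjoin 𝒪 (genSet_comm 𝒪 M P)

instance hecA_finite [IsNoetherianRing 𝒪] : Module.Finite 𝒪 ↥(hecA 𝒪 M P) :=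
  Module.Finite.of_injective (hecA 𝒪 M P).val.toLinearMap Subtype.val_injective

/-- **the Betti Hecke algebra as a commutative ring** (a type synonym with coherent instances) -/
def HecA : Type _ := ↥(hecA 𝒪 M P)

instance HecA.instCommRing : CommRing (HecA 𝒪 M P) :=
  inferInstanceAs (CommRing ↥(hecA 𝒪 M P))

instance HecA.instAlgebra : Algebra 𝒪 (HecA 𝒪 M P) :=
  inferInstanceAs (Algebra 𝒪 ↥(hecA 𝒪 M P))

instance HecA.instModule : Module (HecA 𝒪 M P) (MO 𝒪 M) :=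
  inferInstanceAs (Module ↥(hecA 𝒪 M P) (MO 𝒪 M))

instance HecA.instIsScalarTower : IsScalarTower 𝒪 (HecA 𝒪 M P) (MO 𝒪 M) :=
  inferInstanceAs (IsScalarTower 𝒪 ↥(hecA 𝒪 M P) (MO 𝒪 M))

instance HecA.instFinite [IsNoetherianRing 𝒪] : Module.Finite 𝒪 (HecA 𝒪 M P) :=
  inferInstanceAs (Module.Finite 𝒪 ↥(hecA 𝒪 M P))

variable {𝒪 M P}

/-- the underlying endomorphism -/
def HecA.val : HecA 𝒪 M P →ₐ[𝒪] Module.End 𝒪 (MO 𝒪 M) := (hecA 𝒪 M P).val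

/-- an element of the algebra from an endomorphism -/
def HecA.mk (a : Module.End 𝒪 (MO 𝒪 M)) (ha : a ∈ hecA 𝒪 M P) : HecA 𝒪 M P := ⟨a, ha⟩

@[simp] theorem HecA.val_mk (a : Module.End 𝒪 (MO 𝒪 M)) (ha : a ∈ hecA 𝒪 M P) :
    HecA.val (HecA.mk a ha) = a := rfl

theorem HecA.val_mem (a : HecA 𝒪 M P) : HecA.val a ∈ hecA 𝒪 M P := a.2

theorem HecA.val_injective : Function.Injective (HecA.val : HecA 𝒪 M P → _) :=
  Subtype.val_injective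

theorem HecA.smul_def (a : HecA 𝒪 M P) (x : MO 𝒪 M) : a • x = HecA.val a x := rfl

theorem tO_mem_hecA {ℓ : ℕ} (hℓ : ℓ.Prime) (hℓM : ¬ ℓ ∣ M) (hP : ¬ P ℓ) :
    tO 𝒪 hℓ hℓM ∈ hecA 𝒪 M P :=
  Algebra.subset_adjoin (Or.inl ⟨ℓ, hℓ, hℓM, hP, rfl⟩)

theorem uO_mem_hecA {r : ℕ} (hr : r.Prime) (hrM : r ∣ M) (hP : ¬ P r) :
    @uO 𝒪 _ M r _ ⟨hr⟩ hrM ∈ hecA 𝒪 M P :=
  Algebra.subset_adjoin (Or.inr ⟨r, hr, hrM, hP, rfl⟩)

/-- `T_ℓ` as an element of the algebra -/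
def tA {ℓ : ℕ} (hℓ : ℓ.Prime) (hℓM : ¬ ℓ ∣ M) (hP : ¬ P ℓ) : HecA 𝒪 M P :=
  HecA.mk (tO 𝒪 hℓ hℓM) (tO_mem_hecA hℓ hℓM hP)

/-- `U_r` as an element of the algebra -/
def uA {r : ℕ} (hr : r.Prime) (hrM : r ∣ M) (hP : ¬ P r) : HecA 𝒪 M P :=
  HecA.mk (@uO 𝒪 _ M r _ ⟨hr⟩ hrM) (uO_mem_hecA hr hrM hP)

theorem tA_smul {ℓ : ℕ} (hℓ : ℓ.Prime) (hℓM : ¬ ℓ ∣ M) (hP : ¬ P ℓ) (x : MO 𝒪 M) :
    (tA hℓ hℓM hP : HecA 𝒪 M P) • x = tO 𝒪 hℓ hℓM x := rfl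

theorem uA_smul {r : ℕ} (hr : r.Prime) (hrM : r ∣ M) (hP : ¬ P r) (x : MO 𝒪 M) :
    (uA hr hrM hP : HecA 𝒪 M P) • x = @uO 𝒪 _ M r _ ⟨hr⟩ hrM x := rfl

/-- induction on the elements of the algebra -/
theorem hecA_induction {motive : Module.End 𝒪 (MO 𝒪 M) → Prop}
    (hT : ∀ {ℓ : ℕ} (hℓ : ℓ.Prime) (hℓM : ¬ ℓ ∣ M), ¬ P ℓ → motive (tO 𝒪 hℓ hℓM))
    (hU : ∀ {r : ℕ} (hr : r.Prime) (hrM : r ∣ M), ¬ P r → motive (@uO 𝒪 _ M r _ ⟨hr⟩ hrM))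
    (halg : ∀ c : 𝒪, motive (algebraMap 𝒪 _ c))
    (hadd : ∀ a b, motive a → motive b → motive (a + b))
    (hmul : ∀ a b, motive a → motive b → motive (a * b))
    {a : Module.End 𝒪 (MO 𝒪 M)} (ha : a ∈ hecA 𝒪 M P) : motive a := by
  induction ha using Algebra.adjoin_induction with
  | mem x hx =>
    rcases hx with ⟨ℓ, hℓ, hℓM, hP, rfl⟩ | ⟨r, hr, hrM, hP, rfl⟩
    · exact hT hℓ hℓM hP
    · exact hU hr hrM hP
  | algebraMap c => exact halg c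
  | add x y _ _ hx hy => exact hadd x y hx hy
  | mul x y _ _ hx hy => exact hmul x y hx hy

/-- the algebra is self-adjoint for the twisted form -/
theorem formOw_hecA [Fintype (SL(2, ℤ) ⧸ Gamma0 M)] {a : Module.End 𝒪 (MO 𝒪 M)}
    (ha : a ∈ hecA 𝒪 M P) (x y : MO 𝒪 M) : formOw 𝒪 M (a x) y = formOw 𝒪 M x (a y) := by
  have key : a ∈ hecA 𝒪 M P ∧
      ∀ x y : MO 𝒪 M, formOw 𝒪 M (a x) y = formOw 𝒪 M x (a y) := by
    refine hecA_induction (P := P)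
      (motive := fun a => a ∈ hecA 𝒪 M P ∧
        ∀ x y : MO 𝒪 M, formOw 𝒪 M (a x) y = formOw 𝒪 M x (a y))
      ?_ ?_ ?_ ?_ ?_ ha
    · intro ℓ hℓ hℓM hP
      exact ⟨tO_mem_hecA hℓ hℓM hP, fun x y => formOw_tO hℓ hℓM x y⟩
    · intro r hr hrM hP
      have : Fact r.Prime := ⟨hr⟩
      exact ⟨uO_mem_hecA hr hrM hP, fun x y => formOw_uO hrM x y⟩
    · intro c
      refine ⟨Subalgebra.algebraMap_mem _ c, fun x y => ?_⟩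
      rw [Module.algebraMap_end_apply, Module.algebraMap_end_apply, map_smul,
        LinearMap.smul_apply, map_smul]
    · rintro a b ⟨ha, ha'⟩ ⟨hb, hb'⟩
      refine ⟨Subalgebra.add_mem _ ha hb, fun x y => ?_⟩
      rw [LinearMap.add_apply, LinearMap.add_apply, map_add, LinearMap.add_apply, ha', hb',
        map_add]
    · rintro a b ⟨ha, ha'⟩ ⟨hb, hb'⟩
      refine ⟨Subalgebra.mul_mem _ ha hb, fun x y => ?_⟩
      have hcomm : a * b = b * a := by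
        have h1 := mul_comm (⟨a, ha⟩ : ↥(hecA 𝒪 M P)) ⟨b, hb⟩
        exact congrArg Subtype.val h1
      rw [Module.End.mul_apply, ha', hb', hcomm, Module.End.mul_apply]
  exact key.2 x y

/-- the algebra acts on the eigenspace through scalars -/
theorem hecA_eigO (ev : ℕ → 𝒪) {a : Module.End 𝒪 (MO 𝒪 M)} (ha : a ∈ hecA 𝒪 M P) :
    ∃ c : 𝒪, ∀ y ∈ eigO 𝒪 M P ev, a y = c • y := by
  refine hecA_induction (P := P)
    (motive := fun a => ∃ c : 𝒪, ∀ y ∈ eigO 𝒪 M P ev, a y = c • y) ?_ ?_ ?_ ?_ ?_ ha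
  · intro ℓ hℓ hℓM hP
    exact ⟨ev _, fun y hy => hy.1 _ hℓ hℓM hP⟩
  · intro r hr hrM hP
    exact ⟨ev _, fun y hy => hy.2 _ hr hrM hP⟩
  · intro c
    exact ⟨c, fun y _ => by rw [Module.algebraMap_end_apply]⟩
  · rintro a b ⟨c, hc⟩ ⟨d, hd⟩
    exact ⟨c + d, fun y hy => by rw [LinearMap.add_apply, hc y hy, hd y hy, add_smul]⟩
  · rintro a b ⟨c, hc⟩ ⟨d, hd⟩
    exact ⟨c * d, fun y hy => by
      rw [Module.End.mul_apply, hd y hy, map_smul, hc y hy, smul_smul, mul_comm]⟩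

end Alg

/-! ### The character of an eigenvector -/

section Char

variable {𝒪 : Type*} [CommRing 𝒪] [IsDomain 𝒪] {M : ℕ} [NeZero M] {P : ℕ → Prop}

/-- **the character** through which the algebra acts on a nonzero eigenspace -/
theorem exists_eigChar (ev : ℕ → 𝒪) {y₀ : MO 𝒪 M} (hy₀ : y₀ ∈ eigO 𝒪 M P ev) (h0 : y₀ ≠ 0) :
    ∃ πA : HecA 𝒪 M P →ₐ[𝒪] 𝒪, ∀ (a : HecA 𝒪 M P), ∀ y ∈ eigO 𝒪 M P ev,
      a • y = πA a • y := by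
  classical
  have hex : ∀ a : HecA 𝒪 M P, ∃ c : 𝒪, ∀ y ∈ eigO 𝒪 M P ev, a • y = c • y :=
    fun a => hecA_eigO ev (HecA.val_mem a)
  choose c hc using hex
  have hcancel : ∀ u v : 𝒪, u • y₀ = v • y₀ → u = v := by
    intro u v huv
    have h1 : (u - v) • y₀ = 0 := by rw [sub_smul, huv, sub_self]
    exact sub_eq_zero.mp ((smul_eq_zero.mp h1).resolve_right h0)
  have hone : c 1 = 1 := by
    apply hcancel
    rw [← hc 1 y₀ hy₀, one_smul, one_smul]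
  have hmul : ∀ a b, c (a * b) = c a * c b := by
    intro a b
    apply hcancel
    rw [← hc (a * b) y₀ hy₀, mul_smul, hc b y₀ hy₀, smul_comm, hc a y₀ hy₀, smul_smul, mul_comm]
  have hzero : c 0 = 0 := by
    apply hcancel
    rw [← hc 0 y₀ hy₀, zero_smul, zero_smul]
  have hadd : ∀ a b, c (a + b) = c a + c b := by
    intro a b
    apply hcancel
    rw [← hc (a + b) y₀ hy₀, add_smul, hc a y₀ hy₀, hc b y₀ hy₀, add_smul]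
  have halg : ∀ r : 𝒪, c (algebraMap 𝒪 _ r) = algebraMap 𝒪 𝒪 r := by
    intro r
    apply hcancel
    rw [← hc (algebraMap 𝒪 _ r) y₀ hy₀, algebraMap_smul]
    rfl
  let f : HecA 𝒪 M P →+* 𝒪 :=
    { toFun := c, map_one' := hone, map_mul' := hmul, map_zero' := hzero, map_add' := hadd }
  exact ⟨{ f with commutes' := halg }, hc⟩

/-- the values of the character on the generators -/
theorem eigChar_tA (ev : ℕ → 𝒪) {y₀ : MO 𝒪 M} (hy₀ : y₀ ∈ eigO 𝒪 M P ev) (h0 : y₀ ≠ 0)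
    (πA : HecA 𝒪 M P →ₐ[𝒪] 𝒪)
    (hπA : ∀ (a : HecA 𝒪 M P), ∀ y ∈ eigO 𝒪 M P ev, a • y = πA a • y)
    {ℓ : ℕ} (hℓ : ℓ.Prime) (hℓM : ¬ ℓ ∣ M) (hP : ¬ P ℓ) : πA (tA hℓ hℓM hP) = ev ℓ := by
  have h1 : (πA (tA hℓ hℓM hP) - ev ℓ) • y₀ = 0 := by
    rw [sub_smul, ← hπA _ y₀ hy₀, tA_smul, hy₀.1 ℓ hℓ hℓM hP, sub_self]
  exact sub_eq_zero.mp ((smul_eq_zero.mp h1).resolve_right h0)

theorem eigChar_uA (ev : ℕ → 𝒪) {y₀ : MO 𝒪 M} (hy₀ : y₀ ∈ eigO 𝒪 M P ev) (h0 : y₀ ≠ 0)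
    (πA : HecA 𝒪 M P →ₐ[𝒪] 𝒪)
    (hπA : ∀ (a : HecA 𝒪 M P), ∀ y ∈ eigO 𝒪 M P ev, a • y = πA a • y)
    {r : ℕ} (hr : r.Prime) (hrM : r ∣ M) (hP : ¬ P r) : πA (uA hr hrM hP) = ev r := by
  have h1 : (πA (uA hr hrM hP) - ev r) • y₀ = 0 := by
    rw [sub_smul, ← hπA _ y₀ hy₀, uA_smul, hy₀.2 r hr hrM hP, sub_self]
  exact sub_eq_zero.mp ((smul_eq_zero.mp h1).resolve_right h0)

/-- `(𝒪 ⊗ L_M)[ker πA] = eigO` -/
theorem mem_eigO_iff_ker (ev : ℕ → 𝒪) {y₀ : MO 𝒪 M} (hy₀ : y₀ ∈ eigO 𝒪 M P ev) (h0 : y₀ ≠ 0)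
    (πA : HecA 𝒪 M P →ₐ[𝒪] 𝒪)
    (hπA : ∀ (a : HecA 𝒪 M P), ∀ y ∈ eigO 𝒪 M P ev, a • y = πA a • y) (x : MO 𝒪 M) :
    x ∈ eigO 𝒪 M P ev ↔ ∀ k : HecA 𝒪 M P, πA k = 0 → k • x = 0 := by
  have hcancel : ∀ u v : 𝒪, u • y₀ = v • y₀ → u = v := by
    intro u v huv
    have h1 : (u - v) • y₀ = 0 := by rw [sub_smul, huv, sub_self]
    exact sub_eq_zero.mp ((smul_eq_zero.mp h1).resolve_right h0)
  constructor
  · intro hx k hk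
    rw [hπA k x hx, hk, zero_smul]
  · intro hx
    refine ⟨fun ℓ hℓ hℓM hP => ?_, fun r hr hrM hP => ?_⟩
    · have h1 : πA (tA hℓ hℓM hP) = ev ℓ := by
        apply hcancel
        rw [← hπA _ y₀ hy₀]
        exact hy₀.1 ℓ hℓ hℓM hP
      have h2 := hx (tA hℓ hℓM hP - algebraMap 𝒪 _ (ev ℓ)) (by
        have h := map_sub πA (tA hℓ hℓM hP) (algebraMap 𝒪 _ (ev ℓ))
        rw [AlgHom.commutes, h1] at h
        exact h.trans (sub_self _))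
      have h3 : (tA hℓ hℓM hP - algebraMap 𝒪 (HecA 𝒪 M P) (ev ℓ)) • x =
          tO 𝒪 hℓ hℓM x - ev ℓ • x := rfl
      rw [h3, sub_eq_zero] at h2
      exact h2
    · have h1 : πA (uA hr hrM hP) = ev r := by
        apply hcancel
        rw [← hπA _ y₀ hy₀]
        exact hy₀.2 r hr hrM hP
      have h2 := hx (uA hr hrM hP - algebraMap 𝒪 _ (ev r)) (by
        have h := map_sub πA (uA hr hrM hP) (algebraMap 𝒪 _ (ev r))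
        rw [AlgHom.commutes, h1] at h
        exact h.trans (sub_self _))
      have h3 : (uA hr hrM hP - algebraMap 𝒪 (HecA 𝒪 M P) (ev r)) • x =
          @uO 𝒪 _ M r _ ⟨hr⟩ hrM x - ev r • x := rfl
      rw [h3, sub_eq_zero] at h2
      exact h2

end Char

end Fermat.Agent.S59lib.HS
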