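/-
S59lib / HS / Trace (helper2): **the trace identity** `res ∘ cores = U_q ∘ w_q + 1` on `H(Γ₀(N q))`
(`q ∤ N`), on group homomorphisms with arbitrary coefficients.

`β_j = W⁻¹ h_j = (w, w j - y; -N z, q x - N z j) ∈ Γ₀(N)` (`W` the Atkin–Lehner matrix, `h_j = (1 j; 0 q)`)
represent the non-identity cosets of `Γ₀(N q) \ Γ₀(N)`: `∞ · β_j = j`.  Hence, for `γ' ∈ Γ₀(N q)`,
`α_j γ' α_{σ j}⁻¹ = g_j · W⁻¹ u_j W · g_{σ j}⁻¹` with `g_j = α_j β_j⁻¹ ∈ Γ₀(N q)`, `u_j` the cocycle of `U_q`.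
-/
import Mathlib
import Fermat.Agent.S59lib.N3.Lat2
import Fermat.Agent.S41lib.HC.LevelAL

set_option autoImplicit false
set_option linter.unusedSectionVars false
set_option linter.unusedVariables false

noncomputable section

namespace Fermat.Agent.S59lib.HS

open UpperHalfPlane Matrix.SpecialLinearGroup CongruenceSubgroup ModularForm
open Fermat.Agent.S16lib.LH Fermat.Agent.S29lib.H
open Fermat.Agent.S31lib.PET (inclMul tPerm_inclMul coe_inclMul)
open Fermat.Agent.S41lib.HC Fermat.Agent.S43lib.B1 Fermat.Agent.S59lib.N3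
open P2MW.S_ModularForm_heckeT_slash_eq_self_of_mem_Gamma0.ModularForm.HeckeSlashInvariance
open scoped MatrixGroups

section Beta

variable (N q : ℕ) (x y z w : ℤ)

/-- `β_j = W⁻¹ h_j` -/
def betaMat (j : ℕ) : MZ :=
  !![w, w * (j : ℤ) - y; -((N : ℤ) * z), (q : ℤ) * x - (N : ℤ) * z * (j : ℤ)]

variable {N q} {x y z w}

theorem betaMat_det (h : (q : ℤ) * x * w - (N : ℤ) * y * z = 1) (j : ℕ) :
    (betaMat N q x y z w j).det = 1 := by
  rw [betaMat, Matrix.det_fin_two_of]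
  linear_combination h

theorem alMat_mul_betaMat (h : (q : ℤ) * x * w - (N : ℤ) * y * z = 1) (j : ℕ) :
    alMat N q x y z w * betaMat N q x y z w j = finRep q j := by
  rw [alMat, betaMat, finRep]
  ext a b
  fin_cases a <;> fin_cases b <;>
    simp [Matrix.mul_apply, Fin.sum_univ_two]
  · linear_combination h
  · linear_combination (j : ℤ) * h
  · ring
  · linear_combination (q : ℤ) * h

/-- the adjugate of `alA` -/
def adjA (N q : ℕ) (x y z w : ℤ) : MZ := !![(q : ℤ) * w, -y; -((N : ℤ) * z), x]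

theorem adjA_det (h : (q : ℤ) * x * w - (N : ℤ) * y * z = 1) : (adjA N q x y z w).det = 1 := by
  rw [adjA, Matrix.det_fin_two_of]
  linear_combination h

theorem dq_mul_betaMat (j : ℕ) :
    (!![(q : ℤ), 0; 0, 1] : MZ) * betaMat N q x y z w j = adjA N q x y z w * finRep q j := by
  rw [adjA, betaMat, finRep]
  ext a b
  fin_cases a <;> fin_cases b <;>
    simp [Matrix.mul_apply, Fin.sum_univ_two] <;> ring

end Beta

section Trace

variable {N q : ℕ} [NeZero N] [Fact q.Prime] (hqN : ¬ q ∣ N)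
  (x y z w : ℤ) (h : (q : ℤ) * x * w - (N : ℤ) * y * z = 1)

/-- `β_j` as an element of `Γ₀(N)` -/
def betaElt (j : ℕ) : ↥(Gamma0 N) :=
  ⟨⟨betaMat N q x y z w j, betaMat_det h j⟩, by
    rw [Gamma0_mem]
    show (((-((N : ℤ) * z) : ℤ)) : ZMod N) = 0
    simp⟩

@[simp] theorem toMZ_betaElt (j : ℕ) : toMZ (betaElt x y z w h j) = betaMat N q x y z w j := rfl

include hqN in
/-- `∞ · β_j = j` -/
theorem tPerm_betaElt (j : ZMod q) :
    tPerm q (betaElt x y z w h j.val) OnePoint.infty = (j : OnePoint (ZMod q)) := by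
  have h1 := tCoc_rel_int hqN (betaElt x y z w h j.val) OnePoint.infty
  rw [repInt_infty, toMZ_betaElt, dq_mul_betaMat, ← repInt_coe_eq] at h1
  have hq1 : IsCoprime (1 : ℤ) (q : ℤ) := isCoprime_one_left
  refine (repInt_uniq (ℓ := q) (g' := adjA N q x y z w)
    (g'' := toMZ (tCoc hqN (betaElt x y z w h j.val) OnePoint.infty)) ?_ ?_ _ _ h1).symm
  · rw [toMZ_det]; exact hq1
  · rw [adjA_det h]; exact hq1

/-- `g_j = α_j β_j⁻¹ ∈ Γ₀(N q)` -/
def gElt (j : ZMod q) : ↥(Gamma0 (N * q)) :=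
  ⟨((alphaRep hqN (j : OnePoint (ZMod q)) * (betaElt x y z w h j.val)⁻¹ : ↥(Gamma0 N)) :
      SL(2, ℤ)), by
    apply mem_Gamma0_mul_of_tPerm hqN
    rw [tPerm_mul, tPerm_alphaRep, ← tPerm_betaElt hqN x y z w h j, tPerm_inv_apply]⟩

theorem inclMul_gElt (j : ZMod q) :
    inclMul N q (gElt hqN x y z w h j) =
      alphaRep hqN (j : OnePoint (ZMod q)) * (betaElt x y z w h j.val)⁻¹ := rfl

/-- `W⁻¹ u_j W · β_{σ j} = β_j · γ'` -/
theorem alConj_uCoc_mul (γ' : ↥(Gamma0 (N * q))) (j : ZMod q) :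
    inclMul N q (alConj x y z w h (uCoc (dvd_mul_left q N) γ' j)) *
        betaElt x y z w h (uPerm (dvd_mul_left q N) γ' j).val =
      betaElt x y z w h j.val * inclMul N q γ' := by
  apply toMZ_injective
  rw [toMZ_mul, toMZ_mul, toMZ_betaElt, toMZ_betaElt]
  apply alMat_mul_left_cancel x y z w h
  have h1 := alMat_mul_alConj x y z w h (uCoc (dvd_mul_left q N) γ' j)
  have h2 := uCoc_rel_int (dvd_mul_left q N) γ' j
  have h3 : toMZ (inclMul N q (alConj x y z w h (uCoc (dvd_mul_left q N) γ' j))) =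
      ((alConj x y z w h (uCoc (dvd_mul_left q N) γ' j) : ↥(Gamma0 (N * q))) : SL(2, ℤ)).1 := rfl
  have h4 : toMZ (inclMul N q γ') = toMZ γ' := rfl
  rw [h3, h4, ← Matrix.mul_assoc, h1, Matrix.mul_assoc, alMat_mul_betaMat h, ← Matrix.mul_assoc,
    alMat_mul_betaMat h, h2]
  rfl

/-- the cocycle of `res ∘ cores` at a finite point -/
theorem coresAData_c_coe (γ' : ↥(Gamma0 (N * q))) (j : ZMod q) :
    (coresAData hqN).c (inclMul N q γ') (j : OnePoint (ZMod q)) =
      gElt hqN x y z w h j * alConj x y z w h (uCoc (dvd_mul_left q N) γ' j) *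
        (gElt hqN x y z w h (uPerm (dvd_mul_left q N) γ' j))⁻¹ := by
  apply (Subgroup.inclusion_injective (Gamma0_mul_le N q))
  show inclMul N q ((coresAData hqN).c (inclMul N q γ') (j : OnePoint (ZMod q))) =
    inclMul N q (gElt hqN x y z w h j * alConj x y z w h (uCoc (dvd_mul_left q N) γ' j) *
        (gElt hqN x y z w h (uPerm (dvd_mul_left q N) γ' j))⁻¹)
  rw [inclMul_coresAData_c, alphaCoc, (tCoc_inclMul_coe hqN γ' j).1, map_mul, map_mul, map_inv,
    inclMul_gElt, inclMul_gElt, mul_inv_rev, inv_inv]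
  have h5 := alConj_uCoc_mul x y z w h γ' j
  -- `α_j γ' α_{σj}⁻¹ = α_j β_j⁻¹ (W⁻¹ u W) β_{σj} α_{σj}⁻¹`
  have h6 : inclMul N q γ' = (betaElt x y z w h j.val)⁻¹ *
      (inclMul N q (alConj x y z w h (uCoc (dvd_mul_left q N) γ' j)) *
        betaElt x y z w h (uPerm (dvd_mul_left q N) γ' j).val) := by
    rw [h5, inv_mul_cancel_left]
  conv_lhs => rw [h6]
  group

/-- the cocycle of `res ∘ cores` at `∞` -/
theorem coresAData_c_infty (γ' : ↥(Gamma0 (N * q))) :
    ∃ a : ↥(Gamma0 (N * q)),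
      (coresAData hqN).c (inclMul N q γ') OnePoint.infty = a * γ' * a⁻¹ := by
  refine ⟨⟨((alphaRep hqN OnePoint.infty : ↥(Gamma0 N)) : SL(2, ℤ)),
    mem_Gamma0_mul_of_tPerm hqN _ (tPerm_alphaRep hqN OnePoint.infty)⟩, ?_⟩
  apply (Subgroup.inclusion_injective (Gamma0_mul_le N q))
  show inclMul N q ((coresAData hqN).c (inclMul N q γ') OnePoint.infty) = _
  rw [inclMul_coresAData_c, alphaCoc, tPerm_inclMul]
  rfl

/-- **The trace identity**: `res ∘ cores = U_q ∘ w_q + 1` on `H(Γ₀(N q))`. -/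
theorem res_coresA {A : Type*} [AddCommGroup A] (ψ : H (Gamma0 (N * q)) A) :
    res N q A (coresA hqN A ψ) =
      heckeU (dvd_mul_left q N) A (alW x y z w h A ψ) + ψ := by
  ext γ
  show res N q A (coresA hqN A ψ) (Additive.ofMul γ) =
    heckeU (dvd_mul_left q N) A (alW x y z w h A ψ) (Additive.ofMul γ) + ψ (Additive.ofMul γ)
  rw [res_apply, coresA_apply, N3.heckeU_apply]
  have hsplit : ∑ t : OnePoint (ZMod q),
      ψ (Additive.ofMul ((coresAData hqN).c (inclMul N q γ) t)) =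
      ψ (Additive.ofMul ((coresAData hqN).c (inclMul N q γ) OnePoint.infty)) +
        ∑ j : ZMod q, ψ (Additive.ofMul ((coresAData hqN).c (inclMul N q γ)
          (j : OnePoint (ZMod q)))) :=
    Fintype.sum_option _
  rw [hsplit, add_comm]
  congr 1
  · simp_rw [coresAData_c_coe hqN x y z w h, alW_apply, ofMul_mul, ofMul_inv, map_add, map_neg]
    rw [Finset.sum_add_distrib, Finset.sum_add_distrib, Finset.sum_neg_distrib,
      Equiv.sum_comp (uPerm (dvd_mul_left q N) γ)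
        (fun j : ZMod q => ψ (Additive.ofMul (gElt hqN x y z w h j)))]
    abel
  · obtain ⟨a, ha⟩ := coresAData_c_infty hqN γ
    rw [ha, hom_conj]

end Trace

/-! ### `U_q = res ∘ cores2B` at level `M q`, `q ∣ M` -/

section Upper

variable {M q : ℕ} [NeZero M] [Fact q.Prime] (hqM : q ∣ M)

theorem betaData_c_inclMul (γ : ↥(Gamma0 (M * q))) (t : ZMod q) :
    (betaData hqM).c (inclMul M q γ) t = uCoc (dvd_mul_left q M) γ t := by
  apply (Subgroup.inclusion_injective (Gamma0_mul_le M q))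
  show inclMul M q ((betaData hqM).c (inclMul M q γ) t) =
    inclMul M q (uCoc (dvd_mul_left q M) γ t)
  rw [inclMul_betaData_c, inclMul_uCoc hqM]

/-- `U_q = res ∘ cores2B` on `H(Γ₀(M q))`, `q ∣ M` -/
theorem heckeU_eq_res_cores2B {A : Type*} [AddCommGroup A] (ψ : H (Gamma0 (M * q)) A) :
    heckeU (dvd_mul_left q M) A ψ = res M q A (cores2B hqM A ψ) := by
  ext γ
  show heckeU (dvd_mul_left q M) A ψ (Additive.ofMul γ) =
    res M q A (cores2B hqM A ψ) (Additive.ofMul γ)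
  rw [N3.heckeU_apply, res_apply, cores2B_apply]
  refine Finset.sum_congr rfl fun t _ => ?_
  rw [betaData_c_inclMul]

end Upper

/-! ### Lattice versions -/

section Lattice

open Fermat.Agent.S41lib.BR Fermat.Agent.S16lib.LG ModularCurve.Period

variable {N q : ℕ} [NeZero N] [Fact q.Prime] (hqN : ¬ q ∣ N)
  (x y z w : ℤ) (h : (q : ℤ) * x * w - (N : ℤ) * y * z = 1)

/-- **The trace identity on the lattice** `L_{N q}`: `res ∘ cores = U_q ∘ w_q + 1`. -/
theorem resL_coresAL (b : ↥(VZ (Gamma0 (N * q)))) :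
    resL N q (coresAL hqN b) = uL (dvd_mul_left q N) (alWL x y z w h b) + b := by
  apply Subtype.ext
  rw [resL_coe, coresAL_coe, Submodule.coe_add, uL_coe, alWL_coe]
  exact res_coresA hqN x y z w h b.1

/-- `U_q = res ∘ cores2B` on the lattice `L_{M q}`, `q ∣ M` -/
theorem uL_eq_resL_cores2BL {M : ℕ} [NeZero M] (hqM : q ∣ M) (b : ↥(VZ (Gamma0 (M * q)))) :
    uL (dvd_mul_left q M) b = resL M q (cores2BL hqM b) := by
  apply Subtype.ext
  rw [uL_coe, resL_coe, cores2BL_coe]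
  exact heckeU_eq_res_cores2B hqM b.1

end Lattice

end Fermat.Agent.S59lib.HS
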