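/-
S59lib / HS / Kill (helper2): the level-changing operators over `𝒪` and their identities
(`res ∘ cores = U_q w_q + 1`, `U_q = res ∘ cores2B`), **`U_q` is an automorphism of `𝒪 ⊗ L_{N q}`**
(`q ∥ N q`, `q ∈ 𝒪ˣ`), and the Cayley–Hamilton lemma used to kill maps on a local factor.
-/
import Mathlib
import Fermat.Agent.S59lib.HS.Trace
import Fermat.Agent.S59lib.N3.MainU

set_option autoImplicit false
set_option linter.unusedSectionVars false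
set_option linter.unusedVariables false

noncomputable section

namespace Fermat.Agent.S59lib.HS

open Module IsLocalRing TensorProduct CongruenceSubgroup
open Fermat.Agent.S41lib.HC Fermat.Agent.S41lib.BR Fermat.Agent.S16lib.LG
open Fermat.Agent.S59lib.N3
open scoped MatrixGroups

/-! ### The operators over `𝒪` -/

section Ops

variable (𝒪 : Type*) [CommRing 𝒪]

/-- restriction `𝒪 ⊗ L_M → 𝒪 ⊗ L_{M q}` -/
def rO (M q : ℕ) [NeZero M] [Fact q.Prime] : MO 𝒪 M →ₗ[𝒪] MO 𝒪 (M * q) :=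
  (resL M q).baseChange 𝒪

/-- the transfer `𝒪 ⊗ L_{N q} → 𝒪 ⊗ L_N`, `q ∤ N` -/
def cO {N q : ℕ} [NeZero N] [Fact q.Prime] (hqN : ¬ q ∣ N) : MO 𝒪 (N * q) →ₗ[𝒪] MO 𝒪 N :=
  (coresAL hqN).baseChange 𝒪

/-- the Atkin–Lehner involution `w_q` on `𝒪 ⊗ L_{N q}` -/
def wqO {N q : ℕ} [NeZero N] [Fact q.Prime] (x y z w : ℤ)
    (h : (q : ℤ) * x * w - (N : ℤ) * y * z = 1) : MO 𝒪 (N * q) →ₗ[𝒪] MO 𝒪 (N * q) :=
  (alWL x y z w h).baseChange 𝒪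

/-- the `δ`-twisted transfer `𝒪 ⊗ L_{M q} → 𝒪 ⊗ L_M`, `q ∣ M` -/
def c2O {M q : ℕ} [NeZero M] [Fact q.Prime] (hqM : q ∣ M) : MO 𝒪 (M * q) →ₗ[𝒪] MO 𝒪 M :=
  (cores2BL hqM).baseChange 𝒪

variable {𝒪}

section Coprime

variable {N q : ℕ} [NeZero N] [Fact q.Prime] (hqN : ¬ q ∣ N)
  (x y z w : ℤ) (h : (q : ℤ) * x * w - (N : ℤ) * y * z = 1)

/-- **the trace identity over `𝒪`** -/
theorem rO_cO (v : MO 𝒪 (N * q)) :
    rO 𝒪 N q (cO 𝒪 hqN v) = uO 𝒪 (dvd_mul_left q N) (wqO 𝒪 x y z w h v) + v := by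
  have key : (rO 𝒪 N q) ∘ₗ (cO 𝒪 hqN) =
      (uO 𝒪 (dvd_mul_left q N)) ∘ₗ (wqO 𝒪 x y z w h) + LinearMap.id := by
    apply lin_ext_one_tmul
    intro b
    show (1 : 𝒪) ⊗ₜ[ℤ] resL N q (coresAL hqN b) =
      (1 : 𝒪) ⊗ₜ[ℤ] uL (dvd_mul_left q N) (alWL x y z w h b) + (1 : 𝒪) ⊗ₜ[ℤ] b
    rw [resL_coresAL hqN x y z w h, TensorProduct.tmul_add]
  exact LinearMap.congr_fun key v

theorem wqO_wqO (v : MO 𝒪 (N * q)) : wqO 𝒪 x y z w h (wqO 𝒪 x y z w h v) = v := by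
  have key : (wqO 𝒪 x y z w h) ∘ₗ (wqO 𝒪 x y z w h) = LinearMap.id := by
    apply lin_ext_one_tmul
    intro b
    show (1 : 𝒪) ⊗ₜ[ℤ] alWL x y z w h (alWL x y z w h b) = (1 : 𝒪) ⊗ₜ[ℤ] b
    rw [alWL_alWL]
  exact LinearMap.congr_fun key v

theorem cO_rO (v : MO 𝒪 N) : cO 𝒪 hqN (rO 𝒪 N q v) = ((q : 𝒪) + 1) • v := by
  have key : (cO 𝒪 hqN) ∘ₗ (rO 𝒪 N q) = ((q : 𝒪) + 1) • LinearMap.id := by
    apply lin_ext_one_tmul
    intro b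
    show (1 : 𝒪) ⊗ₜ[ℤ] coresAL hqN (resL N q b) = ((q : 𝒪) + 1) • ((1 : 𝒪) ⊗ₜ[ℤ] b)
    rw [coresAL_resL, TensorProduct.tmul_smul, TensorProduct.smul_tmul', TensorProduct.smul_tmul']
    congr 1
    simp
  exact LinearMap.congr_fun key v

theorem cO_tO {ℓ : ℕ} (hℓ : ℓ.Prime) (hℓN : ¬ ℓ ∣ N) (hℓNq : ¬ ℓ ∣ N * q) (v : MO 𝒪 (N * q)) :
    cO 𝒪 hqN (tO 𝒪 hℓ hℓNq v) = tO 𝒪 hℓ hℓN (cO 𝒪 hqN v) := by
  have key : (cO 𝒪 hqN) ∘ₗ (tO 𝒪 hℓ hℓNq) = (tO 𝒪 hℓ hℓN) ∘ₗ (cO 𝒪 hqN) := by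
    apply lin_ext_one_tmul
    intro b
    show (1 : 𝒪) ⊗ₜ[ℤ] coresAL hqN (tL hℓ hℓNq b) = (1 : 𝒪) ⊗ₜ[ℤ] tL hℓ hℓN (coresAL hqN b)
    rw [coresAL_tL hqN hℓ hℓN hℓNq]
  exact LinearMap.congr_fun key v

theorem wqO_tO {ℓ : ℕ} (hℓ : ℓ.Prime) (hℓN : ¬ ℓ ∣ N) (hℓNq : ¬ ℓ ∣ N * q) (v : MO 𝒪 (N * q)) :
    wqO 𝒪 x y z w h (tO 𝒪 hℓ hℓNq v) = tO 𝒪 hℓ hℓNq (wqO 𝒪 x y z w h v) := by
  have key : (wqO 𝒪 x y z w h) ∘ₗ (tO 𝒪 hℓ hℓNq) = (tO 𝒪 hℓ hℓNq) ∘ₗ (wqO 𝒪 x y z w h) := by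
    apply lin_ext_one_tmul
    intro b
    show (1 : 𝒪) ⊗ₜ[ℤ] alWL x y z w h (tL hℓ hℓNq b) =
      (1 : 𝒪) ⊗ₜ[ℤ] tL hℓ hℓNq (alWL x y z w h b)
    rw [alWL_tL x y z w h hℓ hℓN hℓNq]
  exact LinearMap.congr_fun key v

include hqN in
/-- **`U_q` is an automorphism of `𝒪 ⊗ L_{N q}`** when `q ∤ N` and `q` is a unit of `𝒪`. -/
theorem uO_bijective (hq : IsUnit (q : 𝒪)) :
    Function.Bijective (uO 𝒪 (dvd_mul_left q N) : MO 𝒪 (N * q) → MO 𝒪 (N * q)) := by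
  obtain ⟨x, y, z, w, h⟩ := exists_al_params (N := N) (q := q) hqN
  obtain ⟨u, hu⟩ := hq
  -- `Y = res ∘ cores`, `Y² = (q + 1) Y`, `U w = Y - 1`
  have hYY : ∀ v : MO 𝒪 (N * q), rO 𝒪 N q (cO 𝒪 hqN (rO 𝒪 N q (cO 𝒪 hqN v))) =
      ((q : 𝒪) + 1) • rO 𝒪 N q (cO 𝒪 hqN v) := by
    intro v
    rw [cO_rO, map_smul]
  have hUW : ∀ v : MO 𝒪 (N * q), uO 𝒪 (dvd_mul_left q N) (wqO 𝒪 x y z w h v) =
      rO 𝒪 N q (cO 𝒪 hqN v) - v := by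
    intro v
    rw [rO_cO hqN x y z w h, add_sub_cancel_right]
  -- `(Y - 1)(Y - q) = q`
  have hkey : ∀ v : MO 𝒪 (N * q),
      uO 𝒪 (dvd_mul_left q N) (wqO 𝒪 x y z w h (rO 𝒪 N q (cO 𝒪 hqN v) - (q : 𝒪) • v)) =
        (q : 𝒪) • v := by
    intro v
    rw [hUW, map_sub, map_sub, hYY, map_smul, map_smul]
    module
  constructor
  · rw [← LinearMap.ker_eq_bot, LinearMap.ker_eq_bot']
    intro v hv
    -- `v = w v'`
    have h1 : uO 𝒪 (dvd_mul_left q N) (wqO 𝒪 x y z w h (wqO 𝒪 x y z w h v)) = 0 := by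
      rw [wqO_wqO, hv]
    set v' := wqO 𝒪 x y z w h v with hv'
    have h2 : rO 𝒪 N q (cO 𝒪 hqN v') = v' := by
      have := hUW v'
      rw [h1] at this
      exact (sub_eq_zero.mp this.symm)
    have h3 : (q : 𝒪) • v' = 0 := by
      have h4 := hkey v'
      rw [h2] at h4
      have h5 : v' - (q : 𝒪) • v' = (1 - (q : 𝒪)) • v' := by module
      rw [h5, map_smul, map_smul, h1, smul_zero] at h4
      exact h4.symm
    have h6 : v' = 0 := by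
      have : (↑u⁻¹ : 𝒪) • ((q : 𝒪) • v') = v' := by
        rw [smul_smul, ← hu, Units.inv_mul, one_smul]
      rw [← this, h3, smul_zero]
    have h7 := wqO_wqO x y z w h v
    rw [← hv', h6, map_zero] at h7
    exact h7.symm
  · intro v
    refine ⟨wqO 𝒪 x y z w h (rO 𝒪 N q (cO 𝒪 hqN ((↑u⁻¹ : 𝒪) • v)) -
      (q : 𝒪) • ((↑u⁻¹ : 𝒪) • v)), ?_⟩
    rw [hkey, smul_smul, ← hu, Units.mul_inv, one_smul]

end Coprime

section Dvd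

variable {M q : ℕ} [NeZero M] [Fact q.Prime] (hqM : q ∣ M)

/-- `U_q = res ∘ cores2B` at level `M q`, `q ∣ M` -/
theorem uO_eq_rO_c2O (v : MO 𝒪 (M * q)) :
    uO 𝒪 (dvd_mul_left q M) v = rO 𝒪 M q (c2O 𝒪 hqM v) := by
  have key : uO 𝒪 (dvd_mul_left q M) = (rO 𝒪 M q) ∘ₗ (c2O 𝒪 hqM) := by
    apply lin_ext_one_tmul
    intro b
    show (1 : 𝒪) ⊗ₜ[ℤ] uL (dvd_mul_left q M) b = (1 : 𝒪) ⊗ₜ[ℤ] resL M q (cores2BL hqM b)
    rw [uL_eq_resL_cores2BL hqM]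
  exact LinearMap.congr_fun key v

/-- `cores2B ∘ res = U_q` at level `M`, `q ∣ M` -/
theorem c2O_rO (v : MO 𝒪 M) : c2O 𝒪 hqM (rO 𝒪 M q v) = uO 𝒪 hqM v := by
  have key : (c2O 𝒪 hqM) ∘ₗ (rO 𝒪 M q) = uO 𝒪 hqM := by
    apply lin_ext_one_tmul
    intro b
    show (1 : 𝒪) ⊗ₜ[ℤ] cores2BL hqM (resL M q b) = (1 : 𝒪) ⊗ₜ[ℤ] uL hqM b
    rw [cores2BL_resL]
  exact LinearMap.congr_fun key v

/-- `cores2B` intertwines `U_q` of the two levels -/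
theorem c2O_uO (v : MO 𝒪 (M * q)) :
    c2O 𝒪 hqM (uO 𝒪 (dvd_mul_left q M) v) = uO 𝒪 hqM (c2O 𝒪 hqM v) := by
  rw [uO_eq_rO_c2O hqM, c2O_rO]

end Dvd

end Ops

/-! ### Cayley–Hamilton -/

section CH

variable {𝒪 : Type*} [CommRing 𝒪] {L' : Type*} [AddCommGroup L'] [Module 𝒪 L'] [Module.Finite 𝒪 L']
  [Module.Free 𝒪 L']

/-- a bijective endomorphism of a finite free module is killed by a polynomial with unit constant
term -/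
theorem exists_poly_of_bijective (s' : L' →ₗ[𝒪] L') (hs' : Function.Bijective s') :
    ∃ F : Polynomial 𝒪, Polynomial.aeval s' F = 0 ∧ IsUnit (F.coeff 0) := by
  refine ⟨s'.charpoly, LinearMap.aeval_self_charpoly s', ?_⟩
  have h1 : IsUnit (LinearMap.det s') :=
    LinearEquiv.isUnit_det' (LinearEquiv.ofBijective s' hs')
  rw [LinearMap.det_eq_sign_charpoly_coeff] at h1
  exact isUnit_of_mul_isUnit_right h1

/-- intertwining passes to polynomials -/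
theorem aeval_intertwine {L : Type*} [AddCommGroup L] [Module 𝒪 L] (c : L →ₗ[𝒪] L')
    (s : L →ₗ[𝒪] L) (s' : L' →ₗ[𝒪] L') (hc : ∀ v, c (s v) = s' (c v)) (F : Polynomial 𝒪) (v : L) :
    c (Polynomial.aeval s F v) = Polynomial.aeval s' F (c v) := by
  induction F using Polynomial.induction_on generalizing v with
  | C a =>
    rw [Polynomial.aeval_C, Polynomial.aeval_C, Module.algebraMap_end_apply,
      Module.algebraMap_end_apply, map_smul]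
  | add f g hf hg =>
    rw [map_add, map_add, LinearMap.add_apply, LinearMap.add_apply, map_add, hf, hg]
  | monomial n a ih =>
    rw [pow_succ, ← mul_assoc, map_mul (Polynomial.aeval s) _ Polynomial.X,
      map_mul (Polynomial.aeval s') _ Polynomial.X, Polynomial.aeval_X, Polynomial.aeval_X,
      Module.End.mul_apply, Module.End.mul_apply, ih, hc]

end CH

end Fermat.Agent.S59lib.HS
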