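/-
S59lib / HS / ULem (helper2): **the `U`-operators on the local factor** of the Betti Hecke algebra.

`A = hecA 𝒪 M P`, `πA : A → 𝒪` a character, `e ∈ A` the idempotent of the local factor at
`𝔫 = πA⁻¹(𝔪_𝒪)`:
* `idem_mul_uA_of_sq` : `M = N q²`, `q ∤ N`, `q ∈ 𝒪ˣ`, `πA (U_q) ∈ 𝔪` ⟹ `e · U_q = 0`;
* `idem_mul_uA_of_one` : `M = M' r`, `r ∤ M'`, `p` odd, the residual system does not occur at level `M'`
  (`hnew`), `πA (U_r)² = 1` ⟹ `e · (U_r - πA (U_r)) = 0`.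
-/
import Mathlib
import Fermat.Agent.S59lib.HS.Proj
import Fermat.Agent.S59lib.HS.Abs
import Fermat.Agent.S59lib.HS.Gen
import Fermat.Agent.S59lib.HS.Kill
import Fermat.Agent.S59lib.N3.Char

set_option autoImplicit false
set_option linter.unusedSectionVars false
set_option linter.unusedVariables false

noncomputable section

namespace Fermat.Agent.S59lib.HS

open Module IsLocalRing TensorProduct CongruenceSubgroup CuspForm
open Fermat.Agent.S41lib.HC Fermat.Agent.S41lib.BR Fermat.Agent.S16lib.LG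
open Fermat.Agent.S43lib.B2.Bridge Fermat.Agent.S59lib.N3
open scoped MatrixGroups IsMulCommutative

/-! ### Free algebra generalities -/

section Free

variable {X : Type*}

/-- ring homomorphisms commute with `FreeAlgebra.lift ℤ` -/
theorem map_lift_int {A E : Type*} [Ring A] [Ring E] (φ : A →+* E) (g : X → A)
    (Q : FreeAlgebra ℤ X) :
    φ (FreeAlgebra.lift ℤ g Q) = FreeAlgebra.lift ℤ (fun x => φ (g x)) Q := by
  have h : (φ.toIntAlgHom).comp (FreeAlgebra.lift ℤ g) = FreeAlgebra.lift ℤ (fun x => φ (g x)) := by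
    apply FreeAlgebra.hom_ext
    funext x
    simp
  exact congrArg (fun F : FreeAlgebra ℤ X →ₐ[ℤ] E => F Q) h

/-- base change of a non-commutative polynomial in lattice operators -/
theorem val_lift_baseChange {𝒪 : Type*} [CommRing 𝒪] {V : Type*} [AddCommGroup V]
    {A : Type*} [Ring A] (val : A →+* Module.End 𝒪 (𝒪 ⊗[ℤ] V))
    (f : X → Module.End ℤ V) (g : X → A)
    (hfg : ∀ x, val (g x) = (f x).baseChange 𝒪) (Q : FreeAlgebra ℤ X) :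
    val (FreeAlgebra.lift ℤ g Q) = (FreeAlgebra.lift ℤ f Q).baseChange 𝒪 := by
  rw [map_lift_int val g Q]
  have h1 := map_lift_int ((Module.End.baseChangeHom ℤ 𝒪 V : Module.End ℤ V →ₐ[ℤ] _) :
    Module.End ℤ V →+* Module.End 𝒪 (𝒪 ⊗[ℤ] V)) f Q
  have h2 : (fun x => val (g x)) = fun x =>
      ((Module.End.baseChangeHom ℤ 𝒪 V : Module.End ℤ V →ₐ[ℤ] _) :
        Module.End ℤ V →+* Module.End 𝒪 (𝒪 ⊗[ℤ] V)) (f x) := by
    funext x
    rw [hfg]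
    rfl
  rw [h2, ← h1]
  rfl

end Free

/-! ### Killing maps on the local factor -/

section Local

variable {𝒪 : Type} [CommRing 𝒪] [IsDomain 𝒪] [IsDiscreteValuationRing 𝒪]
  [IsAdicComplete (maximalIdeal 𝒪) 𝒪]
variable {M : ℕ} [NeZero M] {P : ℕ → Prop}

/-- a map killed by an element outside `𝔫` vanishes on the local factor -/
theorem kill_of_not_mem (πA : HecA 𝒪 M P →ₐ[𝒪] 𝒪) {e : HecA 𝒪 M P}
    (he : ∀ k : HecA 𝒪 M P,
      algebraMap (HecA 𝒪 M P) (Localization.AtPrime (augIdeal πA)) k = 0 → e * k = 0)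
    {L' : Type*} [AddCommGroup L'] [Module 𝒪 L'] (c : MO 𝒪 M →ₗ[𝒪] L')
    (s : HecA 𝒪 M P) (hs : πA s ∉ maximalIdeal 𝒪) (hcs : ∀ v : MO 𝒪 M, c (s • v) = 0)
    (v : MO 𝒪 M) : c (e • v) = 0 := by
  obtain ⟨b, hb⟩ := exists_mul_eq_idem (𝒪 := 𝒪) he (s := s) (fun h => hs (mem_augIdeal.mp h))
  rw [← hb, mul_comm, mul_smul]
  exact hcs _

/-- an element of the algebra vanishing on `𝒪 ⊗ L_M` is zero -/
theorem eq_zero_of_smul (a : HecA 𝒪 M P) (h : ∀ v : MO 𝒪 M, a • v = 0) : a = 0 := by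
  apply HecA.val_injective
  apply LinearMap.ext
  intro v
  exact h v

end Local

/-! ### `U_q = 0` on the local factor, `q² ∥ M` -/

section Sq

variable {𝒪 : Type} [CommRing 𝒪] [IsDomain 𝒪] [IsDiscreteValuationRing 𝒪]
  [IsAdicComplete (maximalIdeal 𝒪) 𝒪]
variable {N q : ℕ} [NeZero N] [Fact q.Prime] (hqN : ¬ q ∣ N) {P : ℕ → Prop}

include hqN in
/-- **`e · U_q = 0`** at level `N q²` (`q ∤ N`, `q ∈ 𝒪ˣ`, `U_q ∈ 𝔫`). -/
theorem idem_mul_uA_sq (hPq : ¬ P q) (hunit : IsUnit (q : 𝒪))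
    (πA : HecA 𝒪 (N * q * q) P →ₐ[𝒪] 𝒪)
    (hπq : πA (uA (Fact.out : q.Prime) (dvd_mul_left q (N * q)) hPq) ∈ maximalIdeal 𝒪)
    {e : HecA 𝒪 (N * q * q) P}
    (he : ∀ k : HecA 𝒪 (N * q * q) P,
      algebraMap (HecA 𝒪 (N * q * q) P) (Localization.AtPrime (augIdeal πA)) k = 0 → e * k = 0) :
    e * uA (Fact.out : q.Prime) (dvd_mul_left q (N * q)) hPq = 0 := by
  set U : HecA 𝒪 (N * q * q) P := uA (Fact.out : q.Prime) (dvd_mul_left q (N * q)) hPq with hU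
  obtain ⟨F, hF0, hFu⟩ := exists_poly_of_bijective (uO 𝒪 (dvd_mul_left q N))
    (uO_bijective (𝒪 := 𝒪) hqN hunit)
  have hval : HecA.val (Polynomial.aeval U F) =
      Polynomial.aeval (uO 𝒪 (dvd_mul_left q (N * q))) F := by
    rw [← Polynomial.aeval_algHom_apply]
    rfl
  have hcs : ∀ v : MO 𝒪 (N * q * q),
      c2O 𝒪 (dvd_mul_left q N) ((Polynomial.aeval U F : HecA 𝒪 (N * q * q) P) • v) = 0 := by
    intro v
    rw [HecA.smul_def, hval, aeval_intertwine (c2O 𝒪 (dvd_mul_left q N))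
      (uO 𝒪 (dvd_mul_left q (N * q))) (uO 𝒪 (dvd_mul_left q N))
      (c2O_uO (dvd_mul_left q N)) F v, hF0, LinearMap.zero_apply]
  have hs : πA (Polynomial.aeval U F) ∉ maximalIdeal 𝒪 := by
    intro hmem
    rw [← Polynomial.aeval_algHom_apply] at hmem
    have h2 : Polynomial.aeval (πA U) F =
        Polynomial.aeval (πA U) F.divX * πA U + F.coeff 0 := by
      conv_lhs => rw [← Polynomial.divX_mul_X_add F]
      rw [map_add, map_mul, Polynomial.aeval_X, Polynomial.aeval_C]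
      rfl
    rw [h2] at hmem
    have h3 : F.coeff 0 ∈ maximalIdeal 𝒪 := by
      have h4 := Ideal.sub_mem _ hmem (Ideal.mul_mem_left (maximalIdeal 𝒪)
        (Polynomial.aeval (πA U) F.divX) hπq)
      rwa [add_sub_cancel_left] at h4
    exact (mem_maximalIdeal _).mp h3 hFu
  have hkill := kill_of_not_mem πA he (c2O 𝒪 (dvd_mul_left q N)) _ hs hcs
  apply eq_zero_of_smul
  intro v
  rw [mul_comm e U, mul_smul, hU, uA_smul, uO_eq_rO_c2O (dvd_mul_left q N), hkill, map_zero]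

end Sq

/-! ### `U_r = ±1` on the local factor, `r ∥ M`, when the system is new at `r` -/

section One

variable {𝒪 : Type} [CommRing 𝒪] [IsDomain 𝒪] [IsDiscreteValuationRing 𝒪]
  [IsAdicComplete (maximalIdeal 𝒪) 𝒪]
variable {M' r : ℕ} [NeZero M'] [Fact r.Prime] (hrM' : ¬ r ∣ M') {P : ℕ → Prop} {S : Set ℕ}

/-- a good prime of level `M'` is a good prime of level `M' r` when `r ∈ S` -/
theorem not_dvd_mul_of_good (hrS : r ∈ S) (ℓ : GoodPrime M' S) : ¬ ℓ.1 ∣ M' * r := by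
  intro h
  rcases (Nat.Prime.dvd_mul ℓ.2.1).mp h with h1 | h1
  · exact ℓ.2.2.1 h1
  · have : ℓ.1 = r := (Nat.prime_dvd_prime_iff_eq ℓ.2.1 (Fact.out : r.Prime)).mp h1
    exact ℓ.2.2.2 (this ▸ hrS)

variable (hrS : r ∈ S) (hPS : ∀ ℓ : ℕ, ℓ.Prime → ¬ ℓ ∣ M' * r → ℓ ∉ S → ¬ P ℓ)

/-- the value at level `M' r` of a polynomial in the good Hecke operators of level `M'` -/
def polA (Q : FreeAlgebra ℤ (GoodPrime M' S)) : HecA 𝒪 (M' * r) P :=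
  FreeAlgebra.lift ℤ (fun ℓ : GoodPrime M' S =>
    (tA ℓ.2.1 (not_dvd_mul_of_good hrS ℓ) (hPS ℓ.1 ℓ.2.1 (not_dvd_mul_of_good hrS ℓ) ℓ.2.2.2) :
      HecA 𝒪 (M' * r) P)) Q

/-- the same polynomial on the lattice of level `M' r` -/
def polL (Q : FreeAlgebra ℤ (GoodPrime M' S)) : Module.End ℤ ↥(VZ (Gamma0 (M' * r))) :=
  FreeAlgebra.lift ℤ (fun ℓ : GoodPrime M' S => tL ℓ.2.1 (not_dvd_mul_of_good hrS ℓ)) Q

theorem val_polA (Q : FreeAlgebra ℤ (GoodPrime M' S)) :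
    HecA.val (polA (𝒪 := 𝒪) (P := P) hrS hPS Q) = (polL hrS Q).baseChange 𝒪 :=
  val_lift_baseChange (HecA.val : HecA 𝒪 (M' * r) P →ₐ[𝒪] _).toRingHom _ _ (fun ℓ => rfl) Q

theorem polA_smul (Q : FreeAlgebra ℤ (GoodPrime M' S)) (v : MO 𝒪 (M' * r)) :
    polA (𝒪 := 𝒪) (P := P) hrS hPS Q • v = (polL hrS Q).baseChange 𝒪 v := by
  rw [HecA.smul_def, val_polA]

include hrM' in
theorem coresAL_polL (Q : FreeAlgebra ℤ (GoodPrime M' S)) (b : ↥(VZ (Gamma0 (M' * r)))) :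
    coresAL hrM' (polL hrS Q b) = evalL Q (coresAL hrM' b) :=
  lift_intertwine _ _ (coresAL hrM').toAddMonoidHom
    (fun ℓ v => coresAL_tL hrM' ℓ.2.1 ℓ.2.2.1 (not_dvd_mul_of_good hrS ℓ) v) Q b

theorem alWL_polL (x y z w : ℤ) (h : (r : ℤ) * x * w - (M' : ℤ) * y * z = 1)
    (Q : FreeAlgebra ℤ (GoodPrime M' S)) (b : ↥(VZ (Gamma0 (M' * r)))) :
    alWL x y z w h (polL hrS Q b) = polL hrS Q (alWL x y z w h b) :=
  lift_intertwine _ _ (alWL x y z w h).toAddMonoidHom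
    (fun ℓ v => alWL_tL x y z w h ℓ.2.1 ℓ.2.2.1 (not_dvd_mul_of_good hrS ℓ) v) Q b

include hrM' in
theorem cO_polA (Q : FreeAlgebra ℤ (GoodPrime M' S)) (hQ : evalL Q = 0) (v : MO 𝒪 (M' * r)) :
    cO 𝒪 hrM' (polA (𝒪 := 𝒪) (P := P) hrS hPS Q • v) = 0 := by
  rw [polA_smul]
  have key : (cO 𝒪 hrM') ∘ₗ ((polL hrS Q).baseChange 𝒪) = 0 := by
    apply lin_ext_one_tmul
    intro b
    show (1 : 𝒪) ⊗ₜ[ℤ] coresAL hrM' (polL hrS Q b) = 0
    rw [coresAL_polL hrM' hrS, hQ, LinearMap.zero_apply, TensorProduct.tmul_zero]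
  exact LinearMap.congr_fun key v

theorem wqO_polA (x y z w : ℤ) (h : (r : ℤ) * x * w - (M' : ℤ) * y * z = 1)
    (Q : FreeAlgebra ℤ (GoodPrime M' S)) (v : MO 𝒪 (M' * r)) :
    wqO 𝒪 x y z w h (polA (𝒪 := 𝒪) (P := P) hrS hPS Q • v) =
      polA (𝒪 := 𝒪) (P := P) hrS hPS Q • wqO 𝒪 x y z w h v := by
  rw [polA_smul, polA_smul]
  have key : (wqO 𝒪 x y z w h) ∘ₗ ((polL hrS Q).baseChange 𝒪) =
      ((polL hrS Q).baseChange 𝒪) ∘ₗ (wqO 𝒪 x y z w h) := by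
    apply lin_ext_one_tmul
    intro b
    show (1 : 𝒪) ⊗ₜ[ℤ] alWL x y z w h (polL hrS Q b) =
      (1 : 𝒪) ⊗ₜ[ℤ] polL hrS Q (alWL x y z w h b)
    rw [alWL_polL hrS]
  exact LinearMap.congr_fun key v

include hrM' in
/-- **`e · (U_r - πA U_r) = 0`** at level `M' r` (`r ∤ M'`) when the residual system is new at `r`. -/
theorem idem_mul_uA_one (hS' : ∀ q : ℕ, q.Prime → q ∣ M' → q ∈ S) (hPr : ¬ P r)
    (h2 : IsUnit (2 : 𝒪)) (πA : HecA 𝒪 (M' * r) P →ₐ[𝒪] 𝒪)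
    (hnew : ¬ ∃ χ : heckeAlgebra M' 2 S →+* ResidueField 𝒪, ∀ ℓ : GoodPrime M' S,
      χ (heckeAlgebra.T ℓ.2.1 ℓ.2.2.1 ℓ.2.2.2) =
        residue 𝒪 (πA (tA ℓ.2.1 (not_dvd_mul_of_good hrS ℓ)
          (hPS ℓ.1 ℓ.2.1 (not_dvd_mul_of_good hrS ℓ) ℓ.2.2.2))))
    (hsq : πA (uA (Fact.out : r.Prime) (dvd_mul_left r M') hPr) *
      πA (uA (Fact.out : r.Prime) (dvd_mul_left r M') hPr) = 1)
    {e : HecA 𝒪 (M' * r) P}
    (he1 : algebraMap (HecA 𝒪 (M' * r) P) (Localization.AtPrime (augIdeal πA)) e = 1)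
    (he : ∀ k : HecA 𝒪 (M' * r) P,
      algebraMap (HecA 𝒪 (M' * r) P) (Localization.AtPrime (augIdeal πA)) k = 0 → e * k = 0) :
    e * (uA (Fact.out : r.Prime) (dvd_mul_left r M') hPr -
      algebraMap 𝒪 (HecA 𝒪 (M' * r) P)
        (πA (uA (Fact.out : r.Prime) (dvd_mul_left r M') hPr))) = 0 := by
  set U : HecA 𝒪 (M' * r) P := uA (Fact.out : r.Prime) (dvd_mul_left r M') hPr with hU
  obtain ⟨x, y, z, w, h⟩ := exists_al_params (N := M') (q := r) hrM'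
  -- the polynomial separating the level
  obtain ⟨Q, hQ0, hQ1⟩ : ∃ Q : FreeAlgebra ℤ (GoodPrime M' S),
      (evalForms Q : ↥(heckeAlgebra M' 2 S)) = 0 ∧
      FreeAlgebra.lift ℤ (fun ℓ : GoodPrime M' S =>
        residue 𝒪 (πA (tA ℓ.2.1 (not_dvd_mul_of_good hrS ℓ)
          (hPS ℓ.1 ℓ.2.1 (not_dvd_mul_of_good hrS ℓ) ℓ.2.2.2)))) Q ≠ 0 := by
    by_contra hcon
    push Not at hcon
    exact hnew (exists_heckeAlgebra_ringHom M' S hS' (ResidueField 𝒪) _ hcon)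
  have hQL : evalL Q = 0 := evalL_eq_zero Q hQ0
  have hs : πA (polA (𝒪 := 𝒪) (P := P) hrS hPS Q) ∉ maximalIdeal 𝒪 := by
    intro hmem
    apply hQ1
    have h1 := map_lift_int ((residue 𝒪).comp (πA : HecA 𝒪 (M' * r) P →+* 𝒪))
      (fun ℓ : GoodPrime M' S => (tA ℓ.2.1 (not_dvd_mul_of_good hrS ℓ)
        (hPS ℓ.1 ℓ.2.1 (not_dvd_mul_of_good hrS ℓ) ℓ.2.2.2) : HecA 𝒪 (M' * r) P)) Q
    have h3 : residue 𝒪 (πA (polA (𝒪 := 𝒪) (P := P) hrS hPS Q)) = 0 :=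
      (residue_eq_zero_iff _).mpr hmem
    exact h1.symm.trans h3
  -- `cores` and `cores ∘ w` vanish on the local factor
  have k₁ := kill_of_not_mem πA he (cO 𝒪 hrM') _ hs (cO_polA hrM' hrS hPS Q hQL)
  have k₂ := kill_of_not_mem πA he ((cO 𝒪 hrM') ∘ₗ (wqO 𝒪 x y z w h)) _ hs (by
    intro v
    rw [LinearMap.comp_apply, wqO_polA hrS hPS x y z w h Q v]
    exact cO_polA hrM' hrS hPS Q hQL _)
  -- the trace identity on the local factor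
  have T1 : ∀ v : MO 𝒪 (M' * r),
      uO 𝒪 (dvd_mul_left r M') (wqO 𝒪 x y z w h (e • v)) = -(e • v) := by
    intro v
    have := rO_cO hrM' x y z w h (e • v)
    rw [k₁ v, map_zero] at this
    exact eq_neg_of_add_eq_zero_left this.symm
  have T2 : ∀ v : MO 𝒪 (M' * r),
      uO 𝒪 (dvd_mul_left r M') (e • v) = -(wqO 𝒪 x y z w h (e • v)) := by
    intro v
    have := rO_cO hrM' x y z w h (wqO 𝒪 x y z w h (e • v))
    have k2v := k₂ v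
    rw [LinearMap.comp_apply] at k2v
    rw [k2v, map_zero, wqO_wqO] at this
    exact eq_neg_of_add_eq_zero_left this.symm
  have h6 : (U * U - 1) * e = 0 := by
    apply eq_zero_of_smul
    intro v
    rw [mul_smul, sub_smul, one_smul, mul_smul, hU, uA_smul, uA_smul, T2, map_neg, T1, neg_neg,
      sub_self]
  -- `U + c₀ ∉ 𝔫`
  set c₀ : 𝒪 := πA U with hc₀
  have hc₀u : IsUnit c₀ := IsUnit.of_mul_eq_one _ hsq
  have hs2 : πA (U + algebraMap 𝒪 (HecA 𝒪 (M' * r) P) c₀) ∉ maximalIdeal 𝒪 := by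
    rw [map_add, AlgHom.commutes, ← hc₀]
    have h7 : c₀ + (algebraMap 𝒪 𝒪) c₀ = 2 * c₀ := by
      rw [Algebra.algebraMap_self_apply]
      ring
    rw [h7]
    intro hmem
    exact (mem_maximalIdeal _).mp hmem (h2.mul hc₀u)
  obtain ⟨b, hb⟩ := exists_mul_eq_idem (𝒪 := 𝒪) he (s := U + algebraMap 𝒪 _ c₀)
    (fun hmem => hs2 (mem_augIdeal.mp hmem))
  have hee := idem_mul_self he1 he
  have hC : algebraMap 𝒪 (HecA 𝒪 (M' * r) P) c₀ * algebraMap 𝒪 (HecA 𝒪 (M' * r) P) c₀ = 1 := by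
    rw [← map_mul, hsq, map_one]
  linear_combination b * h6 - b * e * hC - e * (U - algebraMap 𝒪 (HecA 𝒪 (M' * r) P) c₀) * hb -
    (U - algebraMap 𝒪 (HecA 𝒪 (M' * r) P) c₀) * hee

end One

/-! ### Versions for a level given by an equation -/

section OfEq

variable {𝒪 : Type} [CommRing 𝒪] [IsDomain 𝒪] [IsDiscreteValuationRing 𝒪]
  [IsAdicComplete (maximalIdeal 𝒪) 𝒪]
variable {P : ℕ → Prop} {S : Set ℕ}

theorem idem_mul_uA_sq_of_eq {M N q : ℕ} [NeZero M] [NeZero N] (hq : q.Prime)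
    (hM : M = N * q * q) (hqN : ¬ q ∣ N) (hqM : q ∣ M) (hPq : ¬ P q) (hunit : IsUnit (q : 𝒪))
    (πA : HecA 𝒪 M P →ₐ[𝒪] 𝒪) (hπq : πA (uA hq hqM hPq) ∈ maximalIdeal 𝒪)
    {e : HecA 𝒪 M P}
    (he : ∀ k : HecA 𝒪 M P,
      algebraMap (HecA 𝒪 M P) (Localization.AtPrime (augIdeal πA)) k = 0 → e * k = 0) :
    e * uA hq hqM hPq = 0 := by
  subst hM
  have : Fact q.Prime := ⟨hq⟩
  exact idem_mul_uA_sq hqN hPq hunit πA hπq he

theorem idem_mul_uA_one_of_eq {M M' r : ℕ} [NeZero M] [NeZero M'] (hr : r.Prime)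
    (hM : M = M' * r) (hrM' : ¬ r ∣ M') (hrM : r ∣ M) (hrS : r ∈ S)
    (hPS : ∀ ℓ : ℕ, ℓ.Prime → ¬ ℓ ∣ M → ℓ ∉ S → ¬ P ℓ)
    (hS' : ∀ q : ℕ, q.Prime → q ∣ M' → q ∈ S) (hPr : ¬ P r)
    (h2 : IsUnit (2 : 𝒪)) (πA : HecA 𝒪 M P →ₐ[𝒪] 𝒪)
    (hnew : ¬ ∃ χ : heckeAlgebra M' 2 S →+* ResidueField 𝒪,
      ∀ (ℓ : ℕ) (hℓ : ℓ.Prime) (hℓM : ¬ ℓ ∣ M) (hℓM' : ¬ ℓ ∣ M') (hℓS : ℓ ∉ S),
        χ (heckeAlgebra.T hℓ hℓM' hℓS) =
          residue 𝒪 (πA (tA hℓ hℓM (hPS ℓ hℓ hℓM hℓS))))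
    (hsq : πA (uA hr hrM hPr) * πA (uA hr hrM hPr) = 1)
    {e : HecA 𝒪 M P}
    (he1 : algebraMap (HecA 𝒪 M P) (Localization.AtPrime (augIdeal πA)) e = 1)
    (he : ∀ k : HecA 𝒪 M P,
      algebraMap (HecA 𝒪 M P) (Localization.AtPrime (augIdeal πA)) k = 0 → e * k = 0) :
    e * (uA hr hrM hPr - algebraMap 𝒪 (HecA 𝒪 M P) (πA (uA hr hrM hPr))) = 0 := by
  subst hM
  have : Fact r.Prime := ⟨hr⟩
  refine idem_mul_uA_one hrM' hrS hPS hS' hPr h2 πA ?_ hsq he1 he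
  rintro ⟨χ, hχ⟩
  exact hnew ⟨χ, fun ℓ hℓ hℓM hℓM' hℓS => hχ ⟨ℓ, hℓ, hℓM', hℓS⟩⟩

end OfEq

end Fermat.Agent.S59lib.HS
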