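/-
S59lib / HS / Top (helper2): **the top bound of the numerical criterion on the Hecke side**.

`T = heckeLocal M S 𝒪 θ` (anemic, `S ⊇` primes of `M`), `π : T → 𝒪` a point with `π (T_ℓ) = ev ℓ`,
`M` cube-free, `ev q = 0` at the primes `q² ∥ M` (`q ∈ 𝒪ˣ`), `ev r = ±1` and `θ` new at `r` at the primes
`r ∥ M` (primes in `P` dropped).  Then for every `s₀ ∈ Ann_T (ker π)`

  `length (𝒪 ⊗ L_M ⧸ (Λ + Λ^⊥)) ≤ rank Λ · length (𝒪 ⧸ π s₀)`,  `Λ = eigO 𝒪 M P ev`,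

the orthogonal for the twisted form `formOw`.  (Input `hΩ` of `RT.bijective_of_numState`.)
-/
import Mathlib
import Fermat.Agent.S59lib.HS.ULem
import Fermat.Agent.S43lib.B2.Bridge.Lift

set_option autoImplicit false
set_option linter.unusedSectionVars false
set_option linter.unusedVariables false

noncomputable section

namespace Fermat.Agent.S59lib.HS

open Module IsLocalRing TensorProduct CongruenceSubgroup CuspForm
open Fermat.Agent.S41lib.HC Fermat.Agent.S41lib.BR Fermat.Agent.S16lib.LG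
open Fermat.Agent.S43lib.B2 Fermat.Agent.S43lib.B2.Bridge Fermat.Agent.S59lib.N3
open scoped MatrixGroups IsMulCommutative

set_option synthInstance.maxHeartbeats 400000
set_option maxHeartbeats 1000000

section Point

variable {𝒪 : Type} [CommRing 𝒪] [IsDomain 𝒪] [IsDiscreteValuationRing 𝒪]
  [IsAdicComplete (maximalIdeal 𝒪) 𝒪]
variable {M : ℕ} [NeZero M] {S : Set ℕ} [hint : Fact (HasIntegralStructure M 2)]
  (θ : heckeAlgebra M 2 S →+* ResidueField 𝒪)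

/-- a point of `heckeLocal` maps the maximal ideal into the maximal ideal -/
theorem point_mem_maximalIdeal (π : heckeLocal M S 𝒪 θ →ₐ[𝒪] 𝒪) {m : heckeLocal M S 𝒪 θ}
    (hm : m ∈ maximalIdeal (heckeLocal M S 𝒪 θ)) : π m ∈ maximalIdeal 𝒪 := by
  by_contra hcon
  have hu : IsUnit (π m) := IsLocalRing.notMem_maximalIdeal.mp hcon
  have h1 : π (m - algebraMap 𝒪 _ (π m)) = 0 := by
    rw [map_sub, AlgHom.commutes, Algebra.algebraMap_self_apply, sub_self]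
  have h2 : IsUnit (m - algebraMap 𝒪 (heckeLocal M S 𝒪 θ) (π m)) := by
    apply IsLocalRing.notMem_maximalIdeal.mp
    intro h3
    have h4 : algebraMap 𝒪 (heckeLocal M S 𝒪 θ) (π m) ∈ maximalIdeal (heckeLocal M S 𝒪 θ) := by
      have := Ideal.sub_mem _ hm h3
      rwa [sub_sub_cancel] at this
    exact (mem_maximalIdeal _).mp h4 (hu.map _)
  have h5 := h2.map π
  rw [h1] at h5
  exact not_isUnit_zero h5

/-- the residue of a point at `T_ℓ` -/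
theorem residue_point (π : heckeLocal M S 𝒪 θ →ₐ[𝒪] 𝒪) (t : heckeAlgebra M 2 S) :
    residue 𝒪 (π (heckeLocal.π M S 𝒪 θ t)) = θ t := by
  obtain ⟨a, ha⟩ := residue_surjective (θ t)
  have hx : ((1 : 𝒪) ⊗ₜ[ℤ] t - algebraMap 𝒪 (𝒪 ⊗[ℤ] ↥(heckeAlgebra M 2 S)) a) ∈
      heckeCharKernel M S 𝒪 θ := by
    rw [mem_heckeCharKernel_iff, map_sub, residualCharacter_tmul, residualCharacter_algebraMap,
      map_one, one_mul, ha, sub_self]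
  have h1 := algebraMap_latticeBaseChange_mem_maximalIdeal M S 𝒪 θ hx
  rw [map_sub, map_sub, ← heckeLocal_π_apply, ← heckeLocal_algebraMap_eq] at h1
  have h2 := point_mem_maximalIdeal θ π h1
  rw [map_sub, AlgHom.commutes, Algebra.algebraMap_self_apply, ← residue_eq_zero_iff, map_sub,
    sub_eq_zero] at h2
  rw [h2, ha]

end Point

/-! ### The map `heckeLocal → A_𝔫` -/

section Beta

variable {𝒪 : Type} [CommRing 𝒪] [IsDomain 𝒪] [IsDiscreteValuationRing 𝒪]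
  [IsAdicComplete (maximalIdeal 𝒪) 𝒪]
variable {M : ℕ} [NeZero M] {S : Set ℕ} [hint : Fact (HasIntegralStructure M 2)]
  (θ : heckeAlgebra M 2 S →+* ResidueField 𝒪) {P : ℕ → Prop}
variable (hS : ∀ q : ℕ, q.Prime → q ∣ M → q ∈ S)
  (hPS : ∀ ℓ : ℕ, ℓ.Prime → ¬ ℓ ∣ M → ℓ ∉ S → ¬ P ℓ)

/-- `T_ℓ ∈ A` for a good prime -/
def tG (ℓ : GoodPrime M S) : HecA 𝒪 M P :=
  tA ℓ.2.1 ℓ.2.2.1 (hPS ℓ.1 ℓ.2.1 ℓ.2.2.1 ℓ.2.2.2)

include hS in
/-- **the bridge** `heckeLocal M S 𝒪 θ → A_𝔫` -/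
theorem exists_beta (π : heckeLocal M S 𝒪 θ →ₐ[𝒪] 𝒪) (πA : HecA 𝒪 M P →ₐ[𝒪] 𝒪)
    (hval : ∀ ℓ : GoodPrime M S, πA (tG (𝒪 := 𝒪) hPS ℓ) =
      π (heckeLocal.π M S 𝒪 θ (heckeAlgebra.T ℓ.2.1 ℓ.2.2.1 ℓ.2.2.2))) :
    ∃ β : heckeLocal M S 𝒪 θ →ₐ[𝒪] Localization.AtPrime (augIdeal πA), ∀ ℓ : GoodPrime M S,
      β (heckeLocal.π M S 𝒪 θ (heckeAlgebra.T ℓ.2.1 ℓ.2.2.1 ℓ.2.2.2)) =
        algebraMap (HecA 𝒪 M P) (Localization.AtPrime (augIdeal πA)) (tG (𝒪 := 𝒪) hPS ℓ) := by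
  obtain ⟨πloc, hloc⟩ := exists_locAug πA
  have : IsLocalHom (algebraMap 𝒪 (Localization.AtPrime (augIdeal πA))) := ⟨fun c hc => by
    have := hc.map πloc
    rwa [AlgHom.commutes, Algebra.algebraMap_self_apply] at this⟩
  refine exists_heckeLocal_pushforward M S 𝒪 θ hS _
    (fun ℓ => algebraMap (HecA 𝒪 M P) (Localization.AtPrime (augIdeal πA)) (tG (𝒪 := 𝒪) hPS ℓ))
    ?_ ?_
  · intro Q hQ
    have h1 := map_lift_int (algebraMap (HecA 𝒪 M P) (Localization.AtPrime (augIdeal πA)))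
      (fun ℓ : GoodPrime M S => tG (𝒪 := 𝒪) (P := P) hPS ℓ) Q
    rw [← h1]
    have h2 : FreeAlgebra.lift ℤ (fun ℓ : GoodPrime M S => tG (𝒪 := 𝒪) (P := P) hPS ℓ) Q = 0 := by
      apply HecA.val_injective
      have h3 := val_lift_baseChange (HecA.val : HecA 𝒪 M P →ₐ[𝒪] _).toRingHom
        (fun ℓ : GoodPrime M S => tL ℓ.2.1 ℓ.2.2.1)
        (fun ℓ : GoodPrime M S => tG (𝒪 := 𝒪) (P := P) hPS ℓ) (fun ℓ => rfl) Q
      have h4 : evalL Q = 0 := evalL_eq_zero Q hQ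
      rw [evalL] at h4
      rw [h4, LinearMap.baseChange_zero] at h3
      rw [map_zero]
      exact h3
    rw [h2, map_zero]
  · intro ℓ
    have h1 : tG (𝒪 := 𝒪) (P := P) hPS ℓ - algebraMap 𝒪 (HecA 𝒪 M P) (πA (tG (𝒪 := 𝒪) hPS ℓ)) ∈
        augIdeal πA := by
      rw [mem_augIdeal, map_sub, AlgHom.commutes, Algebra.algebraMap_self_apply, sub_self]
      exact zero_mem _
    have h2 := (IsLocalization.AtPrime.to_map_mem_maximal_iff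
      (Localization.AtPrime (augIdeal πA)) (augIdeal πA) _).mpr h1
    rw [← residue_eq_zero_iff, map_sub, map_sub, sub_eq_zero] at h2
    rw [h2, ← IsScalarTower.algebraMap_apply 𝒪 (HecA 𝒪 M P), hval ℓ, ← residue_point θ π,
      ResidueField.map_residue]

include hS in
/-- compatibility of the bridge with the augmentations -/
theorem locAug_beta (π : heckeLocal M S 𝒪 θ →ₐ[𝒪] 𝒪) (πA : HecA 𝒪 M P →ₐ[𝒪] 𝒪)
    (hval : ∀ ℓ : GoodPrime M S, πA (tG (𝒪 := 𝒪) hPS ℓ) =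
      π (heckeLocal.π M S 𝒪 θ (heckeAlgebra.T ℓ.2.1 ℓ.2.2.1 ℓ.2.2.2)))
    (β : heckeLocal M S 𝒪 θ →ₐ[𝒪] Localization.AtPrime (augIdeal πA))
    (hβ : ∀ ℓ : GoodPrime M S,
      β (heckeLocal.π M S 𝒪 θ (heckeAlgebra.T ℓ.2.1 ℓ.2.2.1 ℓ.2.2.2)) =
        algebraMap (HecA 𝒪 M P) (Localization.AtPrime (augIdeal πA)) (tG (𝒪 := 𝒪) hPS ℓ))
    (πloc : Localization.AtPrime (augIdeal πA) →ₐ[𝒪] 𝒪)
    (hloc : ∀ a : HecA 𝒪 M P,
      πloc (algebraMap (HecA 𝒪 M P) (Localization.AtPrime (augIdeal πA)) a) = πA a)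
    (t : heckeLocal M S 𝒪 θ) : πloc (β t) = π t := by
  have key : ∀ u : heckeAlgebra M 2 S,
      πloc (β (heckeLocal.π M S 𝒪 θ u)) = π (heckeLocal.π M S 𝒪 θ u) := by
    intro u
    obtain ⟨Q, rfl⟩ := evalForms_surjective M S hS u
    let F₁ : heckeAlgebra M 2 S →+* 𝒪 :=
      ((πloc.comp β : heckeLocal M S 𝒪 θ →ₐ[𝒪] 𝒪) : heckeLocal M S 𝒪 θ →+* 𝒪).comp
        (heckeLocal.π M S 𝒪 θ)
    let F₂ : heckeAlgebra M 2 S →+* 𝒪 :=
      (π : heckeLocal M S 𝒪 θ →+* 𝒪).comp (heckeLocal.π M S 𝒪 θ)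
    have h12 : (F₁.toIntAlgHom).comp (evalForms (M := M) (S := S)) =
        (F₂.toIntAlgHom).comp (evalForms (M := M) (S := S)) := by
      apply FreeAlgebra.hom_ext
      funext ℓ
      show πloc (β (heckeLocal.π M S 𝒪 θ (evalForms (FreeAlgebra.ι ℤ ℓ)))) =
        π (heckeLocal.π M S 𝒪 θ (evalForms (FreeAlgebra.ι ℤ ℓ)))
      rw [evalForms_ι, hβ, hloc, hval]
    exact congrArg (fun F : FreeAlgebra ℤ (GoodPrime M S) →ₐ[ℤ] 𝒪 => F Q) h12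
  have hext : πloc.comp β = π := by
    apply AlgHom.ext_of_adjoin_eq_top (heckeLocal_adjoin_range_π M S 𝒪 θ)
    rintro _ ⟨u, rfl⟩
    exact key u
  exact congrArg (fun F : heckeLocal M S 𝒪 θ →ₐ[𝒪] 𝒪 => F t) hext

end Beta

/-! ### Surjectivity of the bridge -/

section Surj

variable {𝒪 : Type} [CommRing 𝒪] [IsDomain 𝒪] [IsDiscreteValuationRing 𝒪]
  [IsAdicComplete (maximalIdeal 𝒪) 𝒪]
variable {M : ℕ} [NeZero M] {S : Set ℕ} [hint : Fact (HasIntegralStructure M 2)]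
  (θ : heckeAlgebra M 2 S →+* ResidueField 𝒪) {P : ℕ → Prop}
variable (hPS : ∀ ℓ : ℕ, ℓ.Prime → ¬ ℓ ∣ M → ℓ ∉ S → ¬ P ℓ)
  (hPS' : ∀ ℓ : ℕ, ℓ.Prime → ¬ ℓ ∣ M → ¬ P ℓ → ℓ ∉ S)

include hPS' in
/-- the bridge is onto the local factor as soon as the `U_r` are scalars on it -/
theorem beta_surjective (πA : HecA 𝒪 M P →ₐ[𝒪] 𝒪)
    (β : heckeLocal M S 𝒪 θ →ₐ[𝒪] Localization.AtPrime (augIdeal πA))
    (hβ : ∀ ℓ : GoodPrime M S,
      β (heckeLocal.π M S 𝒪 θ (heckeAlgebra.T ℓ.2.1 ℓ.2.2.1 ℓ.2.2.2)) =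
        algebraMap (HecA 𝒪 M P) (Localization.AtPrime (augIdeal πA)) (tG (𝒪 := 𝒪) hPS ℓ))
    {e : HecA 𝒪 M P}
    (he1 : algebraMap (HecA 𝒪 M P) (Localization.AtPrime (augIdeal πA)) e = 1)
    (hU : ∀ {r : ℕ} (hr : r.Prime) (hrM : r ∣ M) (hPr : ¬ P r), ∃ c : 𝒪,
      e * (uA hr hrM hPr - algebraMap 𝒪 (HecA 𝒪 M P) c) = 0) :
    Function.Surjective β := by
  intro z
  obtain ⟨a, rfl⟩ := algebraMap_atPrime_surjective (𝒪 := 𝒪) (HecA 𝒪 M P) (augIdeal πA) z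
  have hsc : ∀ c : 𝒪, algebraMap (HecA 𝒪 M P) (Localization.AtPrime (augIdeal πA))
      (algebraMap 𝒪 (HecA 𝒪 M P) c) ∈ β.range := by
    intro c
    rw [← IsScalarTower.algebraMap_apply 𝒪 (HecA 𝒪 M P)]
    exact ⟨algebraMap 𝒪 _ c, AlgHom.commutes β c⟩
  have key : ∃ ha' : HecA.val a ∈ hecA 𝒪 M P,
      algebraMap (HecA 𝒪 M P) (Localization.AtPrime (augIdeal πA)) (HecA.mk (HecA.val a) ha') ∈
        β.range := by
    refine hecA_induction (P := P) (motive := fun a' => ∃ ha' : a' ∈ hecA 𝒪 M P,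
      algebraMap (HecA 𝒪 M P) (Localization.AtPrime (augIdeal πA)) (HecA.mk a' ha') ∈ β.range)
      ?_ ?_ ?_ ?_ ?_ (HecA.val_mem a)
    · intro ℓ hℓ hℓM hP
      refine ⟨tO_mem_hecA hℓ hℓM hP, ?_⟩
      exact ⟨_, hβ ⟨ℓ, hℓ, hℓM, hPS' ℓ hℓ hℓM hP⟩⟩
    · intro r hr hrM hPr
      refine ⟨uO_mem_hecA hr hrM hPr, ?_⟩
      obtain ⟨c, hc⟩ := hU hr hrM hPr
      have h1 := congrArg (algebraMap (HecA 𝒪 M P) (Localization.AtPrime (augIdeal πA))) hc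
      rw [map_mul, he1, one_mul, map_sub, map_zero, sub_eq_zero] at h1
      show algebraMap (HecA 𝒪 M P) (Localization.AtPrime (augIdeal πA)) (uA hr hrM hPr) ∈ β.range
      rw [h1]
      exact hsc c
    · intro c
      exact ⟨Subalgebra.algebraMap_mem _ c, hsc c⟩
    · rintro a b ⟨ha, ha'⟩ ⟨hb, hb'⟩
      refine ⟨Subalgebra.add_mem _ ha hb, ?_⟩
      have h1 : HecA.mk (a + b) (Subalgebra.add_mem _ ha hb) =
          (HecA.mk a ha + HecA.mk b hb : HecA 𝒪 M P) := rfl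
      rw [h1, map_add]
      exact Subalgebra.add_mem _ ha' hb'
    · rintro a b ⟨ha, ha'⟩ ⟨hb, hb'⟩
      refine ⟨Subalgebra.mul_mem _ ha hb, ?_⟩
      have h1 : HecA.mk (a * b) (Subalgebra.mul_mem _ ha hb) =
          (HecA.mk a ha * HecA.mk b hb : HecA 𝒪 M P) := rfl
      rw [h1, map_mul]
      exact Subalgebra.mul_mem _ ha' hb'
  obtain ⟨ha', h⟩ := key
  exact h

end Surj

/-! ### The top bound -/

section Main

variable {𝒪 : Type} [CommRing 𝒪] [IsDomain 𝒪] [IsDiscreteValuationRing 𝒪]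
  [IsAdicComplete (maximalIdeal 𝒪) 𝒪]
variable {M : ℕ} [NeZero M] {S : Set ℕ} [hint : Fact (HasIntegralStructure M 2)]
  (θ : heckeAlgebra M 2 S →+* ResidueField 𝒪)
variable {p : ℕ} [Fact p.Prime]

omit [IsAdicComplete (maximalIdeal 𝒪) 𝒪] in
theorem isUnit_two_of_mem (hp2 : p ≠ 2) (hp : (p : 𝒪) ∈ maximalIdeal 𝒪) : IsUnit (2 : 𝒪) := by
  by_contra h2
  have h2m : (2 : 𝒪) ∈ maximalIdeal 𝒪 := (mem_maximalIdeal _).mpr h2
  obtain ⟨k, hk⟩ := (Fact.out : p.Prime).odd_of_ne_two hp2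
  have h1 : (1 : 𝒪) = (p : 𝒪) - 2 * (k : 𝒪) := by
    rw [hk]
    push_cast
    ring
  have h3 : (1 : 𝒪) ∈ maximalIdeal 𝒪 := by
    rw [h1]
    exact Ideal.sub_mem _ hp (Ideal.mul_mem_right _ _ h2m)
  exact (Ideal.ne_top_iff_one _).mp (maximalIdeal.isMaximal 𝒪).ne_top h3

/-- **The top bound on the Hecke side.**  `T = heckeLocal M S 𝒪 θ` (anemic; `S ⊇` primes of `M`),
`π : T → 𝒪` a point with `π (T_ℓ) = ev ℓ`; `P` = the dropped primes (`ℓ ∤ M`: dropped iff `ℓ ∈ S`;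
primes `r ∣ M` may be dropped too).  At the kept `q² ∣ M`: `ev q = 0`, `q ∈ 𝒪ˣ`, `q³ ∤ M`; at the kept
`r ∥ M`: `ev r = ±1` and `θ` is new at `r`.  Then every `s₀ ∈ Ann_T (ker π)` bounds the congruence
module of the `ev`-eigenlattice of `𝒪 ⊗ L_M` (twisted form). -/
theorem length_cong_eigO_le (hp2 : p ≠ 2) (hp : (p : 𝒪) ∈ maximalIdeal 𝒪)
    [Fintype (SL(2, ℤ) ⧸ Gamma0 M)]
    (hS : ∀ q : ℕ, q.Prime → q ∣ M → q ∈ S)
    (π : heckeLocal M S 𝒪 θ →ₐ[𝒪] 𝒪) (P : ℕ → Prop)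
    (hPS : ∀ ℓ : ℕ, ℓ.Prime → ¬ ℓ ∣ M → (P ℓ ↔ ℓ ∈ S))
    (ev : ℕ → 𝒪)
    (hev : ∀ (ℓ : ℕ) (hℓ : ℓ.Prime) (hℓM : ¬ ℓ ∣ M) (hℓS : ℓ ∉ S),
      π (heckeLocal.π M S 𝒪 θ (heckeAlgebra.T hℓ hℓM hℓS)) = ev ℓ)
    (hsq : ∀ q : ℕ, q.Prime → q * q ∣ M → ¬ P q →
      ev q = 0 ∧ IsUnit (q : 𝒪) ∧ ¬ q * q * q ∣ M)
    (hone : ∀ (r M' : ℕ) [NeZero M'], r.Prime → M = M' * r → ¬ r ∣ M' → ¬ P r →
      ev r * ev r = 1 ∧ ¬ ∃ χ : heckeAlgebra M' 2 S →+* ResidueField 𝒪,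
        ∀ (ℓ : ℕ) (hℓ : ℓ.Prime) (hℓM : ¬ ℓ ∣ M) (hℓM' : ¬ ℓ ∣ M') (hℓS : ℓ ∉ S),
          χ (heckeAlgebra.T hℓ hℓM' hℓS) = θ (heckeAlgebra.T hℓ hℓM hℓS))
    (s₀ : heckeLocal M S 𝒪 θ) (hs₀ : ∀ t, π t = 0 → s₀ * t = 0) :
    Module.length 𝒪 (MO 𝒪 M ⧸ (eigO 𝒪 M P ev ⊔ rorth (formOw 𝒪 M) (eigO 𝒪 M P ev))) ≤
      Module.finrank 𝒪 (eigO 𝒪 M P ev) *
        Module.length 𝒪 (𝒪 ⧸ (Ideal.span {π s₀} : Ideal 𝒪)) := by
  classical
  by_cases hbot : eigO 𝒪 M P ev = ⊥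
  · have h1 : eigO 𝒪 M P ev ⊔ rorth (formOw 𝒪 M) (eigO 𝒪 M P ev) = ⊤ := by
      rw [hbot, bot_sup_eq, eq_top_iff]
      intro m _
      rw [mem_rorth]
      intro x hx
      rw [(Submodule.mem_bot 𝒪).mp hx, map_zero, LinearMap.zero_apply]
    have h2 : Subsingleton
        (MO 𝒪 M ⧸ (eigO 𝒪 M P ev ⊔ rorth (formOw 𝒪 M) (eigO 𝒪 M P ev))) :=
      Submodule.Quotient.subsingleton_iff.mpr h1
    rw [Module.length_eq_zero]
    exact zero_le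
  · obtain ⟨y₀, hy₀, h0⟩ := (Submodule.ne_bot_iff _).mp hbot
    obtain ⟨πA, hπA⟩ := exists_eigChar ev hy₀ h0
    have hker := mem_eigO_iff_ker ev hy₀ h0 πA hπA
    have hPS₁ : ∀ ℓ : ℕ, ℓ.Prime → ¬ ℓ ∣ M → ℓ ∉ S → ¬ P ℓ :=
      fun ℓ hℓ hℓM hℓS hP => hℓS ((hPS ℓ hℓ hℓM).mp hP)
    have hPS₂ : ∀ ℓ : ℕ, ℓ.Prime → ¬ ℓ ∣ M → ¬ P ℓ → ℓ ∉ S :=
      fun ℓ hℓ hℓM hP hℓS => hP ((hPS ℓ hℓ hℓM).mpr hℓS)
    have hval : ∀ ℓ : GoodPrime M S, πA (tG (𝒪 := 𝒪) hPS₁ ℓ) =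
        π (heckeLocal.π M S 𝒪 θ (heckeAlgebra.T ℓ.2.1 ℓ.2.2.1 ℓ.2.2.2)) := by
      intro ℓ
      rw [hev, tG, eigChar_tA ev hy₀ h0 πA hπA]
    obtain ⟨πloc, hloc⟩ := exists_locAug πA
    obtain ⟨e, he1, he⟩ := exists_idem_atPrime (𝒪 := 𝒪) (HecA 𝒪 M P) (augIdeal πA)
    obtain ⟨β, hβ⟩ := exists_beta θ hS hPS₁ π πA hval
    have h2 : IsUnit (2 : 𝒪) := isUnit_two_of_mem hp2 hp
    have hU : ∀ {r : ℕ} (hr : r.Prime) (hrM : r ∣ M) (hPr : ¬ P r), ∃ c : 𝒪,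
        e * (uA hr hrM hPr - algebraMap 𝒪 (HecA 𝒪 M P) c) = 0 := by
      intro r hr hrM hPr
      have hur : πA (uA hr hrM hPr) = ev r := eigChar_uA ev hy₀ h0 πA hπA hr hrM hPr
      by_cases hrr : r * r ∣ M
      · obtain ⟨hev0, hunit, hcube⟩ := hsq r hr hrr hPr
        obtain ⟨N, hN⟩ := hrr
        have hM : M = N * r * r := by
          rw [hN]
          ring
        have hN0 : NeZero N := ⟨by
          rintro rfl
          exact (NeZero.ne M) (by rw [hM]; simp)⟩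
        have hrN : ¬ r ∣ N := by
          rintro ⟨k, rfl⟩
          exact hcube ⟨k, by rw [hM]; ring⟩
        refine ⟨0, ?_⟩
        rw [map_zero, sub_zero]
        exact idem_mul_uA_sq_of_eq hr hM hrN hrM hPr hunit πA
          (by rw [hur, hev0]; exact zero_mem _) he
      · have hrM2 := hrM
        obtain ⟨M', hM'⟩ := hrM2
        have hM : M = M' * r := by
          rw [hM']
          ring
        have hM0 : NeZero M' := ⟨by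
          rintro rfl
          exact (NeZero.ne M) (by rw [hM]; simp)⟩
        have hrM'' : ¬ r ∣ M' := by
          rintro ⟨k, rfl⟩
          exact hrr ⟨k, by rw [hM]; ring⟩
        obtain ⟨hsq1, hnew⟩ := hone r M' hr hM hrM'' hPr
        refine ⟨πA (uA hr hrM hPr), ?_⟩
        refine idem_mul_uA_one_of_eq hr hM hrM'' hrM (hS r hr hrM) hPS₁
          (fun q hq hqM' => hS q hq (hM ▸ Dvd.dvd.mul_right hqM' r)) hPr h2 πA ?_
          (by rw [hur]; exact hsq1) he1 he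
        rintro ⟨χ, hχ⟩
        refine hnew ⟨χ, fun ℓ hℓ hℓM hℓM' hℓS => ?_⟩
        rw [hχ ℓ hℓ hℓM hℓM' hℓS, eigChar_tA ev hy₀ h0 πA hπA, ← hev ℓ hℓ hℓM hℓS, residue_point]
    have hsurj := beta_surjective θ hPS₁ hPS₂ πA β hβ he1 hU
    have hπ := locAug_beta θ hS hPS₁ π πA hval β hβ πloc hloc
    exact length_cong_le_of_local (rightPerfect_formOw hp2 hp M)
      (fun t x y => formOw_hecA (HecA.val_mem t) x y) πA π β hsurj πloc hloc hπ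
      (eigO 𝒪 M P ev) hker s₀ hs₀

end Main

end Fermat.Agent.S59lib.HS
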