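/-
S59lib / HS / Chain (helper2): **the Hecke side of the numerical criterion along a chain of levels**
(HS-Σ).

* `length_cong_eq_top_of_gram_zero` : the degenerate case of the growth formula (Gram form `0`);
* `lvlP R0 l`, `evP ev₀ l` : the level `R0 · ∏ q²` and the system `ev₀` with `0` at the `q ∈ l`;
* `congL 𝒪 M P a` : the length of the congruence module of `eigO 𝒪 M P a` (twisted form);
* `congL_step` : the `Σ`-step without the hypothesis `c_q ≠ 0`; `congL_chain` : the chain;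
* `congL_le_congIdeal` : the top bound of `HS/Top` in terms of `NumCrit.congIdeal`;
* **`hs_sigma`** : `c₀ + ∑_q length 𝒪/(c_q) ≤ length 𝒪/η_Σ`.
-/
import Mathlib
import Fermat.Agent.S59lib.HS.Top
import Fermat.Agent.S59lib.NumCrit.Gor
import Fermat.Agent.S59lib.NumCrit.Len

set_option autoImplicit false
set_option linter.unusedSectionVars false
set_option linter.unusedVariables false
set_option linter.style.haveILetI false

noncomputable section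

namespace Fermat.Agent.S59lib.HS

open Module IsLocalRing TensorProduct CongruenceSubgroup CuspForm
open Fermat.Agent.S41lib.BR Fermat.Agent.S16lib.LG Fermat.Agent.S59lib.N3
open Fermat.Agent.S59lib.NumCrit
open scoped MatrixGroups

/-! ### The degenerate case of the growth formula -/

section Degenerate

variable {𝒪 : Type*} [CommRing 𝒪] [IsDomain 𝒪] [IsDiscreteValuationRing 𝒪]
variable {M : Type*} [AddCommGroup M] [Module 𝒪 M] [Module.Finite 𝒪 M] [Module.Free 𝒪 M]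

/-- a nonzero submodule of a free module has infinite-length dual -/
theorem length_dual_eq_top {Λ : Submodule 𝒪 M} (hne : Λ ≠ ⊥) :
    Module.length 𝒪 (Λ →ₗ[𝒪] 𝒪) = ⊤ := by
  classical
  obtain ⟨x₀, hx₀, h0⟩ := (Submodule.ne_bot_iff _).mp hne
  let b := Module.Free.chooseBasis 𝒪 M
  have hex : ∃ i, b.repr x₀ i ≠ 0 := by
    by_contra hcon
    push Not at hcon
    apply h0
    apply b.repr.injective
    ext i
    rw [hcon i, map_zero, Finsupp.zero_apply]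
  obtain ⟨i, hi⟩ := hex
  let f : Λ →ₗ[𝒪] 𝒪 := (b.coord i) ∘ₗ Λ.subtype
  have hf : f ⟨x₀, hx₀⟩ ≠ 0 := hi
  let g : 𝒪 →ₗ[𝒪] (Λ →ₗ[𝒪] 𝒪) := LinearMap.toSpanSingleton 𝒪 _ f
  have hg : Function.Injective g := by
    rw [← LinearMap.ker_eq_bot, LinearMap.ker_eq_bot']
    intro c hc
    have h1 : (c • f) ⟨x₀, hx₀⟩ = 0 := by
      have : g c = c • f := rfl
      rw [← this, hc, LinearMap.zero_apply]
    rw [LinearMap.smul_apply, smul_eq_mul] at h1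
    exact (mul_eq_zero.mp h1).resolve_right hf
  have h2 := Module.length_le_of_injective g hg
  rw [length_self_eq_top] at h2
  exact top_le_iff.mp h2

/-- **the degenerate case**: if the form vanishes on a nonzero saturated `Λ`, the congruence
module of `Λ` has infinite length -/
theorem length_cong_eq_top_of_gram_zero {B : M →ₗ[𝒪] M →ₗ[𝒪] 𝒪}
    (hperf : ∀ f : M →ₗ[𝒪] 𝒪, ∃ m, ∀ x, B x m = f x) {Λ : Submodule 𝒪 M} (hsat : IsSat Λ)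
    (hne : Λ ≠ ⊥) (h0 : ∀ x ∈ Λ, ∀ y ∈ Λ, B x y = 0) :
    Module.length 𝒪 (M ⧸ (Λ ⊔ rorth B Λ)) = ⊤ := by
  have hg : gram B Λ = 0 := by
    ext x y
    rw [gram_apply, LinearMap.zero_apply, LinearMap.zero_apply]
    exact h0 y y.2 x x.2
  have hr : LinearMap.range (gram B Λ) = ⊥ := by
    rw [hg, LinearMap.range_zero]
  rw [(congEquiv hperf hsat).length_eq, (Submodule.quotEquivOfEqBot _ hr).length_eq]
  exact length_dual_eq_top hne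

end Degenerate

/-! ### Levels and systems along a list of primes -/

section Levels

/-- the level `R0 · ∏_{q ∈ l} q²` -/
def lvlP (R0 : ℕ) : List Nat.Primes → ℕ
  | [] => R0
  | q :: l => lvlP R0 l * (q : ℕ) * (q : ℕ)

@[simp] theorem lvlP_nil (R0 : ℕ) : lvlP R0 [] = R0 := rfl

@[simp] theorem lvlP_cons (R0 : ℕ) (q : Nat.Primes) (l : List Nat.Primes) :
    lvlP R0 (q :: l) = lvlP R0 l * (q : ℕ) * (q : ℕ) := rfl

theorem lvlP_ne_zero {R0 : ℕ} (h : R0 ≠ 0) : ∀ l : List Nat.Primes, lvlP R0 l ≠ 0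
  | [] => h
  | q :: l => mul_ne_zero (mul_ne_zero (lvlP_ne_zero h l) q.2.ne_zero) q.2.ne_zero

instance lvlP_neZero (R0 : ℕ) [NeZero R0] (l : List Nat.Primes) : NeZero (lvlP R0 l) :=
  ⟨lvlP_ne_zero (NeZero.ne R0) l⟩

theorem lvlP_eq (R0 : ℕ) : ∀ l : List Nat.Primes,
    lvlP R0 l = R0 * (l.map (fun q : Nat.Primes => (q : ℕ))).prod *
      (l.map (fun q : Nat.Primes => (q : ℕ))).prod
  | [] => by simp
  | q :: l => by
    rw [lvlP_cons, lvlP_eq R0 l, List.map_cons, List.prod_cons]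
    ring

theorem dvd_lvlP_of_mem (R0 : ℕ) {q : Nat.Primes} : ∀ {l : List Nat.Primes}, q ∈ l →
    (q : ℕ) * (q : ℕ) ∣ lvlP R0 l
  | [], h => absurd h List.not_mem_nil
  | q' :: l, h => by
    rcases List.mem_cons.mp h with rfl | h
    · rw [lvlP_cons, mul_assoc]
      exact dvd_mul_left _ _
    · rw [lvlP_cons, mul_assoc]
      exact (dvd_lvlP_of_mem R0 h).mul_right _

theorem R0_dvd_lvlP (R0 : ℕ) : ∀ l : List Nat.Primes, R0 ∣ lvlP R0 l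
  | [] => dvd_rfl
  | q :: l => by
    rw [lvlP_cons, mul_assoc]
    exact (R0_dvd_lvlP R0 l).mul_right _

variable {𝒪 : Type*} [Zero 𝒪]

/-- the system `ev₀` with the value `0` at the primes of `l` -/
def evP (ev₀ : ℕ → 𝒪) : List Nat.Primes → ℕ → 𝒪
  | [] => ev₀
  | q :: l => Function.update (evP ev₀ l) (q : ℕ) 0

@[simp] theorem evP_nil (ev₀ : ℕ → 𝒪) : evP ev₀ [] = ev₀ := rfl

@[simp] theorem evP_cons (ev₀ : ℕ → 𝒪) (q : Nat.Primes) (l : List Nat.Primes) :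
    evP ev₀ (q :: l) = Function.update (evP ev₀ l) (q : ℕ) 0 := rfl

theorem evP_of_mem (ev₀ : ℕ → 𝒪) {q : Nat.Primes} : ∀ {l : List Nat.Primes}, q ∈ l →
    evP ev₀ l (q : ℕ) = 0
  | [], h => absurd h List.not_mem_nil
  | q' :: l, h => by
    rw [evP_cons]
    by_cases hq : (q : ℕ) = (q' : ℕ)
    · rw [hq, Function.update_self]
    · rw [Function.update_of_ne hq]
      rcases List.mem_cons.mp h with rfl | h
      · exact absurd rfl hq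
      · exact evP_of_mem ev₀ h

theorem evP_of_forall_ne (ev₀ : ℕ → 𝒪) (n : ℕ) : ∀ {l : List Nat.Primes},
    (∀ q ∈ l, n ≠ ((q : Nat.Primes) : ℕ)) → evP ev₀ l n = ev₀ n
  | [], _ => rfl
  | q' :: l, h => by
    rw [evP_cons, Function.update_of_ne (h q' List.mem_cons_self)]
    exact evP_of_forall_ne ev₀ n (fun q hq => h q (List.mem_cons_of_mem _ hq))

/-- a prime not dividing the level is not in the list -/
theorem evP_of_not_dvd (ev₀ : ℕ → 𝒪) (R0 : ℕ) {n : ℕ} {l : List Nat.Primes}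
    (h : ¬ n ∣ lvlP R0 l) : evP ev₀ l n = ev₀ n := by
  apply evP_of_forall_ne
  rintro q hq rfl
  exact h ((dvd_mul_right _ _).trans (dvd_lvlP_of_mem R0 hq))

end Levels

/-! ### The length of the congruence module of an eigenlattice -/

section CongL

variable (𝒪 : Type*) [CommRing 𝒪]

/-- the length of the congruence module of `eigO 𝒪 M P a` for the twisted form -/
def congL (M : ℕ) [NeZero M] (P : ℕ → Prop) (a : ℕ → 𝒪) : ℕ∞ :=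
  letI : Fintype (SL(2, ℤ) ⧸ Gamma0 M) := Fintype.ofFinite _
  Module.length 𝒪 (MO 𝒪 M ⧸ (eigO 𝒪 M P a ⊔ rorth (formOw 𝒪 M) (eigO 𝒪 M P a)))

theorem congL_eq (M : ℕ) [NeZero M] [inst : Fintype (SL(2, ℤ) ⧸ Gamma0 M)] (P : ℕ → Prop)
    (a : ℕ → 𝒪) :
    congL 𝒪 M P a =
      Module.length 𝒪 (MO 𝒪 M ⧸ (eigO 𝒪 M P a ⊔ rorth (formOw 𝒪 M) (eigO 𝒪 M P a))) := by
  have h : inst = Fintype.ofFinite _ := Subsingleton.elim _ _
  subst h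
  rfl

variable {𝒪} [IsDomain 𝒪] [IsPrincipalIdealRing 𝒪]

/-- the congruence module of the zero lattice is trivial -/
theorem length_cong_of_eq_bot {M : Type*} [AddCommGroup M] [Module 𝒪 M]
    (B : M →ₗ[𝒪] M →ₗ[𝒪] 𝒪) {Λ : Submodule 𝒪 M} (h : Λ = ⊥) :
    Module.length 𝒪 (M ⧸ (Λ ⊔ rorth B Λ)) = 0 := by
  have h1 : Λ ⊔ rorth B Λ = ⊤ := by
    rw [h, bot_sup_eq, eq_top_iff]
    intro m _
    rw [mem_rorth]
    intro x hx
    rw [(Submodule.mem_bot 𝒪).mp hx, map_zero, LinearMap.zero_apply]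
  have h2 : Subsingleton (M ⧸ (Λ ⊔ rorth B Λ)) := Submodule.Quotient.subsingleton_iff.mpr h1
  exact Module.length_eq_zero

end CongL

/-! ### The `Σ`-step, without the hypothesis `c_q ≠ 0` -/

section Step

variable {𝒪 : Type*} [CommRing 𝒪] [IsDomain 𝒪] [IsDiscreteValuationRing 𝒪]
variable {p : ℕ} [Fact p.Prime]
variable {N q : ℕ} [NeZero N] [Fact q.Prime] (hqN : ¬ q ∣ N)

/-- the constant of the `Σ`-step -/
def cTw (q : ℕ) (t : 𝒪) : 𝒪 := ((q : 𝒪) - 1) * (((q : 𝒪) + 1) ^ 2 - t ^ 2)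

include hqN in
/-- **The `Σ`-step** `N → N q²` for the eigenlattices, including the degenerate case. -/
theorem congL_step (hp2 : p ≠ 2) (hqp : q ≠ p) (hp : (p : 𝒪) ∈ maximalIdeal 𝒪)
    (P : ℕ → Prop) (a : ℕ → 𝒪) (hPq : ¬ P q)
    {ℓ : ℕ} (hℓ : ℓ.Prime) (hℓNq : ¬ ℓ ∣ N * q) (hPℓ : ¬ P ℓ)
    (hu : IsUnit (a ℓ - ((ℓ : 𝒪) + 1)))
    (hrk : Module.finrank 𝒪 (eigO 𝒪 (N * q * q) P (Function.update a q 0)) ≤
      Module.finrank 𝒪 (eigO 𝒪 N P a)) :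
    congL 𝒪 (N * q * q) P (Function.update a q 0) =
        congL 𝒪 N P a + Module.finrank 𝒪 (eigO 𝒪 N P a) *
          Module.length 𝒪 (𝒪 ⧸ (Ideal.span {cTw q (a q)} : Ideal 𝒪)) ∧
      Module.finrank 𝒪 (eigO 𝒪 (N * q * q) P (Function.update a q 0)) =
        Module.finrank 𝒪 (eigO 𝒪 N P a) := by
  classical
  letI i1 : Fintype (SL(2, ℤ) ⧸ Gamma0 N) := Fintype.ofFinite _
  letI i2 : Fintype (SL(2, ℤ) ⧸ Gamma0 (N * q)) := Fintype.ofFinite _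
  letI i3 : Fintype (SL(2, ℤ) ⧸ Gamma0 (N * q * q)) := Fintype.ofFinite _
  have hℓN : ¬ ℓ ∣ N := fun h => hℓNq (h.mul_right q)
  have huu : IsUnit ((a ℓ - ((ℓ : 𝒪) + 1)) * (a ℓ - ((ℓ : 𝒪) + 1))) := hu.mul hu
  obtain ⟨F, G, hFG⟩ := exists_factor_jO (𝒪 := 𝒪) hqN hp2 hqp hℓ hℓ hℓN hℓNq hℓN
  have hE : ∀ x ∈ eigO 𝒪 N P a, ((eisO 𝒪 hℓ hℓN) ∘ₗ (eisO 𝒪 hℓ hℓN)) x =
      ((a ℓ - ((ℓ : 𝒪) + 1)) * (a ℓ - ((ℓ : 𝒪) + 1))) • x :=
    eisO_eisO_of_eigen hℓ hℓ hℓN hℓN (a ℓ) (a ℓ)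
      (fun x hx => hx.1 ℓ hℓ hℓN hPℓ) (fun x hx => hx.1 ℓ hℓ hℓN hPℓ)
  have hsat := isSat_eigO (𝒪 := 𝒪) N P a
  have hinj := inj_of_factor _ _ F G (p : 𝒪) hp hFG hsat _ huu hE
  have hsat' := isSat_map_of_factor _ _ F G (p : 𝒪) hp hFG hsat _ huu hE
  have heq := eigO_step_eq hqN hp2 hqp hp P a hPq hℓ hℓ hℓNq hℓN hPℓ hPℓ huu hrk
  have hfr : Module.finrank 𝒪 (eigO 𝒪 (N * q * q) P (Function.update a q 0)) =
      Module.finrank 𝒪 (eigO 𝒪 N P a) := by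
    rw [heq, finrank_map_of_inj _ _ hinj]
  refine ⟨?_, hfr⟩
  rw [congL_eq, congL_eq]
  by_cases hc : cTw q (a q) = 0
  · by_cases hbot : eigO 𝒪 N P a = ⊥
    · have hbot' : eigO 𝒪 (N * q * q) P (Function.update a q 0) = ⊥ := by
        rw [heq, hbot, Submodule.map_bot]
      rw [length_cong_of_eq_bot _ hbot', length_cong_of_eq_bot _ hbot, hbot, finrank_bot]
      simp
    · have hne' : (eigO 𝒪 N P a).map (jO 𝒪 hqN) ≠ ⊥ := by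
        intro h
        apply hbot
        rw [eq_bot_iff]
        intro x hx
        have h1 : jO 𝒪 hqN x ∈ (eigO 𝒪 N P a).map (jO 𝒪 hqN) := Submodule.mem_map_of_mem hx
        rw [h] at h1
        exact (Submodule.mem_bot 𝒪).mpr (hinj x hx ((Submodule.mem_bot 𝒪).mp h1))
      have h0 : ∀ x ∈ (eigO 𝒪 N P a).map (jO 𝒪 hqN), ∀ y ∈ (eigO 𝒪 N P a).map (jO 𝒪 hqN),
          formOw 𝒪 (N * q * q) x y = 0 := by
        rintro _ ⟨x, hx, rfl⟩ _ ⟨y, hy, rfl⟩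
        have hTq : tO 𝒪 (Fact.out : q.Prime) hqN y = a q • y := hy.1 q (Fact.out : q.Prime) hqN hPq
        rw [formOw_jO, hTq, map_smul, hTq, smul_smul, map_smul, smul_eq_mul]
        have hc' : ((q : 𝒪) - 1) * (((q : 𝒪) + 1) ^ 2 - a q ^ 2) = 0 := hc
        linear_combination (formOw 𝒪 N x y) * hc'
      rw [heq, length_cong_eq_top_of_gram_zero (rightPerfect_formOw hp2 hp (N * q * q)) hsat'
        hne' h0, hc]
      have h1 : (Ideal.span {(0 : 𝒪)} : Ideal 𝒪) = ⊥ := by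
        rw [Ideal.span_singleton_eq_bot]
      have h2 : Module.length 𝒪 (𝒪 ⧸ (Ideal.span {(0 : 𝒪)} : Ideal 𝒪)) = ⊤ := by
        rw [(Submodule.quotEquivOfEqBot _ h1).length_eq, length_self_eq_top]
      have h3 : Module.finrank 𝒪 (eigO 𝒪 N P a) ≠ 0 := fun h =>
        hbot (Submodule.finrank_eq_zero.mp h)
      rw [h2, ENat.mul_top (by exact_mod_cast h3), add_top]
  · exact length_cong_eigO_step hqN hp2 hqp hp P a hPq hℓ hℓ hℓNq hℓN hPℓ hPℓ huu hrk hc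

end Step

/-! ### The chain -/

section Chain

variable {𝒪 : Type*} [CommRing 𝒪] [IsDomain 𝒪] [IsDiscreteValuationRing 𝒪]

/-- the hypotheses of the chain `R0 → R0 q₁² → R0 q₁² q₂² → …` (the head of the list is the last
prime added): the primes are new, different from `p`, kept, and the rank does not grow -/
def ChainOK (p : ℕ) (R0 : ℕ) [NeZero R0] (P : ℕ → Prop) (ev₀ : ℕ → 𝒪) : List Nat.Primes → Prop
  | [] => True
  | q :: l => ChainOK p R0 P ev₀ l ∧ ¬ (q : ℕ) ∣ lvlP R0 l ∧ (q : ℕ) ≠ p ∧ ¬ P q ∧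
      Module.finrank 𝒪 (eigO 𝒪 (lvlP R0 (q :: l)) P (evP ev₀ (q :: l))) ≤
        Module.finrank 𝒪 (eigO 𝒪 (lvlP R0 l) P (evP ev₀ l))

theorem ChainOK.ne_p {p R0 : ℕ} [NeZero R0] {P : ℕ → Prop} {ev₀ : ℕ → 𝒪} :
    ∀ {l : List Nat.Primes}, ChainOK p R0 P ev₀ l → ∀ q ∈ l, ((q : Nat.Primes) : ℕ) ≠ p
  | [], _, q, hq => absurd hq List.not_mem_nil
  | q' :: l, hok, q, hq => by
    rcases List.mem_cons.mp hq with rfl | hq
    · exact hok.2.2.1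
    · exact ChainOK.ne_p hok.1 q hq

variable {p : ℕ} [Fact p.Prime]

/-- **The chain**: the congruence module at the level `R0 ∏ q²`. -/
theorem congL_chain (hp2 : p ≠ 2) (hp : (p : 𝒪) ∈ maximalIdeal 𝒪) (R0 : ℕ) [NeZero R0]
    (P : ℕ → Prop) (ev₀ : ℕ → 𝒪) {ℓ : ℕ} (hℓ : ℓ.Prime) (hPℓ : ¬ P ℓ)
    (hu : IsUnit (ev₀ ℓ - ((ℓ : 𝒪) + 1))) :
    ∀ l : List Nat.Primes, ChainOK p R0 P ev₀ l → ¬ ℓ ∣ lvlP R0 l →
      congL 𝒪 (lvlP R0 l) P (evP ev₀ l) = congL 𝒪 R0 P ev₀ +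
        Module.finrank 𝒪 (eigO 𝒪 R0 P ev₀) *
          (l.map fun q : Nat.Primes => Module.length 𝒪
            (𝒪 ⧸ (Ideal.span {cTw (q : ℕ) (ev₀ q)} : Ideal 𝒪))).sum ∧
      Module.finrank 𝒪 (eigO 𝒪 (lvlP R0 l) P (evP ev₀ l)) = Module.finrank 𝒪 (eigO 𝒪 R0 P ev₀)
  | [], _, _ => by
    refine ⟨?_, rfl⟩
    show congL 𝒪 R0 P ev₀ = _
    simp
  | q :: l, hok, hℓl => by
    obtain ⟨hok', hqN, hqp, hPq, hrk⟩ := hok
    have hℓl' : ¬ ℓ ∣ lvlP R0 l := fun h => hℓl (by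
      rw [lvlP_cons, mul_assoc]
      exact h.mul_right _)
    obtain ⟨ih1, ih2⟩ := congL_chain hp2 hp R0 P ev₀ hℓ hPℓ hu l hok' hℓl'
    haveI : Fact (q : ℕ).Prime := ⟨q.2⟩
    have hℓNq : ¬ ℓ ∣ lvlP R0 l * (q : ℕ) := fun h => hℓl (by
      rw [lvlP_cons]
      exact h.mul_right _)
    have hev : evP ev₀ l ℓ = ev₀ ℓ := evP_of_not_dvd ev₀ R0 hℓl'
    have hevq : evP ev₀ l (q : ℕ) = ev₀ q := evP_of_not_dvd ev₀ R0 hqN
    obtain ⟨h1, h2⟩ := congL_step hqN hp2 hqp hp P (evP ev₀ l) hPq hℓ hℓNq hPℓ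
      (by rw [hev]; exact hu) hrk
    refine ⟨?_, h2.trans ih2⟩
    show congL 𝒪 (lvlP R0 l * (q : ℕ) * (q : ℕ)) P (Function.update (evP ev₀ l) (q : ℕ) 0) = _
    rw [h1, ih1, ih2, hevq, List.map_cons, List.sum_cons]
    ring

/-- the lower bound at the end of the chain, in the form used by the `p`-step -/
theorem congL_chain_le (hp2 : p ≠ 2) (hp : (p : 𝒪) ∈ maximalIdeal 𝒪) (R0 : ℕ) [NeZero R0]
    (P : ℕ → Prop) (ev₀ : ℕ → 𝒪) {ℓ : ℕ} (hℓ : ℓ.Prime) (hPℓ : ¬ P ℓ)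
    (hu : IsUnit (ev₀ ℓ - ((ℓ : 𝒪) + 1))) (l : List Nat.Primes) (hok : ChainOK p R0 P ev₀ l)
    (hℓl : ¬ ℓ ∣ lvlP R0 l) (c₀ : ℕ∞)
    (hbase : Module.finrank 𝒪 (eigO 𝒪 R0 P ev₀) * c₀ ≤ congL 𝒪 R0 P ev₀) :
    Module.finrank 𝒪 (eigO 𝒪 (lvlP R0 l) P (evP ev₀ l)) *
        (c₀ + (l.map fun q : Nat.Primes => Module.length 𝒪
          (𝒪 ⧸ (Ideal.span {cTw (q : ℕ) (ev₀ q)} : Ideal 𝒪))).sum) ≤
      congL 𝒪 (lvlP R0 l) P (evP ev₀ l) := by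
  obtain ⟨h1, h2⟩ := congL_chain hp2 hp R0 P ev₀ hℓ hPℓ hu l hok hℓl
  rw [h1, h2, mul_add]
  exact add_le_add hbase le_rfl

end Chain

/-! ### The top bound in terms of the congruence ideal, and (HS-Σ) -/

section Sigma

variable {𝒪 : Type} [CommRing 𝒪] [IsDomain 𝒪] [IsDiscreteValuationRing 𝒪]
  [IsAdicComplete (maximalIdeal 𝒪) 𝒪]
variable {p : ℕ} [Fact p.Prime]

omit [IsAdicComplete (maximalIdeal 𝒪) 𝒪] in
/-- a prime different from the residue characteristic is a unit -/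
theorem isUnit_natCast_of_prime_ne (hp : (p : 𝒪) ∈ maximalIdeal 𝒪) {q : ℕ} (hq : q.Prime)
    (hqp : q ≠ p) : IsUnit (q : 𝒪) := by
  by_contra hcon
  have hqm : (q : 𝒪) ∈ maximalIdeal 𝒪 := (mem_maximalIdeal _).mpr hcon
  have hcop : Nat.Coprime q p := (Nat.coprime_primes hq (Fact.out : p.Prime)).mpr hqp
  obtain ⟨a, b, hab⟩ := Nat.isCoprime_iff_coprime.mpr hcop
  have h1 : ((a : ℤ) : 𝒪) * (q : 𝒪) + ((b : ℤ) : 𝒪) * (p : 𝒪) = 1 := by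
    have := congrArg (fun z : ℤ => (z : 𝒪)) hab
    simpa using this
  have h2 : (1 : 𝒪) ∈ maximalIdeal 𝒪 := by
    rw [← h1]
    exact Ideal.add_mem _ (Ideal.mul_mem_left _ _ hqm) (Ideal.mul_mem_left _ _ hp)
  exact (Ideal.ne_top_iff_one _).mp (maximalIdeal.isMaximal 𝒪).ne_top h2

variable {M : ℕ} [NeZero M] {S : Set ℕ} [hint : Fact (HasIntegralStructure M 2)]
  (θ : heckeAlgebra M 2 S →+* ResidueField 𝒪)

/-- **The top bound in terms of the congruence ideal** `η = π (Ann ker π)` of `heckeLocal`. -/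
theorem congL_le_congIdeal (hp2 : p ≠ 2) (hp : (p : 𝒪) ∈ maximalIdeal 𝒪)
    (hS : ∀ q : ℕ, q.Prime → q ∣ M → q ∈ S)
    (π : heckeLocal M S 𝒪 θ →ₐ[𝒪] 𝒪) (P : ℕ → Prop)
    (hPS : ∀ ℓ : ℕ, ℓ.Prime → ¬ ℓ ∣ M → (P ℓ ↔ ℓ ∈ S))
    (ev : ℕ → 𝒪)
    (hev : ∀ (ℓ : ℕ) (hℓ : ℓ.Prime) (hℓM : ¬ ℓ ∣ M) (hℓS : ℓ ∉ S),
      π (heckeLocal.π M S 𝒪 θ (heckeAlgebra.T hℓ hℓM hℓS)) = ev ℓ)
    (hsq : ∀ q : ℕ, q.Prime → q * q ∣ M → ¬ P q →
      ev q = 0 ∧ IsUnit (q : 𝒪) ∧ ¬ q * q * q ∣ M)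
    (hone : ∀ (r M' : ℕ) [NeZero M'], r.Prime → M = M' * r → ¬ r ∣ M' → ¬ P r →
      ev r * ev r = 1 ∧ ¬ ∃ χ : heckeAlgebra M' 2 S →+* ResidueField 𝒪,
        ∀ (ℓ : ℕ) (hℓ : ℓ.Prime) (hℓM : ¬ ℓ ∣ M) (hℓM' : ¬ ℓ ∣ M') (hℓS : ℓ ∉ S),
          χ (heckeAlgebra.T hℓ hℓM' hℓS) = θ (heckeAlgebra.T hℓ hℓM hℓS)) :
    congL 𝒪 M P ev ≤ Module.finrank 𝒪 (eigO 𝒪 M P ev) *
      Module.length 𝒪 (𝒪 ⧸ congIdeal π) := by
  classical
  letI : Fintype (SL(2, ℤ) ⧸ Gamma0 M) := Fintype.ofFinite _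
  rw [congL_eq]
  obtain ⟨c, hc⟩ : ∃ c : 𝒪, congIdeal π = Ideal.span {c} :=
    (IsPrincipalIdealRing.principal (congIdeal π)).principal
  have hcm : c ∈ congIdeal π := by
    rw [hc]
    exact Ideal.mem_span_singleton_self c
  obtain ⟨s₀, hs₀, rfl⟩ := mem_congIdeal.mp hcm
  rw [hc]
  exact length_cong_eigO_le θ hp2 hp hS π P hPS ev hev hsq hone s₀ (fun t ht => hs₀ t ht)

end Sigma

section SigmaMain

variable {𝒪 : Type} [CommRing 𝒪] [IsDomain 𝒪] [IsDiscreteValuationRing 𝒪]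
  [IsAdicComplete (maximalIdeal 𝒪) 𝒪]
variable {p : ℕ} [Fact p.Prime]

/-- **(HS-Σ): the Hecke side of the numerical criterion at the level `R0 ∏_{q ∈ l} q²`.**
`c₀` is any bound for the base level (`rank · c₀ ≤` the length of the congruence module of the base
eigenlattice; from MIN: `c₀ = length 𝒪/η_∅`); the constants are
`c_q = (q - 1)((q + 1)² - ev₀(q)²)`. -/
theorem hs_sigma (hp2 : p ≠ 2) (hp : (p : 𝒪) ∈ maximalIdeal 𝒪) {R0 : ℕ} [NeZero R0]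
    (l : List Nat.Primes) {M : ℕ} [NeZero M] (hM : M = lvlP R0 l) {S : Set ℕ}
    [hint : Fact (HasIntegralStructure M 2)] (θ : heckeAlgebra M 2 S →+* ResidueField 𝒪)
    (hS : ∀ q : ℕ, q.Prime → q ∣ M → q ∈ S)
    (π : heckeLocal M S 𝒪 θ →ₐ[𝒪] 𝒪) (P : ℕ → Prop)
    (hPS : ∀ ℓ : ℕ, ℓ.Prime → ¬ ℓ ∣ M → (P ℓ ↔ ℓ ∈ S))
    (ev₀ : ℕ → 𝒪)
    (hev : ∀ (ℓ : ℕ) (hℓ : ℓ.Prime) (hℓM : ¬ ℓ ∣ M) (hℓS : ℓ ∉ S),
      π (heckeLocal.π M S 𝒪 θ (heckeAlgebra.T hℓ hℓM hℓS)) = ev₀ ℓ)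
    (hmem : ∀ q : ℕ, q.Prime → q * q ∣ M → ¬ P q → ∃ q' ∈ l, ((q' : Nat.Primes) : ℕ) = q)
    (hcube : ∀ q : ℕ, q.Prime → ¬ q * q * q ∣ M)
    (hone : ∀ (r M' : ℕ) [NeZero M'], r.Prime → M = M' * r → ¬ r ∣ M' → ¬ P r →
      ev₀ r * ev₀ r = 1 ∧ ¬ ∃ χ : heckeAlgebra M' 2 S →+* ResidueField 𝒪,
        ∀ (ℓ : ℕ) (hℓ : ℓ.Prime) (hℓM : ¬ ℓ ∣ M) (hℓM' : ¬ ℓ ∣ M') (hℓS : ℓ ∉ S),
          χ (heckeAlgebra.T hℓ hℓM' hℓS) = θ (heckeAlgebra.T hℓ hℓM hℓS))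
    (hok : ChainOK p R0 P ev₀ l)
    {ℓ₁ : ℕ} (hℓ₁ : ℓ₁.Prime) (hℓ₁M : ¬ ℓ₁ ∣ M) (hPℓ₁ : ¬ P ℓ₁)
    (hu : IsUnit (ev₀ ℓ₁ - ((ℓ₁ : 𝒪) + 1)))
    (hne : eigO 𝒪 R0 P ev₀ ≠ ⊥)
    (c₀ : ℕ∞) (hbase : Module.finrank 𝒪 (eigO 𝒪 R0 P ev₀) * c₀ ≤ congL 𝒪 R0 P ev₀) :
    c₀ + (l.map fun q : Nat.Primes => Module.length 𝒪
        (𝒪 ⧸ (Ideal.span {cTw (q : ℕ) (ev₀ q)} : Ideal 𝒪))).sum ≤
      Module.length 𝒪 (𝒪 ⧸ congIdeal π) := by
  subst hM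
  obtain ⟨hA1, hA2⟩ := congL_chain hp2 hp R0 P ev₀ hℓ₁ hPℓ₁ hu l hok hℓ₁M
  have hB := congL_le_congIdeal θ hp2 hp hS π P hPS (evP ev₀ l)
    (fun ℓ hℓ hℓM hℓS => by rw [hev ℓ hℓ hℓM hℓS, evP_of_not_dvd ev₀ R0 hℓM])
    (fun q hq hqq hPq => by
      obtain ⟨q', hq'l, rfl⟩ := hmem q hq hqq hPq
      exact ⟨evP_of_mem ev₀ hq'l,
        isUnit_natCast_of_prime_ne hp hq (ChainOK.ne_p hok q' hq'l), hcube _ hq⟩)
    (fun r M' _ hr hM' hrM' hPr => by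
      obtain ⟨h1, h2⟩ := hone r M' hr hM' hrM' hPr
      have hr' : evP ev₀ l r = ev₀ r := by
        apply evP_of_forall_ne
        rintro q' hq' rfl
        have h3 := dvd_lvlP_of_mem R0 hq'
        rw [hM'] at h3
        exact hrM' ((Nat.mul_dvd_mul_iff_right q'.2.pos).mp h3)
      rw [hr']
      exact ⟨h1, h2⟩)
  rw [hA1, hA2] at hB
  have hd0 : ((Module.finrank 𝒪 (eigO 𝒪 R0 P ev₀) : ℕ) : ℕ∞) ≠ 0 := by
    have h3 : Module.finrank 𝒪 (eigO 𝒪 R0 P ev₀) ≠ 0 := fun h =>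
      hne (Submodule.finrank_eq_zero.mp h)
    exact_mod_cast h3
  have hdt : ((Module.finrank 𝒪 (eigO 𝒪 R0 P ev₀) : ℕ) : ℕ∞) ≠ ⊤ := ENat.natCast_ne_top _
  rw [← ENat.mul_le_mul_left_iff hd0 hdt, mul_add]
  exact (add_le_add hbase le_rfl).trans hB

end SigmaMain

end Fermat.Agent.S59lib.HS
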