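/-
S59lib / HS / Congr (helper2): bookkeeping lemmas for the eigenlattices `N3.eigO 𝒪 M P a`:
* `eigO_congr` : dependence on the dropped predicate and on the kept values only;
* `finrank_eigO_level`, `eigO_ne_bot_level` : transport along an equality of levels `M = M'`.
-/
import Mathlib
import Fermat.Agent.S59lib.N3.Step

set_option autoImplicit false
set_option linter.unusedSectionVars false
set_option linter.unusedVariables false
set_option linter.style.haveILetI false

noncomputable section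

namespace Fermat.Agent.S59lib.HS

open Module
open Fermat.Agent.S59lib.N3

section Congr

variable {𝒪 : Type*} [CommRing 𝒪]

/-- the eigenlattice only depends on the kept values and on the dropped set up to equivalence -/
theorem eigO_congr {M : ℕ} [NeZero M] {P P' : ℕ → Prop} {a a' : ℕ → 𝒪}
    (hP : ∀ ℓ, P ℓ ↔ P' ℓ) (ha : ∀ ℓ, ¬ P ℓ → a ℓ = a' ℓ) :
    eigO 𝒪 M P a = eigO 𝒪 M P' a' := by
  ext x
  constructor
  · rintro ⟨h1, h2⟩
    refine ⟨fun ℓ hℓ hℓM hPℓ => ?_, fun r hr hrM hPr => ?_⟩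
    · have hPℓ' : ¬ P ℓ := fun h => hPℓ ((hP ℓ).mp h)
      rw [← ha ℓ hPℓ']
      exact h1 ℓ hℓ hℓM hPℓ'
    · have hPr' : ¬ P r := fun h => hPr ((hP r).mp h)
      rw [← ha r hPr']
      exact h2 r hr hrM hPr'
  · rintro ⟨h1, h2⟩
    refine ⟨fun ℓ hℓ hℓM hPℓ => ?_, fun r hr hrM hPr => ?_⟩
    · have hPℓ' : ¬ P' ℓ := fun h => hPℓ ((hP ℓ).mpr h)
      rw [ha ℓ hPℓ]
      exact h1 ℓ hℓ hℓM hPℓ'
    · have hPr' : ¬ P' r := fun h => hPr ((hP r).mpr h)
      rw [ha r hPr]
      exact h2 r hr hrM hPr'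

/-- the rank of the eigenlattice along an equality of levels -/
theorem finrank_eigO_level {M M' : ℕ} [NeZero M] [NeZero M'] (h : M = M') (P : ℕ → Prop)
    (a : ℕ → 𝒪) :
    finrank 𝒪 (eigO 𝒪 M P a) = finrank 𝒪 (eigO 𝒪 M' P a) := by
  subst h
  rfl

/-- non-vanishing of the eigenlattice along an equality of levels -/
theorem eigO_ne_bot_level {M M' : ℕ} [NeZero M] [NeZero M'] (h : M = M') (P : ℕ → Prop)
    (a : ℕ → 𝒪) :
    eigO 𝒪 M P a ≠ ⊥ ↔ eigO 𝒪 M' P a ≠ ⊥ := by
  subst h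
  rfl

end Congr

end Fermat.Agent.S59lib.HS
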