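/-
S59lib / HS / Ord (helper2): **the top bound without surjectivity**, and the top bound at a level
`M` with one prime `u ∥ M` at which the system is OLD and ordinary (`u = p`: (HS-p)).

`T = heckeLocal M S 𝒪 θ` is anemic at `u` (`u ∈ S`), the full algebra `A = HecA 𝒪 M P` contains
`U_u`, and `T → A_𝔫` need not be onto.  `length_cong_eigO_le_of_anemic` : if every eigenvector of the
`T_ℓ` (`ℓ ∉ S`) in the `𝔫`-part `e·(𝒪 ⊗ L_M)` lies in the eigenlattice `Λ = eigO 𝒪 M P ev`, then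
`length (𝒪 ⊗ L_M ⧸ (Λ + Λ^⊥)) ≤ rank Λ · length (𝒪 ⧸ π s₀)` for `s₀ ∈ Ann_T (ker π)`.
`length_cong_eigO_le_ord` : this holds when `(U_u - α)(U_u - β) = 0` on the eigenlattice anemic at
`u` (`α = ev u`, `α - β` a unit).
-/
import Mathlib
import Fermat.Agent.S59lib.HS.Top

set_option autoImplicit false
set_option linter.unusedSectionVars false
set_option linter.unusedVariables false

noncomputable section

namespace Fermat.Agent.S59lib.HS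

open Module IsLocalRing TensorProduct CongruenceSubgroup CuspForm
open Fermat.Agent.S41lib.HC Fermat.Agent.S41lib.BR Fermat.Agent.S16lib.LG
open Fermat.Agent.S43lib.B2 Fermat.Agent.S43lib.B2.Bridge Fermat.Agent.S59lib.N3
open scoped MatrixGroups IsMulCommutative

set_option synthInstance.maxHeartbeats 400000
set_option maxHeartbeats 1000000

section Core

variable {𝒪 : Type} [CommRing 𝒪] [IsDomain 𝒪] [IsDiscreteValuationRing 𝒪]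
  [IsAdicComplete (maximalIdeal 𝒪) 𝒪]
variable {M : ℕ} [NeZero M] {S : Set ℕ} [hint : Fact (HasIntegralStructure M 2)]
  (θ : heckeAlgebra M 2 S →+* ResidueField 𝒪) {P : ℕ → Prop}
variable (hS : ∀ q : ℕ, q.Prime → q ∣ M → q ∈ S)
  (hPS : ∀ ℓ : ℕ, ℓ.Prime → ¬ ℓ ∣ M → ℓ ∉ S → ¬ P ℓ)
variable {p : ℕ} [Fact p.Prime]

include hS in
/-- **The top bound without surjectivity.** -/
theorem length_cong_eigO_le_of_anemic (hp2 : p ≠ 2) (hp : (p : 𝒪) ∈ maximalIdeal 𝒪)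
    [Fintype (SL(2, ℤ) ⧸ Gamma0 M)] (π : heckeLocal M S 𝒪 θ →ₐ[𝒪] 𝒪) (ev : ℕ → 𝒪)
    (hev : ∀ (ℓ : ℕ) (hℓ : ℓ.Prime) (hℓM : ¬ ℓ ∣ M) (hℓS : ℓ ∉ S),
      π (heckeLocal.π M S 𝒪 θ (heckeAlgebra.T hℓ hℓM hℓS)) = ev ℓ)
    {y₀ : MO 𝒪 M} (hy₀ : y₀ ∈ eigO 𝒪 M P ev) (h0 : y₀ ≠ 0)
    (πA : HecA 𝒪 M P →ₐ[𝒪] 𝒪)
    (hπA : ∀ (a : HecA 𝒪 M P), ∀ y ∈ eigO 𝒪 M P ev, a • y = πA a • y)
    {e : HecA 𝒪 M P}
    (he1 : algebraMap (HecA 𝒪 M P) (Localization.AtPrime (augIdeal πA)) e = 1)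
    (he : ∀ k : HecA 𝒪 M P,
      algebraMap (HecA 𝒪 M P) (Localization.AtPrime (augIdeal πA)) k = 0 → e * k = 0)
    (hΛ : ∀ y : MO 𝒪 M, e • y = y →
      (∀ ℓ : GoodPrime M S, tG (𝒪 := 𝒪) hPS ℓ • y = ev ℓ.1 • y) → y ∈ eigO 𝒪 M P ev)
    (s₀ : heckeLocal M S 𝒪 θ) (hs₀ : ∀ t, π t = 0 → s₀ * t = 0) :
    Module.length 𝒪 (MO 𝒪 M ⧸ (eigO 𝒪 M P ev ⊔ rorth (formOw 𝒪 M) (eigO 𝒪 M P ev))) ≤
      Module.finrank 𝒪 (eigO 𝒪 M P ev) *
        Module.length 𝒪 (𝒪 ⧸ (Ideal.span {π s₀} : Ideal 𝒪)) := by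
  classical
  obtain ⟨πloc, hloc⟩ := exists_locAug πA
  have hval : ∀ ℓ : GoodPrime M S, πA (tG (𝒪 := 𝒪) hPS ℓ) =
      π (heckeLocal.π M S 𝒪 θ (heckeAlgebra.T ℓ.2.1 ℓ.2.2.1 ℓ.2.2.2)) := by
    intro ℓ
    rw [hev, tG, eigChar_tA ev hy₀ h0 πA hπA]
  obtain ⟨β, hβ⟩ := exists_beta θ hS hPS π πA hval
  have hπ := locAug_beta θ hS hPS π πA hval β hβ πloc hloc
  obtain ⟨a', ha'⟩ := algebraMap_atPrime_surjective (𝒪 := 𝒪) (HecA 𝒪 M P) (augIdeal πA) (β s₀)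
  have hee := idem_mul_self he1 he
  have hπa : πA (e * a') = π s₀ := by
    rw [← hloc, map_mul, he1, one_mul, ha', hπ]
  apply length_cong_le (rightPerfect_formOw hp2 hp M) (isSat_eigO M P ev) (π s₀)
  intro m
  have hsplit : π s₀ • m = (e * a') • m + (algebraMap 𝒪 (HecA 𝒪 M P) (π s₀) - e * a') • m := by
    rw [sub_smul, algebraMap_smul]
    abel
  rw [hsplit]
  apply Submodule.add_mem_sup
  · apply hΛ
    · rw [← mul_smul, ← mul_assoc, hee]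
    · intro ℓ
      have h1 : algebraMap (HecA 𝒪 M P) (Localization.AtPrime (augIdeal πA))
          ((tG (𝒪 := 𝒪) hPS ℓ - algebraMap 𝒪 (HecA 𝒪 M P) (ev ℓ.1)) * a') = 0 := by
        rw [map_mul, map_sub, ← hβ ℓ, ha', ← IsScalarTower.algebraMap_apply 𝒪 (HecA 𝒪 M P),
          ← AlgHom.commutes β, ← map_sub, ← map_mul]
        have h2 : π (heckeLocal.π M S 𝒪 θ (heckeAlgebra.T ℓ.2.1 ℓ.2.2.1 ℓ.2.2.2) -
            algebraMap 𝒪 (heckeLocal M S 𝒪 θ) (ev ℓ.1)) = 0 := by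
          rw [map_sub, AlgHom.commutes, hev, Algebra.algebraMap_self_apply, sub_self]
        rw [mul_comm, hs₀ _ h2, map_zero]
      have h3 := he _ h1
      have h4 : (tG (𝒪 := 𝒪) hPS ℓ - algebraMap 𝒪 (HecA 𝒪 M P) (ev ℓ.1)) • ((e * a') • m) = 0 := by
        rw [← mul_smul]
        have : (tG (𝒪 := 𝒪) hPS ℓ - algebraMap 𝒪 (HecA 𝒪 M P) (ev ℓ.1)) * (e * a') =
            e * ((tG (𝒪 := 𝒪) hPS ℓ - algebraMap 𝒪 (HecA 𝒪 M P) (ev ℓ.1)) * a') := by ring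
        rw [this, h3, zero_smul]
      rw [sub_smul, algebraMap_smul, sub_eq_zero] at h4
      exact h4
  · intro x hx
    have h2 : πA (algebraMap 𝒪 (HecA 𝒪 M P) (π s₀) - e * a') = 0 := by
      have h := map_sub πA (algebraMap 𝒪 (HecA 𝒪 M P) (π s₀)) (e * a')
      rw [AlgHom.commutes, hπa, Algebra.algebraMap_self_apply, sub_self] at h
      exact h
    generalize algebraMap 𝒪 (HecA 𝒪 M P) (π s₀) - e * a' = k at h2 ⊢
    have h1 : formOw 𝒪 M x (k • m) = formOw 𝒪 M (k • x) m := by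
      rw [HecA.smul_def, HecA.smul_def]
      exact (formOw_hecA (P := P) (HecA.val_mem k) x m).symm
    rw [h1, hπA k x hx, h2, zero_smul, LinearMap.map_zero₂]

end Core

/-! ### One old ordinary prime -/

section OrdThm

variable {𝒪 : Type} [CommRing 𝒪] [IsDomain 𝒪] [IsDiscreteValuationRing 𝒪]
  [IsAdicComplete (maximalIdeal 𝒪) 𝒪]
variable {M : ℕ} [NeZero M] {S : Set ℕ} [hint : Fact (HasIntegralStructure M 2)]
  (θ : heckeAlgebra M 2 S →+* ResidueField 𝒪)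
variable {p : ℕ} [Fact p.Prime]

/-- **The top bound with one old ordinary prime `u ∣ M`** (`u ∈ S`: `T` is anemic at `u`, the
eigenlattice is the one with `U_u = ev u`).  Hypothesis at `u`: `(U_u - ev u)(U_u - β) = 0` on the
eigenlattice anemic at `u`, with `ev u - β` a unit.  At the other kept primes of the level the
hypotheses are those of `length_cong_eigO_le`. -/
theorem length_cong_eigO_le_ord (hp2 : p ≠ 2) (hp : (p : 𝒪) ∈ maximalIdeal 𝒪)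
    [Fintype (SL(2, ℤ) ⧸ Gamma0 M)]
    (hS : ∀ q : ℕ, q.Prime → q ∣ M → q ∈ S)
    (π : heckeLocal M S 𝒪 θ →ₐ[𝒪] 𝒪) (P : ℕ → Prop)
    (hPS : ∀ ℓ : ℕ, ℓ.Prime → ¬ ℓ ∣ M → (P ℓ ↔ ℓ ∈ S))
    (ev : ℕ → 𝒪)
    (hev : ∀ (ℓ : ℕ) (hℓ : ℓ.Prime) (hℓM : ¬ ℓ ∣ M) (hℓS : ℓ ∉ S),
      π (heckeLocal.π M S 𝒪 θ (heckeAlgebra.T hℓ hℓM hℓS)) = ev ℓ)
    {u : ℕ} (hu : u.Prime) (huM : u ∣ M) (hPu : ¬ P u) (βu : 𝒪) (hαβ : IsUnit (ev u - βu))
    (hquad : ∀ y ∈ eigO 𝒪 M (fun ℓ => P ℓ ∨ ℓ = u) ev,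
      @uO 𝒪 _ M u _ ⟨hu⟩ huM (@uO 𝒪 _ M u _ ⟨hu⟩ huM y) -
        (ev u + βu) • @uO 𝒪 _ M u _ ⟨hu⟩ huM y + (ev u * βu) • y = 0)
    (hsq : ∀ q : ℕ, q.Prime → q ≠ u → q * q ∣ M → ¬ P q →
      ev q = 0 ∧ IsUnit (q : 𝒪) ∧ ¬ q * q * q ∣ M)
    (hone : ∀ (r M' : ℕ) [NeZero M'], r.Prime → r ≠ u → M = M' * r → ¬ r ∣ M' → ¬ P r →
      ev r * ev r = 1 ∧ ¬ ∃ χ : heckeAlgebra M' 2 S →+* ResidueField 𝒪,
        ∀ (ℓ : ℕ) (hℓ : ℓ.Prime) (hℓM : ¬ ℓ ∣ M) (hℓM' : ¬ ℓ ∣ M') (hℓS : ℓ ∉ S),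
          χ (heckeAlgebra.T hℓ hℓM' hℓS) = θ (heckeAlgebra.T hℓ hℓM hℓS))
    (s₀ : heckeLocal M S 𝒪 θ) (hs₀ : ∀ t, π t = 0 → s₀ * t = 0) :
    Module.length 𝒪 (MO 𝒪 M ⧸ (eigO 𝒪 M P ev ⊔ rorth (formOw 𝒪 M) (eigO 𝒪 M P ev))) ≤
      Module.finrank 𝒪 (eigO 𝒪 M P ev) *
        Module.length 𝒪 (𝒪 ⧸ (Ideal.span {π s₀} : Ideal 𝒪)) := by
  classical
  by_cases hbot : eigO 𝒪 M P ev = ⊥
  · have h1 : eigO 𝒪 M P ev ⊔ rorth (formOw 𝒪 M) (eigO 𝒪 M P ev) = ⊤ := by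
      rw [hbot, bot_sup_eq, eq_top_iff]
      intro m _
      rw [mem_rorth]
      intro x hx
      rw [(Submodule.mem_bot 𝒪).mp hx, map_zero, LinearMap.zero_apply]
    have h2 : Subsingleton
        (MO 𝒪 M ⧸ (eigO 𝒪 M P ev ⊔ rorth (formOw 𝒪 M) (eigO 𝒪 M P ev))) :=
      Submodule.Quotient.subsingleton_iff.mpr h1
    rw [Module.length_eq_zero]
    exact zero_le
  · obtain ⟨y₀, hy₀, h0⟩ := (Submodule.ne_bot_iff _).mp hbot
    obtain ⟨πA, hπA⟩ := exists_eigChar ev hy₀ h0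
    have hPS₁ : ∀ ℓ : ℕ, ℓ.Prime → ¬ ℓ ∣ M → ℓ ∉ S → ¬ P ℓ :=
      fun ℓ hℓ hℓM hℓS hP => hℓS ((hPS ℓ hℓ hℓM).mp hP)
    have hPS₂ : ∀ ℓ : ℕ, ℓ.Prime → ¬ ℓ ∣ M → ¬ P ℓ → ℓ ∉ S :=
      fun ℓ hℓ hℓM hP hℓS => hP ((hPS ℓ hℓ hℓM).mpr hℓS)
    obtain ⟨e, he1, he⟩ := exists_idem_atPrime (𝒪 := 𝒪) (HecA 𝒪 M P) (augIdeal πA)
    have h2 : IsUnit (2 : 𝒪) := isUnit_two_of_mem hp2 hp
    have hU : ∀ {r : ℕ} (hr : r.Prime) (hrM : r ∣ M) (hPr : ¬ P r), r ≠ u →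
        e * (uA hr hrM hPr - algebraMap 𝒪 (HecA 𝒪 M P) (ev r)) = 0 := by
      intro r hr hrM hPr hru
      have hur : πA (uA hr hrM hPr) = ev r := eigChar_uA ev hy₀ h0 πA hπA hr hrM hPr
      by_cases hrr : r * r ∣ M
      · obtain ⟨hev0, hunit, hcube⟩ := hsq r hr hru hrr hPr
        obtain ⟨N, hN⟩ := hrr
        have hM : M = N * r * r := by
          rw [hN]
          ring
        have hN0 : NeZero N := ⟨by
          rintro rfl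
          exact (NeZero.ne M) (by rw [hM]; simp)⟩
        have hrN : ¬ r ∣ N := by
          rintro ⟨k, rfl⟩
          exact hcube ⟨k, by rw [hM]; ring⟩
        rw [hev0, map_zero, sub_zero]
        exact idem_mul_uA_sq_of_eq hr hM hrN hrM hPr hunit πA
          (by rw [hur, hev0]; exact zero_mem _) he
      · have hrM2 := hrM
        obtain ⟨M', hM'⟩ := hrM2
        have hM : M = M' * r := by
          rw [hM']
          ring
        have hM0 : NeZero M' := ⟨by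
          rintro rfl
          exact (NeZero.ne M) (by rw [hM]; simp)⟩
        have hrM'' : ¬ r ∣ M' := by
          rintro ⟨k, rfl⟩
          exact hrr ⟨k, by rw [hM]; ring⟩
        obtain ⟨hsq1, hnew⟩ := hone r M' hr hru hM hrM'' hPr
        rw [← hur]
        refine idem_mul_uA_one_of_eq hr hM hrM'' hrM (hS r hr hrM) hPS₁
          (fun q hq hqM' => hS q hq (hM ▸ Dvd.dvd.mul_right hqM' r)) hPr h2 πA ?_
          (by rw [hur]; exact hsq1) he1 he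
        rintro ⟨χ, hχ⟩
        refine hnew ⟨χ, fun ℓ hℓ hℓM hℓM' hℓS => ?_⟩
        rw [hχ ℓ hℓ hℓM hℓM' hℓS, eigChar_tA ev hy₀ h0 πA hπA, ← hev ℓ hℓ hℓM hℓS, residue_point]
    have hΛ : ∀ y : MO 𝒪 M, e • y = y →
        (∀ ℓ : GoodPrime M S, tG (𝒪 := 𝒪) hPS₁ ℓ • y = ev ℓ.1 • y) → y ∈ eigO 𝒪 M P ev := by
      intro y hey hT
      have hUy : ∀ {r : ℕ} (hr : r.Prime) (hrM : r ∣ M) (hPr : ¬ P r), r ≠ u →
          @uO 𝒪 _ M r _ ⟨hr⟩ hrM y = ev r • y := by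
        intro r hr hrM hPr hru
        have h1 := hU hr hrM hPr hru
        have h3 : (uA hr hrM hPr - algebraMap 𝒪 (HecA 𝒪 M P) (ev r)) • y = 0 := by
          rw [← hey, ← mul_smul, mul_comm, h1, zero_smul]
        rw [sub_smul, algebraMap_smul, uA_smul, sub_eq_zero] at h3
        exact h3
      have hTy : ∀ (ℓ : ℕ) (hℓ : ℓ.Prime) (hℓM : ¬ ℓ ∣ M), ¬ P ℓ →
          tO 𝒪 hℓ hℓM y = ev ℓ • y :=
        fun ℓ hℓ hℓM hPℓ => hT ⟨ℓ, hℓ, hℓM, hPS₂ ℓ hℓ hℓM hPℓ⟩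
      have hy' : y ∈ eigO 𝒪 M (fun ℓ => P ℓ ∨ ℓ = u) ev :=
        ⟨fun ℓ hℓ hℓM hP => hTy ℓ hℓ hℓM (fun h => hP (Or.inl h)),
          fun r hr hrM hP => hUy hr hrM (fun h => hP (Or.inl h)) (fun h => hP (Or.inr h))⟩
      have hq := hquad y hy'
      have hw : (uA hu huM hPu - algebraMap 𝒪 (HecA 𝒪 M P) βu) •
          ((uA hu huM hPu - algebraMap 𝒪 (HecA 𝒪 M P) (ev u)) • y) = 0 := by
        rw [sub_smul, sub_smul, smul_sub, smul_sub, algebraMap_smul, algebraMap_smul,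
          algebraMap_smul, uA_smul, uA_smul, uA_smul, map_smul]
        rw [← hq]
        simp only [add_smul, mul_smul]
        rw [smul_comm βu (ev u) y]
        abel
      obtain ⟨b, hb⟩ := exists_mul_eq_idem (𝒪 := 𝒪) he
        (s := uA hu huM hPu - algebraMap 𝒪 (HecA 𝒪 M P) βu) (by
          intro hmem
          have h3 := mem_augIdeal.mp hmem
          have h4 := map_sub πA (uA hu huM hPu) (algebraMap 𝒪 (HecA 𝒪 M P) βu)
          rw [AlgHom.commutes, eigChar_uA ev hy₀ h0 πA hπA hu huM hPu,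
            Algebra.algebraMap_self_apply] at h4
          rw [h4] at h3
          exact (mem_maximalIdeal _).mp h3 hαβ)
      have hw0 : (uA hu huM hPu - algebraMap 𝒪 (HecA 𝒪 M P) (ev u)) • y = 0 := by
        have h1 : e • ((uA hu huM hPu - algebraMap 𝒪 (HecA 𝒪 M P) (ev u)) • y) =
            (uA hu huM hPu - algebraMap 𝒪 (HecA 𝒪 M P) (ev u)) • y := by
          rw [← mul_smul, mul_comm, mul_smul, hey]
        rw [← h1, ← hb, mul_smul, hw, smul_zero]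
      refine ⟨fun ℓ hℓ hℓM hP => hTy ℓ hℓ hℓM hP, fun r hr hrM hP => ?_⟩
      by_cases hru : r = u
      · subst hru
        rw [sub_smul, algebraMap_smul, uA_smul, sub_eq_zero] at hw0
        exact hw0
      · exact hUy hr hrM hP hru
    exact length_cong_eigO_le_of_anemic θ hS hPS₁ hp2 hp π ev hev hy₀ h0 πA hπA he1 he hΛ s₀ hs₀

end OrdThm

end Fermat.Agent.S59lib.HS
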