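/-
S59lib / HS / Quad (helper2): **the quadratic relation for `U_u` on the eigenlattice anemic at `u`**
from a rank bound.

`u ∤ N`, `Q` the dropped primes (`u ∈ Q`), `Λ = eigO 𝒪 N Q ev` on which `T_u = t`,
`X² - t X + u = (X - α)(X - β)`, `α ≠ β`.  If `rank (eigO 𝒪 (N u) Q ev) ≤ 2 · rank Λ` then
`eigO 𝒪 (N u) Q ev` contains `j_α Λ ⊕ j_β Λ` with finite index, hence
`U_u² - (α + β) U_u + α β = 0` on it  (input `hquad` of `HS.length_cong_eigO_le_ord`).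
-/
import Mathlib
import Fermat.Agent.S59lib.PS3.Step

set_option autoImplicit false
set_option linter.unusedSectionVars false
set_option linter.unusedVariables false

noncomputable section

namespace Fermat.Agent.S59lib.HS

open Module IsLocalRing TensorProduct CongruenceSubgroup
open Fermat.Agent.S41lib.BR Fermat.Agent.S16lib.LG Fermat.Agent.S59lib.N3
open Fermat.Agent.S59lib.PS3
open scoped MatrixGroups

section Quad

variable {𝒪 : Type*} [CommRing 𝒪] [IsDomain 𝒪] [IsDiscreteValuationRing 𝒪]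
variable {p : ℕ} [Fact p.Prime]
variable {N u : ℕ} [NeZero N] [Fact u.Prime] (huN : ¬ u ∣ N)

include huN in
/-- `j_α` maps the eigenlattice of level `N` (anemic at `u`) into the one of level `N u` -/
theorem map_jα_le_eigO_anemic (Q : ℕ → Prop) (hQu : Q u) (ev : ℕ → 𝒪) (t α : 𝒪)
    (hα : α ^ 2 - t * α + (u : 𝒪) = 0)
    (hTu : ∀ x ∈ eigO 𝒪 N Q ev, tO 𝒪 (Fact.out : u.Prime) huN x = t • x) :
    (eigO 𝒪 N Q ev).map (jα N u α) ≤ eigO 𝒪 (N * u) Q ev := by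
  intro y hy
  have h1 := map_jα_le_eigO huN Q (fun ℓ => Q ℓ ∧ ℓ ≠ u)
    (fun ℓ hℓu hP hQ => hP ⟨hQ, hℓu⟩) ev t α hα le_rfl hTu hy
  refine ⟨fun ℓ hℓ hℓM hQℓ => ?_, fun r hr hrM hQr => ?_⟩
  · have hℓu : ℓ ≠ u := by
      rintro rfl
      exact hQℓ hQu
    have := h1.1 ℓ hℓ hℓM (fun h => hQℓ h.1)
    rwa [Function.update_of_ne hℓu] at this
  · have hru : r ≠ u := by
      rintro rfl
      exact hQr hQu
    have := h1.2 r hr hrM (fun h => hQr h.1)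
    rwa [Function.update_of_ne hru] at this

include huN in
/-- **The quadratic relation from the rank bound.** -/
theorem quad_of_finrank_le (hp2 : p ≠ 2) (hp : (p : 𝒪) ∈ maximalIdeal 𝒪)
    (Q : ℕ → Prop) (hQu : Q u) (ev : ℕ → 𝒪) (t α β : 𝒪)
    (hα : α ^ 2 - t * α + (u : 𝒪) = 0) (hβ : β ^ 2 - t * β + (u : 𝒪) = 0) (hαβ : α ≠ β)
    (hTu : ∀ x ∈ eigO 𝒪 N Q ev, tO 𝒪 (Fact.out : u.Prime) huN x = t • x)
    {ℓ : ℕ} (hℓ : ℓ.Prime) (hℓN : ¬ ℓ ∣ N) (hQℓ : ¬ Q ℓ)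
    (hu : IsUnit (ev ℓ - ((ℓ : 𝒪) + 1)))
    (hrk : Module.finrank 𝒪 (eigO 𝒪 (N * u) Q ev) ≤ 2 * Module.finrank 𝒪 (eigO 𝒪 N Q ev))
    (y : MO 𝒪 (N * u)) (hy : y ∈ eigO 𝒪 (N * u) Q ev) :
    uO 𝒪 (dvd_mul_left u N) (uO 𝒪 (dvd_mul_left u N) y) -
      (α + β) • uO 𝒪 (dvd_mul_left u N) y + (α * β) • y = 0 := by
  classical
  set Λ := eigO 𝒪 N Q ev with hΛ
  set E := eigO 𝒪 (N * u) Q ev with hE
  have hsat := isSat_eigO (𝒪 := 𝒪) N Q ev
  have hEis : ∀ x ∈ Λ, (-(eisO 𝒪 hℓ hℓN)) x = (-(ev ℓ - ((ℓ : 𝒪) + 1))) • x := by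
    intro x hx
    rw [LinearMap.neg_apply, eisO_apply, hx.1 ℓ hℓ hℓN hQℓ, neg_smul, sub_smul]
  have hinj : ∀ γ : 𝒪, ∀ x ∈ Λ, jα N u γ x = 0 → x = 0 := by
    intro γ
    obtain ⟨F, G, hFG⟩ := exists_factor_jα (𝒪 := 𝒪) huN hp2 hℓ hℓN γ
    exact inj_of_factor _ _ F G (p : 𝒪) hp hFG hsat _ hu.neg hEis
  -- the map `Λ × Λ → E`
  let φ : (Λ × Λ) →ₗ[𝒪] MO 𝒪 (N * u) :=
    ((jα N u α) ∘ₗ Λ.subtype).coprod ((jα N u β) ∘ₗ Λ.subtype)
  have hφ : ∀ z : Λ × Λ, φ z = jα N u α z.1 + jα N u β z.2 := fun z => rfl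
  have hUα : ∀ x ∈ Λ, uO 𝒪 (dvd_mul_left u N) (jα N u α x) = α • jα N u α x :=
    fun x hx => uO_jα huN t α hα x (hTu x hx)
  have hUβ : ∀ x ∈ Λ, uO 𝒪 (dvd_mul_left u N) (jα N u β x) = β • jα N u β x :=
    fun x hx => uO_jα huN t β hβ x (hTu x hx)
  have hφinj : Function.Injective φ := by
    rw [← LinearMap.ker_eq_bot, LinearMap.ker_eq_bot']
    rintro ⟨x₁, x₂⟩ hz
    rw [hφ] at hz
    have h1 := congrArg (uO 𝒪 (dvd_mul_left u N)) hz
    rw [map_add, hUα x₁ x₁.2, hUβ x₂ x₂.2, map_zero] at h1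
    have h2 : (α - β) • jα N u α (x₁ : MO 𝒪 N) = 0 := by
      have h3 : jα N u β (x₂ : MO 𝒪 N) = -jα N u α (x₁ : MO 𝒪 N) :=
        eq_neg_of_add_eq_zero_right hz
      rw [h3, smul_neg] at h1
      rw [sub_smul, sub_eq_add_neg]
      exact h1
    have h4 : jα N u α (x₁ : MO 𝒪 N) = 0 :=
      (smul_eq_zero.mp h2).resolve_left (sub_ne_zero.mpr hαβ)
    have h5 : jα N u β (x₂ : MO 𝒪 N) = 0 := by
      rw [h4, zero_add] at hz
      exact hz
    have h6 : (x₁ : MO 𝒪 N) = 0 := hinj α x₁ x₁.2 h4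
    have h7 : (x₂ : MO 𝒪 N) = 0 := hinj β x₂ x₂.2 h5
    exact Prod.ext (Subtype.ext h6) (Subtype.ext h7)
  have hφE : LinearMap.range φ ≤ E := by
    rintro _ ⟨⟨x₁, x₂⟩, rfl⟩
    rw [hφ]
    exact E.add_mem
      (map_jα_le_eigO_anemic huN Q hQu ev t α hα hTu (Submodule.mem_map_of_mem x₁.2))
      (map_jα_le_eigO_anemic huN Q hQu ev t β hβ hTu (Submodule.mem_map_of_mem x₂.2))
  -- the quadratic relation on the range of `φ`
  have hquadφ : ∀ z ∈ LinearMap.range φ,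
      uO 𝒪 (dvd_mul_left u N) (uO 𝒪 (dvd_mul_left u N) z) -
        (α + β) • uO 𝒪 (dvd_mul_left u N) z + (α * β) • z = 0 := by
    rintro _ ⟨⟨x₁, x₂⟩, rfl⟩
    rw [hφ]
    simp only [map_add, hUα x₁ x₁.2, hUβ x₂ x₂.2, map_smul, smul_add, smul_smul]
    have e1 : ∀ v : MO 𝒪 (N * u), (α * α) • v - ((α + β) * α) • v + (α * β) • v = 0 := by
      intro v
      rw [← sub_smul, ← add_smul]
      have : α * α - (α + β) * α + α * β = 0 := by ring
      rw [this, zero_smul]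
    have e2 : ∀ v : MO 𝒪 (N * u), (β * β) • v - ((α + β) * β) • v + (α * β) • v = 0 := by
      intro v
      rw [← sub_smul, ← add_smul]
      have : β * β - (α + β) * β + α * β = 0 := by ring
      rw [this, zero_smul]
    have := congrArg₂ (· + ·) (e1 (jα N u α (x₁ : MO 𝒪 N))) (e2 (jα N u β (x₂ : MO 𝒪 N)))
    simp only [add_zero] at this
    rw [← this]
    abel
  -- `E / range φ` is torsion
  let R : Submodule 𝒪 E := (LinearMap.range φ).comap E.subtype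
  have eR : R ≃ₗ[𝒪] LinearMap.range φ := Submodule.comapSubtypeEquivOfLe hφE
  have hfrR : Module.finrank 𝒪 R = 2 * Module.finrank 𝒪 Λ := by
    rw [eR.finrank_eq, LinearMap.finrank_range_of_inj hφinj, Module.finrank_prod]
    ring
  have h1 : Module.finrank 𝒪 (E ⧸ R) + Module.finrank 𝒪 R = Module.finrank 𝒪 E :=
    Submodule.finrank_quotient_add_finrank R
  have h2 : Module.finrank 𝒪 (E ⧸ R) = 0 := by
    rw [hfrR] at h1
    omega
  have h3 : Module.IsTorsion 𝒪 (E ⧸ R) := Module.finrank_eq_zero_iff_isTorsion.mp h2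
  obtain ⟨c, hc⟩ := @h3 (Submodule.Quotient.mk ⟨y, hy⟩)
  have hc0 : (c : 𝒪) ≠ 0 := nonZeroDivisors.coe_ne_zero c
  have hcy : (c : 𝒪) • y ∈ LinearMap.range φ := by
    have h4 : (c : 𝒪) • (⟨y, hy⟩ : E) ∈ R := by
      rw [← Submodule.Quotient.mk_eq_zero, Submodule.Quotient.mk_smul]
      exact hc
    exact h4
  have h5 := hquadφ _ hcy
  rw [map_smul, map_smul, smul_comm (α + β) (c : 𝒪), smul_comm (α * β) (c : 𝒪), ← smul_sub,
    ← smul_add] at h5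
  exact (smul_eq_zero.mp h5).resolve_left hc0

end Quad

end Fermat.Agent.S59lib.HS
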