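/-
S59lib / HS / PStep (helper2): **the Hecke side of the numerical criterion at the `p`-step** (HS-p).

Level `N → N p` (`p ∤ N`), `T' = heckeLocal (N p) S 𝒪 θ'` anemic at `p`; the eigenlattice at level
`N p` is the ordinary one (`U_p = α`, `α` the unit root of `X² - t X + p`).
* `congL_first` : the growth `Ω(N p) = Ω(N) + rank · length 𝒪/((α² - 1)(2α - t))`
  (`PS3.length_cong_eigO_first`, with the degenerate case);
* **`hs_pstep`** : `X + length 𝒪/(α² - 1) ≤ length 𝒪/η'` for every `X` with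
  `rank · X ≤ Ω(N)` (from the chain: `X = c₀ + ∑ length 𝒪/(c_q)`).
-/
import Mathlib
import Fermat.Agent.S59lib.HS.Chain
import Fermat.Agent.S59lib.HS.Ord
import Fermat.Agent.S59lib.HS.Quad
import Fermat.Agent.S59lib.HS.Congr

set_option autoImplicit false
set_option linter.unusedSectionVars false
set_option linter.unusedVariables false
set_option linter.style.haveILetI false

noncomputable section

namespace Fermat.Agent.S59lib.HS

open Module IsLocalRing TensorProduct CongruenceSubgroup CuspForm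
open Fermat.Agent.S41lib.BR Fermat.Agent.S16lib.LG Fermat.Agent.S59lib.N3
open Fermat.Agent.S59lib.PS3 Fermat.Agent.S59lib.NumCrit
open scoped MatrixGroups

/-! ### The growth at the first level, with the degenerate case -/

section First

variable {𝒪 : Type*} [CommRing 𝒪] [IsDomain 𝒪] [IsDiscreteValuationRing 𝒪]
variable {p : ℕ} [Fact p.Prime]
variable {N q : ℕ} [NeZero N] [Fact q.Prime] (hqN : ¬ q ∣ N)

include hqN in
/-- **The first level** `N → N q` (`U_q = α`) for the eigenlattices, including the degenerate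
case. -/
theorem congL_first (hp2 : p ≠ 2) (hp : (p : 𝒪) ∈ maximalIdeal 𝒪)
    (P P' : ℕ → Prop) (hPP' : ∀ ℓ, ℓ ≠ q → ¬ P' ℓ → ¬ P ℓ) (a : ℕ → 𝒪)
    (t α : 𝒪) (hα : α ^ 2 - t * α + (q : 𝒪) = 0)
    (hTq : ∀ x ∈ eigO 𝒪 N P a, tO 𝒪 (Fact.out : q.Prime) hqN x = t • x)
    {ℓ : ℕ} (hℓ : ℓ.Prime) (hℓN : ¬ ℓ ∣ N) (hPℓ : ¬ P ℓ)
    (hu : IsUnit (a ℓ - ((ℓ : 𝒪) + 1)))
    (hrk : Module.finrank 𝒪 (eigO 𝒪 (N * q) P' (Function.update a q α)) ≤
      Module.finrank 𝒪 (eigO 𝒪 N P a)) :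
    congL 𝒪 (N * q) P' (Function.update a q α) =
        congL 𝒪 N P a + Module.finrank 𝒪 (eigO 𝒪 N P a) *
          Module.length 𝒪 (𝒪 ⧸ (Ideal.span {(α ^ 2 - 1) * (2 * α - t)} : Ideal 𝒪)) ∧
      Module.finrank 𝒪 (eigO 𝒪 (N * q) P' (Function.update a q α)) =
        Module.finrank 𝒪 (eigO 𝒪 N P a) := by
  classical
  letI i1 : Fintype (SL(2, ℤ) ⧸ Gamma0 N) := Fintype.ofFinite _
  letI i2 : Fintype (SL(2, ℤ) ⧸ Gamma0 (N * q)) := Fintype.ofFinite _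
  obtain ⟨F, G, hFG⟩ := exists_factor_jα (𝒪 := 𝒪) hqN hp2 hℓ hℓN α
  have hE : ∀ x ∈ eigO 𝒪 N P a, (-(eisO 𝒪 hℓ hℓN)) x = (-(a ℓ - ((ℓ : 𝒪) + 1))) • x := by
    intro x hx
    rw [LinearMap.neg_apply, eisO_apply, hx.1 ℓ hℓ hℓN hPℓ, neg_smul, sub_smul]
  have hsat := isSat_eigO (𝒪 := 𝒪) N P a
  have hinj := inj_of_factor _ _ F G (p : 𝒪) hp hFG hsat _ hu.neg hE
  have hsat' := isSat_map_of_factor _ _ F G (p : 𝒪) hp hFG hsat _ hu.neg hE
  have heq := eigO_first_eq hqN hp2 hp P P' hPP' a t α hα hTq hℓ hℓN hPℓ hu hrk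
  have hfr : Module.finrank 𝒪 (eigO 𝒪 (N * q) P' (Function.update a q α)) =
      Module.finrank 𝒪 (eigO 𝒪 N P a) := by
    rw [heq, finrank_map_of_inj _ _ hinj]
  refine ⟨?_, hfr⟩
  rw [congL_eq, congL_eq]
  by_cases hc : (α ^ 2 - 1) * (2 * α - t) = 0
  · by_cases hbot : eigO 𝒪 N P a = ⊥
    · have hbot' : eigO 𝒪 (N * q) P' (Function.update a q α) = ⊥ := by
        rw [heq, hbot, Submodule.map_bot]
      rw [length_cong_of_eq_bot _ hbot', length_cong_of_eq_bot _ hbot, hbot, finrank_bot]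
      simp
    · have hne' : (eigO 𝒪 N P a).map (jα N q α) ≠ ⊥ := by
        intro h
        apply hbot
        rw [eq_bot_iff]
        intro x hx
        have h1 : jα N q α x ∈ (eigO 𝒪 N P a).map (jα N q α) := Submodule.mem_map_of_mem hx
        rw [h] at h1
        exact (Submodule.mem_bot 𝒪).mpr (hinj x hx ((Submodule.mem_bot 𝒪).mp h1))
      have h0 : ∀ x ∈ (eigO 𝒪 N P a).map (jα N q α), ∀ y ∈ (eigO 𝒪 N P a).map (jα N q α),
          formOw 𝒪 (N * q) x y = 0 := by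
        rintro _ ⟨x, hx, rfl⟩ _ ⟨y, hy, rfl⟩
        rw [formOw_jα hqN, hTq y hy, map_smul, smul_eq_mul]
        have hq : (q : 𝒪) = t * α - α ^ 2 := by linear_combination hα
        rw [hq]
        linear_combination (formOw 𝒪 N x y) * hc
      rw [heq, length_cong_eq_top_of_gram_zero (rightPerfect_formOw hp2 hp (N * q)) hsat'
        hne' h0, hc]
      have h1 : (Ideal.span {(0 : 𝒪)} : Ideal 𝒪) = ⊥ := by
        rw [Ideal.span_singleton_eq_bot]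
      have h2 : Module.length 𝒪 (𝒪 ⧸ (Ideal.span {(0 : 𝒪)} : Ideal 𝒪)) = ⊤ := by
        rw [(Submodule.quotEquivOfEqBot _ h1).length_eq, length_self_eq_top]
      have h3 : Module.finrank 𝒪 (eigO 𝒪 N P a) ≠ 0 := fun h =>
        hbot (Submodule.finrank_eq_zero.mp h)
      rw [h2, ENat.mul_top (by exact_mod_cast h3), add_top]
  · exact length_cong_eigO_first hqN hp2 hp P P' hPP' a t α hα hTq hℓ hℓN hPℓ hu hrk hc

end First

/-! ### (HS-p) -/

section PStepMain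

variable {𝒪 : Type} [CommRing 𝒪] [IsDomain 𝒪] [IsDiscreteValuationRing 𝒪]
  [IsAdicComplete (maximalIdeal 𝒪) 𝒪]
variable {p : ℕ} [Fact p.Prime]

/-- **(HS-p): the Hecke side of the numerical criterion at the level `N p`.**
`P` = the primes dropped at level `N` (`p ∈ P`: the algebras are anemic at `p`), `a` the system at
level `N`, `T_p = t` on its eigenlattice, `X² - t X + p = (X - α)(X - β)` with `α - β` a unit;
the eigenlattice at level `N p` is the one with `U_p = α`.  `X` is any lower bound at level `N`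
(`rank · X ≤ Ω_N`; from the chain `X = c₀ + ∑ length 𝒪/(c_q)`).  Rank inputs: `hrk1` (the
eigenlattice with `U_p = α` has rank at most the rank at level `N`) and `hrk2` (the eigenlattice
anemic at `p` has rank at most twice the rank at level `N`). -/
theorem hs_pstep (hp2 : p ≠ 2) (hp : (p : 𝒪) ∈ maximalIdeal 𝒪) {N : ℕ} [NeZero N]
    (hpN : ¬ p ∣ N) {M : ℕ} [NeZero M] (hM : M = N * p) {S : Set ℕ}
    [hint : Fact (HasIntegralStructure M 2)] (θ : heckeAlgebra M 2 S →+* ResidueField 𝒪)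
    (hS : ∀ q : ℕ, q.Prime → q ∣ M → q ∈ S)
    (π : heckeLocal M S 𝒪 θ →ₐ[𝒪] 𝒪) (P : ℕ → Prop) (hPp : P p)
    (hPS : ∀ ℓ : ℕ, ℓ.Prime → ¬ ℓ ∣ M → (P ℓ ↔ ℓ ∈ S))
    (a : ℕ → 𝒪)
    (hev : ∀ (ℓ : ℕ) (hℓ : ℓ.Prime) (hℓM : ¬ ℓ ∣ M) (hℓS : ℓ ∉ S),
      π (heckeLocal.π M S 𝒪 θ (heckeAlgebra.T hℓ hℓM hℓS)) = a ℓ)
    (t α β : 𝒪) (hα : α ^ 2 - t * α + (p : 𝒪) = 0) (hβ : β ^ 2 - t * β + (p : 𝒪) = 0)
    (hαβ : IsUnit (α - β))
    (hTp : ∀ x ∈ eigO 𝒪 N P a, tO 𝒪 (Fact.out : p.Prime) hpN x = t • x)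
    (hsq : ∀ q : ℕ, q.Prime → q ≠ p → q * q ∣ M → ¬ P q →
      a q = 0 ∧ IsUnit (q : 𝒪) ∧ ¬ q * q * q ∣ M)
    (hone : ∀ (r M' : ℕ) [NeZero M'], r.Prime → r ≠ p → M = M' * r → ¬ r ∣ M' → ¬ P r →
      a r * a r = 1 ∧ ¬ ∃ χ : heckeAlgebra M' 2 S →+* ResidueField 𝒪,
        ∀ (ℓ : ℕ) (hℓ : ℓ.Prime) (hℓM : ¬ ℓ ∣ M) (hℓM' : ¬ ℓ ∣ M') (hℓS : ℓ ∉ S),
          χ (heckeAlgebra.T hℓ hℓM' hℓS) = θ (heckeAlgebra.T hℓ hℓM hℓS))
    {ℓ₁ : ℕ} (hℓ₁ : ℓ₁.Prime) (hℓ₁N : ¬ ℓ₁ ∣ N) (hPℓ₁ : ¬ P ℓ₁)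
    (hu : IsUnit (a ℓ₁ - ((ℓ₁ : 𝒪) + 1)))
    (hne : eigO 𝒪 N P a ≠ ⊥)
    (hrk1 : Module.finrank 𝒪 (eigO 𝒪 (N * p) (fun ℓ => P ℓ ∧ ℓ ≠ p) (Function.update a p α)) ≤
      Module.finrank 𝒪 (eigO 𝒪 N P a))
    (hrk2 : Module.finrank 𝒪 (eigO 𝒪 (N * p) P a) ≤ 2 * Module.finrank 𝒪 (eigO 𝒪 N P a))
    (X : ℕ∞) (hX : Module.finrank 𝒪 (eigO 𝒪 N P a) * X ≤ congL 𝒪 N P a) :
    X + Module.length 𝒪 (𝒪 ⧸ (Ideal.span {α ^ 2 - 1} : Ideal 𝒪)) ≤
      Module.length 𝒪 (𝒪 ⧸ congIdeal π) := by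
  classical
  subst hM
  letI : Fintype (SL(2, ℤ) ⧸ Gamma0 (N * p)) := Fintype.ofFinite _
  have hne_αβ : α ≠ β := by
    rintro rfl
    rw [sub_self] at hαβ
    exact not_isUnit_zero hαβ
  have hsum : α + β = t := by
    have h1 : (α - β) * (α + β - t) = 0 := by linear_combination hα - hβ
    rcases mul_eq_zero.mp h1 with h | h
    · exact absurd (sub_eq_zero.mp h) hne_αβ
    · exact sub_eq_zero.mp h
  have h2αt : 2 * α - t = α - β := by
    rw [← hsum]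
    ring
  -- the growth
  obtain ⟨hg1, hg2⟩ := congL_first hpN hp2 hp P (fun ℓ => P ℓ ∧ ℓ ≠ p)
    (fun ℓ hℓp hP' hPℓ => hP' ⟨hPℓ, hℓp⟩) a t α hα hTp hℓ₁ hℓ₁N hPℓ₁ hu hrk1
  rw [span_cα_eq t α (by rw [h2αt]; exact hαβ)] at hg1
  -- the top bound
  obtain ⟨c, hc⟩ : ∃ c : 𝒪, congIdeal π = Ideal.span {c} :=
    (IsPrincipalIdealRing.principal (congIdeal π)).principal
  have hcm : c ∈ congIdeal π := by
    rw [hc]
    exact Ideal.mem_span_singleton_self c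
  obtain ⟨s₀, hs₀, rfl⟩ := mem_congIdeal.mp hcm
  have hpM : p ∣ N * p := dvd_mul_left p N
  have hquad : ∀ y ∈ eigO 𝒪 (N * p) (fun ℓ => (P ℓ ∧ ℓ ≠ p) ∨ ℓ = p) (Function.update a p α),
      @uO 𝒪 _ (N * p) p _ ⟨(Fact.out : p.Prime)⟩ hpM
          (@uO 𝒪 _ (N * p) p _ ⟨(Fact.out : p.Prime)⟩ hpM y) -
        (Function.update a p α p + β) • @uO 𝒪 _ (N * p) p _ ⟨(Fact.out : p.Prime)⟩ hpM y +
          (Function.update a p α p * β) • y = 0 := by
    intro y hy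
    have hy' : y ∈ eigO 𝒪 (N * p) P a := by
      rw [eigO_congr (P := P) (P' := fun ℓ => (P ℓ ∧ ℓ ≠ p) ∨ ℓ = p) (a := a)
        (a' := Function.update a p α)]
      · exact hy
      · intro ℓ
        constructor
        · intro h
          by_cases hℓp : ℓ = p
          · exact Or.inr hℓp
          · exact Or.inl ⟨h, hℓp⟩
        · rintro (h | h)
          · exact h.1
          · rw [h]
            exact hPp
      · intro ℓ hPℓ
        have hℓp : ℓ ≠ p := by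
          rintro rfl
          exact hPℓ hPp
        rw [Function.update_of_ne hℓp]
    rw [Function.update_self]
    exact quad_of_finrank_le hpN hp2 hp P hPp a t α β hα hβ hne_αβ hTp hℓ₁ hℓ₁N hPℓ₁ hu hrk2 y hy'
  have hB := length_cong_eigO_le_ord θ hp2 hp hS π (fun ℓ => P ℓ ∧ ℓ ≠ p)
    (fun ℓ hℓ hℓM => by
      have hℓp : ℓ ≠ p := by
        rintro rfl
        exact hℓM hpM
      rw [← hPS ℓ hℓ hℓM]
      exact ⟨fun h => h.1, fun h => ⟨h, hℓp⟩⟩)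
    (Function.update a p α)
    (fun ℓ hℓ hℓM hℓS => by
      have hℓp : ℓ ≠ p := by
        rintro rfl
        exact hℓM hpM
      rw [hev ℓ hℓ hℓM hℓS, Function.update_of_ne hℓp])
    (Fact.out : p.Prime) hpM (fun h => h.2 rfl) β
    (by rw [Function.update_self]; exact hαβ) hquad
    (fun q hq hqp hqq hPq => by
      rw [Function.update_of_ne hqp]
      exact hsq q hq hqp hqq (fun h => hPq ⟨h, hqp⟩))
    (fun r M' _ hr hrp hM' hrM' hPr => by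
      rw [Function.update_of_ne hrp]
      exact hone r M' hr hrp hM' hrM' (fun h => hPr ⟨h, hrp⟩))
    s₀ (fun t ht => hs₀ t ht)
  rw [← congL_eq, hg1, hg2] at hB
  have hd0 : ((Module.finrank 𝒪 (eigO 𝒪 N P a) : ℕ) : ℕ∞) ≠ 0 := by
    have h3 : Module.finrank 𝒪 (eigO 𝒪 N P a) ≠ 0 := fun h =>
      hne (Submodule.finrank_eq_zero.mp h)
    exact_mod_cast h3
  have hdt : ((Module.finrank 𝒪 (eigO 𝒪 N P a) : ℕ) : ℕ∞) ≠ ⊤ := ENat.natCast_ne_top _
  rw [hc, ← ENat.mul_le_mul_left_iff hd0 hdt, mul_add]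
  exact (add_le_add hX le_rfl).trans hB

end PStepMain

end Fermat.Agent.S59lib.HS
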