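/-
S59lib / HS / Rank (helper2): the chain of levels `R0 ∏ q²` when `R0 = B · r₀` carries one
auxiliary prime `r₀` whose operator is dropped: all ranks are twice the ranks at the
`r₀`-free levels `B ∏ q²` (helper4's `SMO.r4_1`), so the chain hypothesis `ChainOK` at the
base `R0` follows from the one at the base `B`.
-/
import Mathlib
import Fermat.Agent.S59lib.HS.Chain
import Fermat.Agent.S59lib.HS.Congr
import Fermat.Agent.S59lib.SMO.R4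

set_option autoImplicit false
set_option linter.unusedSectionVars false
set_option linter.unusedVariables false
set_option linter.style.haveILetI false

noncomputable section

namespace Fermat.Agent.S59lib.HS

open Module IsLocalRing
open Fermat.Agent.S59lib.N3

section Levels

/-- moving an auxiliary factor out of the chain of levels -/
theorem lvlP_mul (B r : ℕ) : ∀ l : List Nat.Primes, lvlP (B * r) l = lvlP B l * r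
  | [] => rfl
  | q :: l => by
    rw [lvlP_cons, lvlP_cons, lvlP_mul B r l]
    ring

theorem lvlP_of_eq {R0 B r : ℕ} (h : R0 = B * r) (l : List Nat.Primes) :
    lvlP R0 l = lvlP B l * r := by
  rw [h, lvlP_mul]

/-- a prime which divides neither the base nor a member of the list does not divide the level -/
theorem not_dvd_lvlP {B r : ℕ} (hr : r.Prime) (hrB : ¬ r ∣ B) :
    ∀ l : List Nat.Primes, (∀ q ∈ l, ((q : Nat.Primes) : ℕ) ≠ r) → ¬ r ∣ lvlP B l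
  | [], _ => hrB
  | q :: l, h => by
    rw [lvlP_cons]
    intro hd
    rcases (Nat.Prime.dvd_mul hr).mp hd with hd | hd
    · rcases (Nat.Prime.dvd_mul hr).mp hd with hd | hd
      · exact not_dvd_lvlP hr hrB l (fun q' hq' => h q' (List.mem_cons_of_mem _ hq')) hd
      · exact h q List.mem_cons_self ((Nat.prime_dvd_prime_iff_eq hr q.2).mp hd).symm
    · exact h q List.mem_cons_self ((Nat.prime_dvd_prime_iff_eq hr q.2).mp hd).symm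

end Levels

section Aux

variable {𝒪 : Type} [CommRing 𝒪] [IsDomain 𝒪] [IsDiscreteValuationRing 𝒪] [CharZero 𝒪]
variable {p : ℕ} [Fact p.Prime]

/-- the members of a good chain are not dropped -/
theorem ChainOK.not_P {p R0 : ℕ} [NeZero R0] {P : ℕ → Prop} {ev₀ : ℕ → 𝒪} :
    ∀ {l : List Nat.Primes}, ChainOK p R0 P ev₀ l → ∀ q ∈ l, ¬ P ((q : Nat.Primes) : ℕ)
  | [], _, q, hq => absurd hq List.not_mem_nil
  | q' :: l, hok, q, hq => by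
    rcases List.mem_cons.mp hq with rfl | hq
    · exact hok.2.2.2.1
    · exact ChainOK.not_P hok.1 q hq

/-- **the ranks along the chain with one dropped auxiliary prime in the level**: twice the rank
at the auxiliary-free base. -/
theorem finrank_chain_aux (hp2 : p ≠ 2) (hp : (p : 𝒪) ∈ maximalIdeal 𝒪) {B r₀ R0 : ℕ} [NeZero B]
    [NeZero R0] (hR0 : R0 = B * r₀) (hr₀ : r₀.Prime) (hr₀B : ¬ r₀ ∣ B) (D : Finset ℕ)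
    (hr₀D : r₀ ∈ D) (ev₀ : ℕ → 𝒪) {ℓ : ℕ} (hℓ : ℓ.Prime) (hDℓ : ℓ ∉ D)
    (hu : IsUnit (ev₀ ℓ - ((ℓ : 𝒪) + 1))) (hne : eigO 𝒪 B (fun ℓ => ℓ ∈ D) ev₀ ≠ ⊥)
    (l : List Nat.Primes) (hokB : ChainOK p B (fun ℓ => ℓ ∈ D) ev₀ l) (hℓl : ¬ ℓ ∣ lvlP B l)
    (hD : ∀ q ∈ D, q.Prime ∧ (q = r₀ ∨ ¬ q ∣ lvlP B l)) :
    Module.finrank 𝒪 (eigO 𝒪 (lvlP R0 l) (fun ℓ => ℓ ∈ D) (evP ev₀ l)) =
      2 * Module.finrank 𝒪 (eigO 𝒪 B (fun ℓ => ℓ ∈ D) ev₀) := by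
  obtain ⟨-, hrkB⟩ := congL_chain hp2 hp B (fun ℓ => ℓ ∈ D) ev₀ hℓ hDℓ hu l hokB hℓl
  have hr₀l : ¬ r₀ ∣ lvlP B l :=
    not_dvd_lvlP hr₀ hr₀B l (fun q hq h => ChainOK.not_P hokB q hq (by rw [h]; exact hr₀D))
  haveI : NeZero (lvlP B l * r₀) := ⟨mul_ne_zero (NeZero.ne _) hr₀.ne_zero⟩
  have hneL : eigO 𝒪 (lvlP B l) (fun ℓ => ℓ ∈ D) (evP ev₀ l) ≠ ⊥ := by
    intro h
    have h0 : Module.finrank 𝒪 (eigO 𝒪 (lvlP B l) (fun ℓ => ℓ ∈ D) (evP ev₀ l)) = 0 := by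
      rw [h]; exact finrank_bot 𝒪 _
    rw [hrkB] at h0
    exact hne (Submodule.finrank_eq_zero.mp h0)
  have h4 := Fermat.Agent.S59lib.SMO.r4_1 hr₀ hr₀l D hD hr₀D 𝒪 (evP ev₀ l) hneL
  rw [finrank_eigO_level (lvlP_of_eq hR0 l), h4, hrkB]

/-- **`ChainOK` at the base `R0 = B r₀` from `ChainOK` at the auxiliary-free base `B`.** -/
theorem chainOK_of_aux (hp2 : p ≠ 2) (hp : (p : 𝒪) ∈ maximalIdeal 𝒪) {B r₀ R0 : ℕ} [NeZero B]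
    [NeZero R0] (hR0 : R0 = B * r₀) (hr₀ : r₀.Prime) (hr₀B : ¬ r₀ ∣ B) (D : Finset ℕ)
    (hr₀D : r₀ ∈ D) (ev₀ : ℕ → 𝒪) {ℓ : ℕ} (hℓ : ℓ.Prime) (hDℓ : ℓ ∉ D)
    (hu : IsUnit (ev₀ ℓ - ((ℓ : 𝒪) + 1))) (hne : eigO 𝒪 B (fun ℓ => ℓ ∈ D) ev₀ ≠ ⊥) :
    ∀ (l : List Nat.Primes), ChainOK p B (fun ℓ => ℓ ∈ D) ev₀ l → ¬ ℓ ∣ lvlP B l →
      (∀ q ∈ D, q.Prime ∧ (q = r₀ ∨ ¬ q ∣ lvlP B l)) → ChainOK p R0 (fun ℓ => ℓ ∈ D) ev₀ l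
  | [], _, _, _ => trivial
  | q :: l, hokB, hℓl, hD => by
    have hℓl' : ¬ ℓ ∣ lvlP B l := fun h => hℓl (by
      rw [lvlP_cons, mul_assoc]
      exact h.mul_right _)
    have hD' : ∀ q' ∈ D, q'.Prime ∧ (q' = r₀ ∨ ¬ q' ∣ lvlP B l) := fun q' hq' =>
      ⟨(hD q' hq').1, (hD q' hq').2.imp id (fun h hd => h (by
        rw [lvlP_cons, mul_assoc]
        exact hd.mul_right _))⟩
    have hqD : ¬ ((q : ℕ) ∈ D) := hokB.2.2.2.1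
    have hqr₀ : (q : ℕ) ≠ r₀ := fun h => hqD (by rw [h]; exact hr₀D)
    refine ⟨chainOK_of_aux hp2 hp hR0 hr₀ hr₀B D hr₀D ev₀ hℓ hDℓ hu hne l hokB.1 hℓl' hD', ?_,
      hokB.2.2.1, hqD, ?_⟩
    · rw [lvlP_of_eq hR0 l]
      intro hd
      rcases (Nat.Prime.dvd_mul q.2).mp hd with hd | hd
      · exact hokB.2.1 hd
      · exact hqr₀ ((Nat.prime_dvd_prime_iff_eq q.2 hr₀).mp hd)
    · rw [finrank_chain_aux hp2 hp hR0 hr₀ hr₀B D hr₀D ev₀ hℓ hDℓ hu hne (q :: l) hokB hℓl hD,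
        finrank_chain_aux hp2 hp hR0 hr₀ hr₀B D hr₀D ev₀ hℓ hDℓ hu hne l hokB.1 hℓl' hD']

/-- non-vanishing at the top of the chain over `R0 = B r₀` -/
theorem eigO_ne_bot_top_aux (hp2 : p ≠ 2) (hp : (p : 𝒪) ∈ maximalIdeal 𝒪) {B r₀ R0 : ℕ}
    [NeZero B] [NeZero R0] (hR0 : R0 = B * r₀) (hr₀ : r₀.Prime) (hr₀B : ¬ r₀ ∣ B) (D : Finset ℕ)
    (hr₀D : r₀ ∈ D) (ev₀ : ℕ → 𝒪) {ℓ : ℕ} (hℓ : ℓ.Prime) (hDℓ : ℓ ∉ D)
    (hu : IsUnit (ev₀ ℓ - ((ℓ : 𝒪) + 1))) (hne : eigO 𝒪 B (fun ℓ => ℓ ∈ D) ev₀ ≠ ⊥)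
    (l : List Nat.Primes) (hokB : ChainOK p B (fun ℓ => ℓ ∈ D) ev₀ l) (hℓl : ¬ ℓ ∣ lvlP B l)
    (hD : ∀ q ∈ D, q.Prime ∧ (q = r₀ ∨ ¬ q ∣ lvlP B l)) :
    eigO 𝒪 (lvlP R0 l) (fun ℓ => ℓ ∈ D) (evP ev₀ l) ≠ ⊥ := by
  intro h
  have h0 : Module.finrank 𝒪 (eigO 𝒪 (lvlP R0 l) (fun ℓ => ℓ ∈ D) (evP ev₀ l)) = 0 := by
    rw [h]; exact finrank_bot 𝒪 _
  rw [finrank_chain_aux hp2 hp hR0 hr₀ hr₀B D hr₀D ev₀ hℓ hDℓ hu hne l hokB hℓl hD] at h0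
  have h1 : Module.finrank 𝒪 (eigO 𝒪 B (fun ℓ => ℓ ∈ D) ev₀) = 0 := by omega
  exact hne (Submodule.finrank_eq_zero.mp h1)

/-- non-vanishing at the top of a chain (no auxiliary prime) -/
theorem eigO_ne_bot_top (hp2 : p ≠ 2) (hp : (p : 𝒪) ∈ maximalIdeal 𝒪) (R0 : ℕ) [NeZero R0]
    (P : ℕ → Prop) (ev₀ : ℕ → 𝒪) {ℓ : ℕ} (hℓ : ℓ.Prime) (hPℓ : ¬ P ℓ)
    (hu : IsUnit (ev₀ ℓ - ((ℓ : 𝒪) + 1))) (hne : eigO 𝒪 R0 P ev₀ ≠ ⊥)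
    (l : List Nat.Primes) (hok : ChainOK p R0 P ev₀ l) (hℓl : ¬ ℓ ∣ lvlP R0 l) :
    eigO 𝒪 (lvlP R0 l) P (evP ev₀ l) ≠ ⊥ := by
  obtain ⟨-, hrk⟩ := congL_chain hp2 hp R0 P ev₀ hℓ hPℓ hu l hok hℓl
  intro h
  have h0 : Module.finrank 𝒪 (eigO 𝒪 (lvlP R0 l) P (evP ev₀ l)) = 0 := by
    rw [h]; exact finrank_bot 𝒪 _
  rw [hrk] at h0
  exact hne (Submodule.finrank_eq_zero.mp h0)

end Aux

end Fermat.Agent.S59lib.HS
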